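import Mathlib

/-! S20 package P7b, auxiliary file: the pure arithmetic behind the dimension formula. -/

set_option autoImplicit false

namespace Fermat.Agent.S20

open Finset

/-- Fibrewise evaluation of a sum over a family with values in `{0,2,4,6,8,10}`. -/
lemma arith_sum_fiber {X : Type} [Fintype X] (κ : X → ℤ)
    (h0 : ∀ j, 0 ≤ κ j) (h10 : ∀ j, κ j ≤ 10) (hev : ∀ j, Even (κ j))
    {M : Type*} [AddCommMonoid M] (F : ℤ → M) :
    ∑ j, F (κ j) =
      Fintype.card {j : X // κ j = 0} • F 0 + Fintype.card {j : X // κ j = 2} • F 2 +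
      Fintype.card {j : X // κ j = 4} • F 4 + Fintype.card {j : X // κ j = 6} • F 6 +
      Fintype.card {j : X // κ j = 8} • F 8 + Fintype.card {j : X // κ j = 10} • F 10 := by
  classical
  have hmem : ∀ j ∈ (univ : Finset X), κ j ∈ ({0, 2, 4, 6, 8, 10} : Finset ℤ) := by
    intro j _
    obtain ⟨r, hr⟩ := hev j
    have h1 := h0 j
    have h2 := h10 j
    have : κ j = 0 ∨ κ j = 2 ∨ κ j = 4 ∨ κ j = 6 ∨ κ j = 8 ∨ κ j = 10 := by omega
    simpa using this
  rw [← Finset.sum_fiberwise_of_maps_to hmem (fun j => F (κ j))]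
  have hinner : ∀ v : ℤ, ∑ j ∈ univ.filter (fun j => κ j = v), F (κ j) =
      Fintype.card {j : X // κ j = v} • F v := by
    intro v
    rw [Fintype.card_subtype, ← Finset.sum_const]
    refine Finset.sum_congr rfl fun j hj => ?_
    rw [(Finset.mem_filter.mp hj).2]
  simp only [hinner]
  rw [Finset.sum_insert (by decide), Finset.sum_insert (by decide), Finset.sum_insert (by decide),
    Finset.sum_insert (by decide), Finset.sum_insert (by decide), Finset.sum_singleton]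
  abel

/-- `ρ = exp(π i / 3) = 1/2 + (√3/2) i`. -/
lemma arith_rho_eq : Complex.exp (Real.pi * Complex.I / 3) =
    (1 / 2 : ℂ) + ((Real.sqrt 3 / 2 : ℝ) : ℂ) * Complex.I := by
  have e : (Real.pi * Complex.I / 3 : ℂ) = ((Real.pi / 3 : ℝ) : ℂ) * Complex.I := by
    push_cast; ring
  rw [e, Complex.exp_mul_I, ← Complex.ofReal_cos, ← Complex.ofReal_sin,
    Real.cos_pi_div_three, Real.sin_pi_div_three]
  push_cast; ring

/-- `ρ = exp(π i / 3)` satisfies `ρ² = ρ - 1`. -/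
lemma arith_rho_sq : Complex.exp (Real.pi * Complex.I / 3) ^ 2 =
    Complex.exp (Real.pi * Complex.I / 3) - 1 := by
  have h3 : ((Real.sqrt 3 : ℝ) : ℂ) ^ 2 = 3 := by
    rw [← Complex.ofReal_pow, Real.sq_sqrt (by norm_num : (0 : ℝ) ≤ 3)]
    norm_num
  rw [arith_rho_eq]
  push_cast
  linear_combination (-(1 / 4 : ℂ)) * h3 +
    ((1 / 4 : ℂ) * ((Real.sqrt 3 : ℝ) : ℂ) ^ 2) * Complex.I_sq

lemma arith_rho_im : (Complex.exp (Real.pi * Complex.I / 3)).im = Real.sqrt 3 / 2 := by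
  rw [arith_rho_eq]
  simp

lemma arith_rho_zpow (r : ℂ) (hr2 : r ^ 2 = r - 1) :
    r ^ (-(0 : ℤ)) = 1 ∧ r ^ (-(2 : ℤ)) = -r ∧ r ^ (-(4 : ℤ)) = r - 1 ∧
      r ^ (-(6 : ℤ)) = 1 ∧ r ^ (-(8 : ℤ)) = -r ∧ r ^ (-(10 : ℤ)) = r - 1 := by
  have hinv : r⁻¹ = 1 - r := by
    apply inv_eq_of_mul_eq_one_right
    linear_combination (-1 : ℂ) * hr2
  have key : ∀ n : ℕ, r ^ (-(n : ℤ)) = (1 - r) ^ n := by
    intro n
    rw [zpow_neg, zpow_natCast, ← inv_pow, hinv]
  have e2 : (1 - r) ^ 2 = -r := by linear_combination hr2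
  refine ⟨by simp, ?_, ?_, ?_, ?_, ?_⟩
  · exact_mod_cast (key 2).trans e2
  · have : (1 - r) ^ 4 = r - 1 := by
      have : (1 - r) ^ 4 = ((1 - r) ^ 2) ^ 2 := by ring
      rw [this, e2]; linear_combination hr2
    exact_mod_cast (key 4).trans this
  · have : (1 - r) ^ 6 = 1 := by
      have : (1 - r) ^ 6 = ((1 - r) ^ 2) ^ 3 := by ring
      rw [this, e2]; linear_combination (-(r + 1)) * hr2
    exact_mod_cast (key 6).trans this
  · have : (1 - r) ^ 8 = -r := by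
      have : (1 - r) ^ 8 = ((1 - r) ^ 2) ^ 4 := by ring
      rw [this, e2]; linear_combination (r * (r + 1)) * hr2
    exact_mod_cast (key 8).trans this
  · have : (1 - r) ^ 10 = r - 1 := by
      have : (1 - r) ^ 10 = ((1 - r) ^ 2) ^ 5 := by ring
      rw [this, e2]; linear_combination (-(r ^ 3 + r ^ 2 - 1)) * hr2
    exact_mod_cast (key 10).trans this

lemma arith_I_zpow :
    Complex.I ^ (-(0 : ℤ)) = 1 ∧ Complex.I ^ (-(2 : ℤ)) = -1 ∧ Complex.I ^ (-(4 : ℤ)) = 1 ∧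
      Complex.I ^ (-(6 : ℤ)) = -1 ∧ Complex.I ^ (-(8 : ℤ)) = 1 ∧
      Complex.I ^ (-(10 : ℤ)) = -1 := by
  have key : ∀ n : ℕ, Complex.I ^ (-(n : ℤ)) = (Complex.I ^ n)⁻¹ := by
    intro n
    rw [zpow_neg, zpow_natCast]
  have e2 : Complex.I ^ 2 = -1 := Complex.I_sq
  have e4 : Complex.I ^ 4 = 1 := by
    have : Complex.I ^ 4 = (Complex.I ^ 2) ^ 2 := by ring
    rw [this, e2]; norm_num
  have e6 : Complex.I ^ 6 = -1 := by
    have : Complex.I ^ 6 = (Complex.I ^ 2) ^ 3 := by ring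
    rw [this, e2]; norm_num
  have e8 : Complex.I ^ 8 = 1 := by
    have : Complex.I ^ 8 = (Complex.I ^ 2) ^ 4 := by ring
    rw [this, e2]; norm_num
  have e10 : Complex.I ^ 10 = -1 := by
    have : Complex.I ^ 10 = (Complex.I ^ 2) ^ 5 := by ring
    rw [this, e2]; norm_num
  refine ⟨by simp, ?_, ?_, ?_, ?_, ?_⟩
  · have := key 2; rw [e2, inv_neg, inv_one] at this; exact_mod_cast this
  · have := key 4; rw [e4, inv_one] at this; exact_mod_cast this
  · have := key 6; rw [e6, inv_neg, inv_one] at this; exact_mod_cast this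
  · have := key 8; rw [e8, inv_one] at this; exact_mod_cast this
  · have := key 10; rw [e10, inv_neg, inv_one] at this; exact_mod_cast this

/-- Pure arithmetic: the six linear relations determine the number of weight-10 generators. -/
theorem arith_core_aux {X : Type} [Fintype X] (κ : X → ℤ) (μ ν₂ ν₃ c : ℕ)
    (h0 : ∀ j, 0 ≤ κ j) (h10 : ∀ j, κ j ≤ 10) (hev : ∀ j, Even (κ j))
    (hcard : Fintype.card X = μ)
    (hzero : Fintype.card {j : X // κ j = 0} = 1)
    (hS : (ν₂ : ℂ) = ∑ j, Complex.I ^ (-κ j))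
    (hST : (ν₃ : ℂ) = ∑ j, Complex.exp (Real.pi * Complex.I / 3) ^ (-κ j))
    (hsum : ∑ j, κ j = 6 * ((μ : ℤ) - c)) :
    (Fintype.card {j : X // κ j = 10} : ℚ) =
      1 + (μ : ℚ) / 12 - (ν₂ : ℚ) / 4 - (ν₃ : ℚ) / 3 - (c : ℚ) / 2 := by
  classical
  set r : ℂ := Complex.exp (Real.pi * Complex.I / 3) with hr
  obtain ⟨r0, r2, r4, r6, r8, r10⟩ := arith_rho_zpow r arith_rho_sq
  obtain ⟨i0, i2, i4, i6, i8, i10⟩ := arith_I_zpow
  have hrim : r.im = Real.sqrt 3 / 2 := arith_rho_im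
  -- abbreviations
  generalize hn0 : Fintype.card {j : X // κ j = 0} = n0 at hzero ⊢
  generalize hn2 : Fintype.card {j : X // κ j = 2} = n2
  generalize hn4 : Fintype.card {j : X // κ j = 4} = n4
  generalize hn6 : Fintype.card {j : X // κ j = 6} = n6
  generalize hn8 : Fintype.card {j : X // κ j = 8} = n8
  generalize hn10 : Fintype.card {j : X // κ j = 10} = n10
  -- (1) cardinality
  have E1 : (μ : ℚ) = n0 + n2 + n4 + n6 + n8 + n10 := by
    have h := arith_sum_fiber κ h0 h10 hev (fun _ => (1 : ℕ))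
    rw [hn0, hn2, hn4, hn6, hn8, hn10] at h
    simp only [Finset.sum_const, Finset.card_univ, smul_eq_mul, mul_one] at h
    rw [hcard] at h
    exact_mod_cast h
  -- (2) trace of S
  have E2 : (ν₂ : ℚ) = n0 - n2 + n4 - n6 + n8 - n10 := by
    have h := arith_sum_fiber κ h0 h10 hev (fun v => Complex.I ^ (-v))
    rw [hn0, hn2, hn4, hn6, hn8, hn10] at h
    simp only [i0, i2, i4, i6, i8, i10] at h
    rw [← hS] at h
    have h' : ((ν₂ : ℤ) : ℂ) = (((n0 : ℤ) - n2 + n4 - n6 + n8 - n10 : ℤ) : ℂ) := by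
      push_cast
      rw [h]
      simp only [nsmul_eq_mul]
      ring
    have h'' : (ν₂ : ℤ) = (n0 : ℤ) - n2 + n4 - n6 + n8 - n10 := by exact_mod_cast h'
    have : ((ν₂ : ℤ) : ℚ) = (((n0 : ℤ) - n2 + n4 - n6 + n8 - n10 : ℤ) : ℚ) := by rw [h'']
    push_cast at this
    exact this
  -- (3) trace of ST
  have E3 : (ν₃ : ℝ) = n0 - n4 + n6 - n10 ∧ (n4 : ℝ) + n10 = n2 + n8 := by
    have h := arith_sum_fiber κ h0 h10 hev (fun v => r ^ (-v))
    rw [hn0, hn2, hn4, hn6, hn8, hn10] at h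
    simp only [r0, r2, r4, r6, r8, r10] at h
    rw [← hST] at h
    have h' : ((ν₃ : ℝ) : ℂ) = (((n0 : ℝ) - n4 + n6 - n10 : ℝ) : ℂ) +
        (((n4 : ℝ) + n10 - n2 - n8 : ℝ) : ℂ) * r := by
      push_cast
      rw [h]
      simp only [nsmul_eq_mul]
      ring
    have him := congrArg Complex.im h'
    rw [Complex.ofReal_im, Complex.add_im, Complex.ofReal_im, Complex.im_ofReal_mul, hrim,
      zero_add] at him
    have hs : (0 : ℝ) < Real.sqrt 3 / 2 := by positivity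
    have hz : ((n4 : ℝ) + n10 - n2 - n8) = 0 := by
      rcases mul_eq_zero.mp him.symm with h1 | h1
      · exact h1
      · exact absurd h1 hs.ne'
    rw [hz] at h'
    constructor
    · have : ((ν₃ : ℝ) : ℂ) = (((n0 : ℝ) - n4 + n6 - n10 : ℝ) : ℂ) := by
        rw [h']; simp
      exact_mod_cast this
    · linarith
  have E3' : (ν₃ : ℚ) = n0 - n4 + n6 - n10 := by
    have h1 : ((ν₃ : ℤ) : ℝ) = (((n0 : ℤ) - n4 + n6 - n10 : ℤ) : ℝ) := by
      push_cast; exact E3.1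
    have h2 : (ν₃ : ℤ) = (n0 : ℤ) - n4 + n6 - n10 := by exact_mod_cast h1
    have : ((ν₃ : ℤ) : ℚ) = (((n0 : ℤ) - n4 + n6 - n10 : ℤ) : ℚ) := by rw [h2]
    push_cast at this
    exact this
  -- (4) sum of the weights
  have E4 : (6 : ℚ) * (μ - c) = 2 * n2 + 4 * n4 + 6 * n6 + 8 * n8 + 10 * n10 := by
    have h := arith_sum_fiber κ h0 h10 hev (fun v => v)
    rw [hn0, hn2, hn4, hn6, hn8, hn10] at h
    simp only [nsmul_eq_mul] at h
    rw [hsum] at h
    have : ((6 * ((μ : ℤ) - c) : ℤ) : ℚ) =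
        (((n0 : ℤ) * 0 + n2 * 2 + n4 * 4 + n6 * 6 + n8 * 8 + n10 * 10 : ℤ) : ℚ) := by
      rw [h]
    push_cast at this
    linarith
  have E0 : (n0 : ℚ) = 1 := by exact_mod_cast hzero
  linarith

end Fermat.Agent.S20
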