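import Fermat.Agent.S20.Wronskian

/-! S20 package P6: duality — the rows of `Δ · Φ⁻¹` are cusp forms and generate
the cusp forms freely. -/

set_option autoImplicit false
set_option linter.unusedSectionVars false

open UpperHalfPlane ModularForm CongruenceSubgroup
open scoped MatrixGroups Manifold ModularForm

namespace Fermat.Agent.S20

local notation "Δ" => ModularForm.discriminant

namespace DualityAux

/-- The determinant of a matrix of holomorphic functions is holomorphic. -/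
lemma mdiff_det {X : Type} [Fintype X] [DecidableEq X] {M : ℍ → Matrix X X ℂ}
    (hM : ∀ x y, MDiff (fun z => M z x y)) : MDiff (fun z => (M z).det) := by
  have h : (fun z => (M z).det) =
      ∑ σ : Equiv.Perm X, (fun _ : ℍ => ((Equiv.Perm.sign σ : ℤ) : ℂ)) *
        ∏ i, fun z => M z (σ i) i := by
    ext z
    simp [Matrix.det_apply', Finset.sum_apply, Finset.prod_apply]
  rw [h]
  exact MDifferentiable.sum fun σ _ =>
    mdifferentiable_const.mul (MDifferentiable.prod fun i _ => hM _ _)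

/-- The entries of the inverse of an invertible matrix of holomorphic functions are
holomorphic. -/
lemma mdiff_inv {X : Type} [Fintype X] [DecidableEq X] {M : ℍ → Matrix X X ℂ}
    (hM : ∀ x y, MDiff (fun z => M z x y)) (hdet : ∀ z, (M z).det ≠ 0) (j x : X) :
    MDiff (fun z => (M z)⁻¹ j x) := by
  have h : (fun z => (M z)⁻¹ j x) =
      (fun z => (M z).det)⁻¹ * fun z => ((M z).updateRow x (Pi.single j 1)).det := by
    ext z
    simp [Matrix.inv_def, Ring.inverse_eq_inv', Matrix.adjugate_apply]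
  rw [h]
  refine ((mdiff_det hM).inv hdet).mul (mdiff_det fun a b => ?_)
  by_cases hax : a = x
  · subst hax
    simpa using (mdifferentiable_const : MDiff (fun _ : ℍ => (Pi.single j 1 : X → ℂ) b))
  · simpa [Matrix.updateRow_ne hax] using hM a b

/-- A finite sum of functions vanishing at `i∞` vanishes at `i∞`. -/
lemma isZeroAtImInfty_sum {ι : Type} (s : Finset ι) {F : ι → ℍ → ℂ}
    (h : ∀ i ∈ s, IsZeroAtImInfty (F i)) : IsZeroAtImInfty (∑ i ∈ s, F i) := by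
  classical
  induction s using Finset.induction_on with
  | empty => rw [Finset.sum_empty]; exact Filter.zero_zeroAtFilter _
  | insert i t hi IH =>
    rw [Finset.sum_insert hi]
    exact Filter.ZeroAtFilter.add (h i (Finset.mem_insert_self i t))
      (IH fun i' hi' => h i' (Finset.mem_insert_of_mem hi'))

section

variable {Γ : Subgroup SL(2, ℤ)} [Fintype (SL(2, ℤ) ⧸ Γ)]
  [DecidableEq (SL(2, ℤ) ⧸ Γ)] {κ : SL(2, ℤ) ⧸ Γ → ℤ} {φ : SL(2, ℤ) ⧸ Γ → ℍ → ℂ}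

/-- The entries of `Δ · Φ⁻¹`. -/
noncomputable def dualFun (Γ : Subgroup SL(2, ℤ)) [Fintype (SL(2, ℤ) ⧸ Γ)]
    [DecidableEq (SL(2, ℤ) ⧸ Γ)] (κ : SL(2, ℤ) ⧸ Γ → ℤ) (φ : SL(2, ℤ) ⧸ Γ → ℍ → ℂ)
    (j x : SL(2, ℤ) ⧸ Γ) : ℍ → ℂ :=
  fun z => Δ z * (fundMatrix Γ κ φ z)⁻¹ j x

lemma smul_one_coset {γ : SL(2, ℤ)} (hγ : γ ∈ Γ) :
    γ⁻¹ • ((1 : SL(2, ℤ)) : SL(2, ℤ) ⧸ Γ) = ((1 : SL(2, ℤ)) : SL(2, ℤ) ⧸ Γ) := by
  have : γ⁻¹ • ((1 : SL(2, ℤ)) : SL(2, ℤ) ⧸ Γ) = ((γ⁻¹ * 1 : SL(2, ℤ)) : SL(2, ℤ) ⧸ Γ) := rfl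
  rw [this, QuotientGroup.eq]
  simpa using hγ

lemma out_smul_one_coset (x : SL(2, ℤ) ⧸ Γ) :
    ((Quotient.out x)⁻¹)⁻¹ • ((1 : SL(2, ℤ)) : SL(2, ℤ) ⧸ Γ) = x := by
  have : ((Quotient.out x)⁻¹)⁻¹ • ((1 : SL(2, ℤ)) : SL(2, ℤ) ⧸ Γ) =
      ((((Quotient.out x)⁻¹)⁻¹ * 1 : SL(2, ℤ)) : SL(2, ℤ) ⧸ Γ) := rfl
  rw [this, inv_inv, mul_one]
  exact QuotientGroup.out_eq' x

lemma fundMatrix_smul (hb : IsHomBasis Γ κ φ) (σ : SL(2, ℤ)) (z : ℍ) (x j : SL(2, ℤ) ⧸ Γ) :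
    fundMatrix Γ κ φ (σ • z) x j = denom σ z ^ (κ j) * fundMatrix Γ κ φ z (σ⁻¹ • x) j := by
  have h := congrFun (comp_slash (hb.mem j).2.1 σ x) z
  rw [SL_slash_apply] at h
  have hne : denom σ z ≠ 0 := denom_ne_zero σ z
  simp only [fundMatrix, Matrix.of_apply]
  rw [← h, mul_comm, mul_assoc, ← zpow_add₀ hne]
  simp

lemma inv_fundMatrix_smul (hb : IsHomBasis Γ κ φ) (hdet : ∀ z, (fundMatrix Γ κ φ z).det ≠ 0)
    (σ : SL(2, ℤ)) (z : ℍ) (j x : SL(2, ℤ) ⧸ Γ) :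
    (fundMatrix Γ κ φ (σ • z))⁻¹ j x =
      denom σ z ^ (-κ j) * (fundMatrix Γ κ φ z)⁻¹ j (σ⁻¹ • x) := by
  have hne : denom σ z ≠ 0 := denom_ne_zero σ z
  set B : Matrix (SL(2, ℤ) ⧸ Γ) (SL(2, ℤ) ⧸ Γ) ℂ :=
    Matrix.of fun j x => denom σ z ^ (-κ j) * (fundMatrix Γ κ φ z)⁻¹ j (σ⁻¹ • x) with hB
  have hBA : B * fundMatrix Γ κ φ (σ • z) = 1 := by
    ext j j'
    rw [Matrix.mul_apply]
    have h1 : ∀ x, B j x * fundMatrix Γ κ φ (σ • z) x j' =
        denom σ z ^ (κ j' - κ j) *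
          ((fundMatrix Γ κ φ z)⁻¹ j (σ⁻¹ • x) * fundMatrix Γ κ φ z (σ⁻¹ • x) j') := by
      intro x
      rw [fundMatrix_smul hb, hB, Matrix.of_apply, sub_eq_add_neg, zpow_add₀ hne]
      ring
    simp_rw [h1]
    have h2 := Equiv.sum_comp (MulAction.toPerm (σ⁻¹ : SL(2, ℤ)))
      (fun y => (fundMatrix Γ κ φ z)⁻¹ j y * fundMatrix Γ κ φ z y j')
    simp only [MulAction.toPerm_apply] at h2
    rw [← Finset.mul_sum, h2, ← Matrix.mul_apply,
      Matrix.nonsing_inv_mul _ (isUnit_iff_ne_zero.mpr (hdet z)), Matrix.one_apply]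
    split_ifs with hjj
    · subst hjj; simp
    · simp
  rw [Matrix.inv_eq_left_inv hBA, hB, Matrix.of_apply]

lemma dualFun_slash (hb : IsHomBasis Γ κ φ) (hdet : ∀ z, (fundMatrix Γ κ φ z).det ≠ 0)
    (σ : SL(2, ℤ)) (j x : SL(2, ℤ) ⧸ Γ) :
    (dualFun Γ κ φ j x) ∣[12 - κ j] σ = dualFun Γ κ φ j (σ⁻¹ • x) := by
  ext z
  have hne : denom σ z ≠ 0 := denom_ne_zero σ z
  have hΔ : Δ (σ • z) = Δ z * denom σ z ^ (12 : ℤ) := by
    have h := congrFun (discriminant_mem.2.1 σ (Subgroup.mem_top σ)) z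
    rw [SL_slash_apply] at h
    rw [← h, mul_assoc, ← zpow_add₀ hne]; simp
  rw [SL_slash_apply]
  simp only [dualFun]
  rw [inv_fundMatrix_smul hb hdet, hΔ]
  have h1 : denom σ z ^ (12 : ℤ) * denom σ z ^ (-κ j) * denom σ z ^ (-(12 - κ j)) = 1 := by
    rw [← zpow_add₀ hne, ← zpow_add₀ hne]
    have : (12 : ℤ) + -κ j + -(12 - κ j) = 0 := by ring
    rw [this, zpow_zero]
  linear_combination (Δ z * (fundMatrix Γ κ φ z)⁻¹ j (σ⁻¹ • x)) * h1

lemma mdiff_dualFun (hb : IsHomBasis Γ κ φ) (hdet : ∀ z, (fundMatrix Γ κ φ z).det ≠ 0)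
    (j x : SL(2, ℤ) ⧸ Γ) : MDiff (dualFun Γ κ φ j x) := by
  have h : dualFun Γ κ φ j x = (Δ : ℍ → ℂ) * fun z => (fundMatrix Γ κ φ z)⁻¹ j x := rfl
  rw [h]
  refine discriminant_mem.1.mul (mdiff_inv (fun a b => ?_) hdet j x)
  exact mdiff_comp (hb.mem b).1 a

/-- `ψ_j = Δ · (Φ⁻¹)_{j, x₀}` is a cusp form of weight `12 - κ_j`. -/
lemma dualFun_mem (hb : IsHomBasis Γ κ φ) (hdet : ∀ z, (fundMatrix Γ κ φ z).det ≠ 0)
    (hz : ∀ j x : SL(2, ℤ) ⧸ Γ, IsZeroAtImInfty (fun z : ℍ => Δ z * (fundMatrix Γ κ φ z)⁻¹ j x))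
    (j : SL(2, ℤ) ⧸ Γ) :
    dualFun Γ κ φ j ((1 : SL(2, ℤ)) : SL(2, ℤ) ⧸ Γ) ∈ SFun Γ (12 - κ j) := by
  refine ⟨mdiff_dualFun hb hdet j _, fun γ hγ => ?_, fun γ => ?_⟩
  · rw [dualFun_slash hb hdet, smul_one_coset hγ]
  · rw [dualFun_slash hb hdet]; exact hz j _

/-- All entries of row `j` of `Δ · Φ⁻¹` are translates of `ψ_j`. -/
lemma dualFun_eq_slash (hb : IsHomBasis Γ κ φ) (hdet : ∀ z, (fundMatrix Γ κ φ z).det ≠ 0)
    (j x : SL(2, ℤ) ⧸ Γ) :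
    dualFun Γ κ φ j x =
      (dualFun Γ κ φ j ((1 : SL(2, ℤ)) : SL(2, ℤ) ⧸ Γ)) ∣[12 - κ j] (Quotient.out x)⁻¹ := by
  rw [dualFun_slash hb hdet, out_smul_one_coset]

lemma dualFun_ne_zero (hb : IsHomBasis Γ κ φ) (hdet : ∀ z, (fundMatrix Γ κ φ z).det ≠ 0)
    (j : SL(2, ℤ) ⧸ Γ) : dualFun Γ κ φ j ((1 : SL(2, ℤ)) : SL(2, ℤ) ⧸ Γ) ≠ 0 := by
  intro h0
  have hrow : ∀ x, dualFun Γ κ φ j x = 0 := fun x => by
    rw [dualFun_eq_slash hb hdet, h0, SlashAction.zero_slash]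
  have hrow' : ∀ x, (fundMatrix Γ κ φ UpperHalfPlane.I)⁻¹ j x = 0 := fun x => by
    have := congrFun (hrow x) UpperHalfPlane.I
    simp only [dualFun, Pi.zero_apply, mul_eq_zero] at this
    exact this.resolve_left (discriminant_ne_zero _)
  have h1 := congrFun (congrFun (Matrix.nonsing_inv_mul (fundMatrix Γ κ φ UpperHalfPlane.I)
    (isUnit_iff_ne_zero.mpr (hdet _))) j) j
  rw [Matrix.mul_apply] at h1
  simp [hrow'] at h1

/-- The "trace pairing" of a cusp form with a basis element is a level-one cusp form. -/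
lemma trace_mul_mem (hb : IsHomBasis Γ κ φ) {k : ℤ} {h : ℍ → ℂ} (hh : h ∈ SFun Γ k)
    (j : SL(2, ℤ) ⧸ Γ) :
    (∑ x, comp Γ (κ j) (φ j) x * comp Γ k h x) ∈ SFun ⊤ (κ j + k) := by
  rw [mem_SFun_top_iff]
  refine ⟨MDifferentiable.sum fun x _ => (mdiff_comp (hb.mem j).1 x).mul (mdiff_comp hh.1 x),
    fun γ => ?_, ?_⟩
  · rw [SlashAction.sum_slash]
    have h1 : ∀ x, (comp Γ (κ j) (φ j) x * comp Γ k h x) ∣[κ j + k] γ =
        comp Γ (κ j) (φ j) (γ⁻¹ • x) * comp Γ k h (γ⁻¹ • x) := fun x => by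
      rw [mul_slash_SL2, comp_slash (hb.mem j).2.1, comp_slash hh.2.1]
    simp_rw [h1]
    have h2 := Equiv.sum_comp (MulAction.toPerm (γ⁻¹ : SL(2, ℤ)))
      (fun y => comp Γ (κ j) (φ j) y * comp Γ k h y)
    simp only [MulAction.toPerm_apply] at h2
    exact h2
  · refine isZeroAtImInfty_sum _ fun x _ => ?_
    have := (isZeroAtImInfty_comp hh x).mul_boundedAtFilter (isBoundedAtImInfty_comp (hb.mem j) x)
    rwa [mul_comm] at this

end

end DualityAux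

open DualityAux

variable {Γ : Subgroup SL(2, ℤ)} [Γ.FiniteIndex] [Fintype (SL(2, ℤ) ⧸ Γ)]
  [DecidableEq (SL(2, ℤ) ⧸ Γ)] {κ : SL(2, ℤ) ⧸ Γ → ℤ} {φ : SL(2, ℤ) ⧸ Γ → ℍ → ℂ}

theorem card_weight_zero (hb : IsHomBasis Γ κ φ) :
    Fintype.card {j : SL(2, ℤ) ⧸ Γ // κ j = 0} = 1 := by
  rw [Fintype.card_eq_one_iff]
  have hconst : ∀ c : ℂ, (fun _ : ℍ => c) ∈ MFun (⊤ : Subgroup SL(2, ℤ)) 0 := fun c => by
    have h := (MFun (⊤ : Subgroup SL(2, ℤ)) 0).smul_mem c (one_mem_MFun_zero ⊤)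
    have h' : c • (1 : ℍ → ℂ) = fun _ : ℍ => c := by ext z; simp
    rwa [h'] at h
  -- existence
  obtain ⟨a, ha, h1⟩ := hb.span 0 1 (one_mem_MFun_zero Γ)
  have hex : ∃ j, κ j = 0 := by
    by_contra hne
    push Not at hne
    have ha0 : ∀ j, a j = 0 := fun j => by
      have hneg : 0 - κ j < 0 := by
        have h1 := weight_nonneg hb j
        have h2 := hne j
        omega
      have h3 := ha j
      rw [MFun_top_eq_bot_of_neg hneg] at h3
      simpa using h3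
    have h0 : (1 : ℍ → ℂ) = 0 := by rw [h1]; simp [ha0]
    exact one_ne_zero (congrFun h0 UpperHalfPlane.I)
  obtain ⟨j0, hj0⟩ := hex
  refine ⟨⟨j0, hj0⟩, fun ⟨j, hj⟩ => ?_⟩
  by_contra hne
  have hjj : j ≠ j0 := fun h => hne (Subtype.ext h)
  obtain ⟨c, hc⟩ := exists_const_of_mem_MFun_zero (hj ▸ hb.mem j)
  obtain ⟨c0, hc0⟩ := exists_const_of_mem_MFun_zero (hj0 ▸ hb.mem j0)
  let a' : (SL(2, ℤ) ⧸ Γ) → ℍ → ℂ := fun i =>
    if i = j then (fun _ => c0) else if i = j0 then (fun _ => -c) else 0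
  have ha' : ∀ i, a' i ∈ MFun (⊤ : Subgroup SL(2, ℤ)) (0 - κ i) := by
    intro i
    by_cases hij : i = j
    · subst hij
      simp only [a', if_true, hj, sub_zero]
      exact hconst c0
    · by_cases hij0 : i = j0
      · subst hij0
        simp only [a', if_neg hij, if_true, hj0, sub_zero]
        exact hconst (-c)
      · simp only [a', if_neg hij, if_neg hij0]
        exact Submodule.zero_mem _
  have hrel : ∑ i, a' i * φ i = 0 := by
    rw [Finset.sum_eq_add_of_mem j j0 (Finset.mem_univ _) (Finset.mem_univ _) hjj]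
    · simp only [a', if_true, if_neg hjj.symm]
      ext z
      simp [hc, hc0]
      ring
    · intro i _ hi
      simp only [a', if_neg hi.1, if_neg hi.2, zero_mul]
  have h3 := hb.indep 0 a' ha' hrel j
  simp only [a', if_true] at h3
  have hc0' : c0 = 0 := congrFun h3 UpperHalfPlane.I
  exact basis_ne_zero hb j0 (by rw [hc0, hc0']; rfl)

theorem weight_le_ten (hΓ : -1 ∈ Γ) (hb : IsHomBasis Γ κ φ) (hd : DetFormula Γ κ φ)
    (hz : ∀ j x : SL(2, ℤ) ⧸ Γ, IsZeroAtImInfty (fun z : ℍ => Δ z * (fundMatrix Γ κ φ z)⁻¹ j x))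
    (j : SL(2, ℤ) ⧸ Γ) : κ j ≤ 10 := by
  have hmem := dualFun_mem hb hd.det_ne_zero hz j
  have hne := dualFun_ne_zero hb hd.det_ne_zero j
  have hlt : ¬ (12 - κ j ≤ 0) := fun hle => by
    rw [SFun_eq_bot_of_nonpos hle] at hmem
    exact hne (by simpa using hmem)
  obtain ⟨r, hr⟩ := weight_even hΓ hb j
  omega

theorem finrank_SFun_two (hΓ : -1 ∈ Γ) (hb : IsHomBasis Γ κ φ) (hd : DetFormula Γ κ φ)
    (hz : ∀ j x : SL(2, ℤ) ⧸ Γ, IsZeroAtImInfty (fun z : ℍ => Δ z * (fundMatrix Γ κ φ z)⁻¹ j x)) :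
    Module.finrank ℂ (SFun Γ 2) = Fintype.card {j : SL(2, ℤ) ⧸ Γ // κ j = 10} := by
  have hdet := hd.det_ne_zero
  have hmem2 : ∀ j : {j : SL(2, ℤ) ⧸ Γ // κ j = 10},
      dualFun Γ κ φ j.1 ((1 : SL(2, ℤ)) : SL(2, ℤ) ⧸ Γ) ∈ SFun Γ 2 := fun j => by
    have h := dualFun_mem hb hdet hz j.1
    rwa [j.2, show (12 : ℤ) - 10 = 2 by norm_num] at h
  let ψ : {j : SL(2, ℤ) ⧸ Γ // κ j = 10} → SFun Γ 2 := fun j => ⟨_, hmem2 j⟩
  -- linear independence
  have hli : LinearIndependent ℂ ψ := by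
    rw [Fintype.linearIndependent_iff]
    intro c hc j0
    have hc' : ∑ j : {j : SL(2, ℤ) ⧸ Γ // κ j = 10},
        c j • dualFun Γ κ φ j.1 ((1 : SL(2, ℤ)) : SL(2, ℤ) ⧸ Γ) = 0 := by
      have := congrArg Subtype.val hc
      simpa [ψ, Submodule.coe_sum] using this
    -- translate to all cosets
    have hall : ∀ x : SL(2, ℤ) ⧸ Γ, ∑ j : {j : SL(2, ℤ) ⧸ Γ // κ j = 10},
        c j • dualFun Γ κ φ j.1 x = 0 := by
      intro x
      have h1 : ∀ j : {j : SL(2, ℤ) ⧸ Γ // κ j = 10}, c j • dualFun Γ κ φ j.1 x =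
          (c j • dualFun Γ κ φ j.1 ((1 : SL(2, ℤ)) : SL(2, ℤ) ⧸ Γ)) ∣[(2 : ℤ)]
            (Quotient.out x)⁻¹ := by
        intro j
        rw [SL_smul_slash, dualFun_eq_slash hb hdet j.1 x, j.2,
          show (12 : ℤ) - 10 = 2 by norm_num]
      simp_rw [h1]
      rw [← SlashAction.sum_slash, hc', SlashAction.zero_slash]
    -- evaluate at a point and use invertibility
    set z0 : ℍ := UpperHalfPlane.I with hz0
    have hpt : ∀ x : SL(2, ℤ) ⧸ Γ, ∑ j : {j : SL(2, ℤ) ⧸ Γ // κ j = 10},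
        c j * (fundMatrix Γ κ φ z0)⁻¹ j.1 x = 0 := by
      intro x
      have h1 := congrFun (hall x) z0
      simp only [Finset.sum_apply, Pi.smul_apply, dualFun, smul_eq_mul, Pi.zero_apply] at h1
      have h2 : ∑ j : {j : SL(2, ℤ) ⧸ Γ // κ j = 10},
          c j * (Δ z0 * (fundMatrix Γ κ φ z0)⁻¹ j.1 x) =
          Δ z0 * ∑ j : {j : SL(2, ℤ) ⧸ Γ // κ j = 10}, c j * (fundMatrix Γ κ φ z0)⁻¹ j.1 x := by
        rw [Finset.mul_sum]
        exact Finset.sum_congr rfl fun j _ => by ring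
      rw [h2] at h1
      exact (mul_eq_zero.mp h1).resolve_left (discriminant_ne_zero _)
    have hinv := Matrix.nonsing_inv_mul (fundMatrix Γ κ φ z0) (isUnit_iff_ne_zero.mpr (hdet z0))
    have h3 : ∑ j : {j : SL(2, ℤ) ⧸ Γ // κ j = 10},
        c j * ((fundMatrix Γ κ φ z0)⁻¹ * fundMatrix Γ κ φ z0) j.1 j0.1 = 0 := by
      simp_rw [Matrix.mul_apply, Finset.mul_sum]
      rw [Finset.sum_comm]
      refine Finset.sum_eq_zero fun x _ => ?_
      have h4 : ∀ j : {j : SL(2, ℤ) ⧸ Γ // κ j = 10},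
          c j * ((fundMatrix Γ κ φ z0)⁻¹ j.1 x * fundMatrix Γ κ φ z0 x j0.1) =
          (c j * (fundMatrix Γ κ φ z0)⁻¹ j.1 x) * fundMatrix Γ κ φ z0 x j0.1 := fun j => by ring
      simp_rw [h4]
      rw [← Finset.sum_mul, hpt x, zero_mul]
    rw [hinv] at h3
    simp only [Matrix.one_apply, Subtype.coe_inj, mul_ite, mul_one, mul_zero,
      Finset.sum_ite_eq', Finset.mem_univ, if_true] at h3
    exact h3
  -- spanning
  have hsp : ⊤ ≤ Submodule.span ℂ (Set.range ψ) := by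
    rintro ⟨h, hh⟩ -
    rw [Submodule.mem_span_range_iff_exists_fun]
    -- the coefficients
    have hb' : ∀ j : SL(2, ℤ) ⧸ Γ, ∃ a ∈ MFun (⊤ : Subgroup SL(2, ℤ)) (κ j + 2 - 12),
        (∑ x, comp Γ (κ j) (φ j) x * comp Γ 2 h x) = (Δ : ℍ → ℂ) * a := fun j =>
      exists_eq_discriminant_mul (trace_mul_mem hb hh j)
    choose a ha hab using hb'
    have ha0 : ∀ j : SL(2, ℤ) ⧸ Γ, κ j ≠ 10 → a j = 0 := by
      intro j hj
      have hneg : κ j + 2 - 12 < 0 := by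
        have := weight_le_ten hΓ hb hd hz j
        omega
      have h3 := ha j
      rw [MFun_top_eq_bot_of_neg hneg] at h3
      simpa using h3
    have hac : ∀ j : {j : SL(2, ℤ) ⧸ Γ // κ j = 10}, ∃ c : ℂ, a j.1 = fun _ => c := by
      intro j
      have h3 := ha j.1
      rw [j.2, show (10 : ℤ) + 2 - 12 = 0 by norm_num] at h3
      exact exists_const_of_mem_MFun_top_zero h3
    choose c hc using hac
    refine ⟨c, ?_⟩
    apply Subtype.ext
    simp only [ψ, Submodule.coe_sum, Submodule.coe_smul]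
    -- pointwise identity
    have hpt : ∀ z : ℍ, h z = ∑ j, a j z * dualFun Γ κ φ j ((1 : SL(2, ℤ)) : SL(2, ℤ) ⧸ Γ) z := by
      intro z
      have hmulinv := Matrix.mul_nonsing_inv (fundMatrix Γ κ φ z) (isUnit_iff_ne_zero.mpr (hdet z))
      have e1 : h z = ∑ x, comp Γ 2 h x z *
          (fundMatrix Γ κ φ z * (fundMatrix Γ κ φ z)⁻¹) x ((1 : SL(2, ℤ)) : SL(2, ℤ) ⧸ Γ) := by
        rw [hmulinv]
        simp only [Matrix.one_apply, mul_ite, mul_one, mul_zero, Finset.sum_ite_eq',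
          Finset.mem_univ, if_true]
        rw [comp_one_coset hh.2.1]
      rw [e1]
      simp_rw [Matrix.mul_apply, Finset.mul_sum]
      rw [Finset.sum_comm]
      refine Finset.sum_congr rfl fun j _ => ?_
      have e2 := congrFun (hab j) z
      simp only [Finset.sum_apply, Pi.mul_apply] at e2
      have e3 : a j z * dualFun Γ κ φ j ((1 : SL(2, ℤ)) : SL(2, ℤ) ⧸ Γ) z =
          (Δ z * a j z) * (fundMatrix Γ κ φ z)⁻¹ j ((1 : SL(2, ℤ)) : SL(2, ℤ) ⧸ Γ) := by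
        simp only [dualFun]; ring
      rw [e3, ← e2, Finset.sum_mul]
      refine Finset.sum_congr rfl fun x _ => ?_
      simp only [fundMatrix, Matrix.of_apply]
      ring
    ext z
    have e : ∑ j, a j z * dualFun Γ κ φ j ((1 : SL(2, ℤ)) : SL(2, ℤ) ⧸ Γ) z =
        ∑ j : {j : SL(2, ℤ) ⧸ Γ // κ j = 10},
          a j.1 z * dualFun Γ κ φ j.1 ((1 : SL(2, ℤ)) : SL(2, ℤ) ⧸ Γ) z := by
      rw [← Finset.sum_subtype (p := fun j : SL(2, ℤ) ⧸ Γ => κ j = 10)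
        (Finset.univ.filter fun j : SL(2, ℤ) ⧸ Γ => κ j = 10)
        (fun j => by simp) (fun j => a j z * dualFun Γ κ φ j ((1 : SL(2, ℤ)) : SL(2, ℤ) ⧸ Γ) z)]
      exact (Finset.sum_filter_of_ne fun j _ hj => by
        by_contra hne
        exact hj (by rw [ha0 j hne]; simp)).symm
    rw [hpt z, e, Finset.sum_apply]
    refine Finset.sum_congr rfl fun j _ => ?_
    rw [hc j]
    simp
  rw [Module.finrank_eq_card_basis (Module.Basis.mk hli hsp)]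

end Fermat.Agent.S20
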