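import Fermat.Agent.S20.Defs

/-! S20 package P7a: trace identities at the elliptic points `i` and `ρ`.

For `σ ∈ SL(2,ℤ)` fixing `z₀ ∈ ℍ`, the fundamental matrix `Φ(z₀)` conjugates the permutation
matrix of `σ⁻¹` on the cosets to the diagonal matrix `diag (denom σ z₀ ^ (-κ j))`; taking
traces counts the fixed cosets. -/

set_option autoImplicit false

open UpperHalfPlane ModularForm CongruenceSubgroup
open scoped MatrixGroups Manifold ModularForm

namespace Fermat.Agent.S20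

local notation "Δ" => ModularForm.discriminant

variable {Γ : Subgroup SL(2, ℤ)} [Γ.FiniteIndex] [Fintype (SL(2, ℤ) ⧸ Γ)]
  [DecidableEq (SL(2, ℤ) ⧸ Γ)] {κ : SL(2, ℤ) ⧸ Γ → ℤ} {φ : SL(2, ℤ) ⧸ Γ → ℍ → ℂ}

namespace Traces

omit [Γ.FiniteIndex] in
/-- The general trace identity at a fixed point `z₀` of `σ`. -/
theorem trace_of_fixed (hinv : ∀ j, ∀ γ ∈ Γ, φ j ∣[κ j] γ = φ j)
    (σ : SL(2, ℤ)) (z₀ : ℍ) (hdet : (fundMatrix Γ κ φ z₀).det ≠ 0) (hz : σ • z₀ = z₀) :
    (Nat.card (MulAction.fixedBy (SL(2, ℤ) ⧸ Γ) σ) : ℂ) = ∑ j, denom σ z₀ ^ (-κ j) := by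
  classical
  set Φ : Matrix (SL(2, ℤ) ⧸ Γ) (SL(2, ℤ) ⧸ Γ) ℂ := fundMatrix Γ κ φ z₀ with hΦ
  set e : Equiv.Perm (SL(2, ℤ) ⧸ Γ) := MulAction.toPerm σ⁻¹ with he
  set D : Matrix (SL(2, ℤ) ⧸ Γ) (SL(2, ℤ) ⧸ Γ) ℂ :=
    Matrix.diagonal (fun j => denom σ z₀ ^ (-κ j)) with hD
  -- the key matrix identity
  have key : e.permMatrix ℂ * Φ = Φ * D := by
    rw [Equiv.Perm.permMatrix, PEquiv.toMatrix_toPEquiv_mul]
    ext x j
    rw [Matrix.submatrix_apply, id, hD, Matrix.mul_diagonal]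
    have h1 := congrFun (comp_slash (hinv j) σ x) z₀
    rw [SL_slash_apply, hz] at h1
    simp only [hΦ, fundMatrix, Matrix.of_apply, he, MulAction.toPerm_apply]
    exact h1.symm
  have hunit : IsUnit Φ.det := isUnit_iff_ne_zero.mpr hdet
  have hP : e.permMatrix ℂ = Φ * D * Φ⁻¹ := by
    rw [← key, Matrix.mul_assoc, Matrix.mul_nonsing_inv _ hunit, Matrix.mul_one]
  have htr : Matrix.trace (e.permMatrix ℂ) = ∑ j, denom σ z₀ ^ (-κ j) := by
    rw [hP, Matrix.trace_mul_cycle, Matrix.nonsing_inv_mul _ hunit, Matrix.one_mul, hD,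
      Matrix.trace_diagonal]
  rw [← htr, Matrix.trace_permutation]
  have hset : Function.fixedPoints e = MulAction.fixedBy (SL(2, ℤ) ⧸ Γ) σ := by
    rw [← MulAction.fixedBy_inv]
    ext x
    simp only [Function.fixedPoints, Function.IsFixedPt, MulAction.mem_fixedBy, he,
      MulAction.toPerm_apply, Set.mem_ofPred_eq]
  rw [hset, Nat.card_coe_set_eq]

/-- The point `ρ = e^{2πi/3}` of the upper half plane. -/
noncomputable def rhoPt : ℍ :=
  ⟨-1 / 2 + (Real.sqrt 3 / 2 : ℝ) * Complex.I, by simp⟩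

lemma S_smul_I : ModularGroup.S • UpperHalfPlane.I = UpperHalfPlane.I := by
  rw [modular_S_smul]
  ext
  simp [UpperHalfPlane.I]

lemma denom_S_I : denom ModularGroup.S UpperHalfPlane.I = Complex.I := by
  rw [ModularGroup.denom_S]; rfl

lemma sqrt_three_sq_complex : ((Real.sqrt 3 : ℝ) : ℂ) ^ 2 = 3 := by
  rw [← Complex.ofReal_pow, Real.sq_sqrt (by norm_num)]; norm_num

lemma coe_rhoPt : (rhoPt : ℂ) = -1 / 2 + (Real.sqrt 3 / 2 : ℝ) * Complex.I := rfl

lemma ST_smul_rhoPt : (ModularGroup.S * ModularGroup.T) • rhoPt = rhoPt := by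
  rw [mul_smul, modular_T_smul, modular_S_smul]
  ext
  simp only [coe_vadd, coe_rhoPt]
  rw [inv_eq_iff_eq_inv, eq_comm]
  apply inv_eq_of_mul_eq_one_left
  have h := sqrt_three_sq_complex
  push_cast
  ring_nf
  rw [h, Complex.I_sq]
  ring

lemma denom_ST_rhoPt {g : SL(2, ℤ)} (hg : g = ModularGroup.S * ModularGroup.T) :
    denom g rhoPt = Complex.exp (Real.pi * Complex.I / 3) := by
  rw [ModularGroup.denom_apply]
  have h1 : g 1 0 = 1 := by
    subst hg
    rw [Matrix.SpecialLinearGroup.coe_mul]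
    simp [ModularGroup.S, ModularGroup.T, Matrix.mul_apply, Fin.sum_univ_two]
  have h2 : g 1 1 = 1 := by
    subst hg
    rw [Matrix.SpecialLinearGroup.coe_mul]
    simp [ModularGroup.S, ModularGroup.T, Matrix.mul_apply, Fin.sum_univ_two]
  rw [h1, h2]
  have h3 : (Real.pi * Complex.I / 3 : ℂ) = ((Real.pi / 3 : ℝ) : ℂ) * Complex.I := by
    push_cast; ring
  rw [h3, Complex.exp_mul_I, ← Complex.ofReal_cos, ← Complex.ofReal_sin, Real.cos_pi_div_three,
    Real.sin_pi_div_three, coe_rhoPt]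
  push_cast
  ring

end Traces

open Traces in
set_option linter.unusedSectionVars false in
theorem trace_S (hb : IsHomBasis Γ κ φ) (hd : DetFormula Γ κ φ) :
    (numFixS Γ : ℂ) = ∑ j, Complex.I ^ (-κ j) := by
  have h := trace_of_fixed (Γ := Γ) (κ := κ) (φ := φ) (fun j => (hb.mem j).2.1) ModularGroup.S
    UpperHalfPlane.I (hd.det_ne_zero _) S_smul_I
  rw [denom_S_I] at h
  exact h

open Traces in
set_option linter.unusedSectionVars false in
theorem trace_ST (hb : IsHomBasis Γ κ φ) (hd : DetFormula Γ κ φ) :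
    (numFixST Γ : ℂ) = ∑ j, Complex.exp (Real.pi * Complex.I / 3) ^ (-κ j) := by
  have h := trace_of_fixed (Γ := Γ) (κ := κ) (φ := φ) (fun j => (hb.mem j).2.1)
    (ModularGroup.S * ModularGroup.T) rhoPt (hd.det_ne_zero _) ST_smul_rhoPt
  rw [denom_ST_rhoPt rfl] at h
  exact h

end Fermat.Agent.S20
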