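import Fermat.Agent.S20.AtInfty
import Fermat.Agent.S20.Duality
import Fermat.Agent.S20.Traces
import Fermat.Agent.S20.ArithAux

/-! S20 package P7b (WIP skeleton): the final arithmetic. -/

set_option autoImplicit false

open UpperHalfPlane ModularForm CongruenceSubgroup
open scoped MatrixGroups Manifold ModularForm

namespace Fermat.Agent.S20

local notation "Δ" => ModularForm.discriminant

variable {Γ : Subgroup SL(2, ℤ)} [Γ.FiniteIndex] [Fintype (SL(2, ℤ) ⧸ Γ)]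
  [DecidableEq (SL(2, ℤ) ⧸ Γ)] {κ : SL(2, ℤ) ⧸ Γ → ℤ} {φ : SL(2, ℤ) ⧸ Γ → ℍ → ℂ}

/-- Pure arithmetic: the six linear relations determine the number of weight-10 generators. -/
theorem arith_core {X : Type} [Fintype X] (κ : X → ℤ) (μ ν₂ ν₃ c : ℕ)
    (h0 : ∀ j, 0 ≤ κ j) (h10 : ∀ j, κ j ≤ 10) (hev : ∀ j, Even (κ j))
    (hcard : Fintype.card X = μ)
    (hzero : Fintype.card {j : X // κ j = 0} = 1)
    (hS : (ν₂ : ℂ) = ∑ j, Complex.I ^ (-κ j))
    (hST : (ν₃ : ℂ) = ∑ j, Complex.exp (Real.pi * Complex.I / 3) ^ (-κ j))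
    (hsum : ∑ j, κ j = 6 * ((μ : ℤ) - c)) :
    (Fintype.card {j : X // κ j = 10} : ℚ) =
      1 + (μ : ℚ) / 12 - (ν₂ : ℚ) / 4 - (ν₃ : ℚ) / 3 - (c : ℚ) / 2 :=
  arith_core_aux κ μ ν₂ ν₃ c h0 h10 hev hcard hzero hS hST hsum

/-- The abstract dimension formula. -/
theorem finrank_SFun_two_eq (hΓ : -1 ∈ Γ) (hb : IsHomBasis Γ κ φ) (hd : DetFormula Γ κ φ) :
    (Module.finrank ℂ (SFun Γ 2) : ℚ) =
      1 + (Fintype.card (SL(2, ℤ) ⧸ Γ) : ℚ) / 12 - (numFixS Γ : ℚ) / 4 - (numFixST Γ : ℚ) / 3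
        - (numCusps Γ : ℚ) / 2 := by
  have hz := isZeroAtImInfty_discriminant_mul_inv hb hd
  rw [finrank_SFun_two hΓ hb hd hz]
  exact arith_core κ _ _ _ _ (weight_nonneg hb) (weight_le_ten hΓ hb hd hz) (weight_even hΓ hb)
    rfl (card_weight_zero hb) (trace_S hb hd) (trace_ST hb hd) (sum_weights hb hd)

end Fermat.Agent.S20
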