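import Fermat.Agent.S20.Defs
import Fermat.Agent.Lib.Gamma0Orbits
import Fermat.Prelude.Def_ModularCurve_GenusNumerics

/-! S20 package P8-P10: combinatorics of `SL(2,ℤ) ⧸ Γ₀(N)` (wiring of the shared counting
library `Fermat.Agent.Lib.Gamma0Cosets` / `Gamma0Orbits`). -/

set_option autoImplicit false

open UpperHalfPlane ModularForm CongruenceSubgroup
open scoped MatrixGroups Manifold ModularForm

namespace Fermat.Agent.S20

theorem neg_one_mem_Gamma0 (N : ℕ) : (-1 : SL(2, ℤ)) ∈ Gamma0 N := by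
  rw [Gamma0_mem]
  simp

theorem card_quotient_Gamma0 (N : ℕ) [NeZero N] :
    Nat.card (SL(2, ℤ) ⧸ Gamma0 N) = ModularCurve.dedekindPsi N :=
  Fermat.Agent.Lib.Gamma0Cosets.card_quotient_Gamma0 N

theorem numFixS_Gamma0 (N : ℕ) [NeZero N] : numFixS (Gamma0 N) = ModularCurve.nuTwo N :=
  Fermat.Agent.Lib.Gamma0Cosets.card_fixedBy_S

theorem numFixST_Gamma0 (N : ℕ) [NeZero N] : numFixST (Gamma0 N) = ModularCurve.nuThree N :=
  Fermat.Agent.Lib.Gamma0Cosets.card_fixedBy_ST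

theorem numCusps_Gamma0 (N : ℕ) [NeZero N] : numCusps (Gamma0 N) = ModularCurve.cuspCount N :=
  Fermat.Agent.Lib.Gamma0Cosets.card_orbits_T N

end Fermat.Agent.S20
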