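import Mathlib

set_option autoImplicit false

open UpperHalfPlane ModularForm
open scoped MatrixGroups Manifold ModularForm

namespace Fermat.Agent.S20

/-- Function-space model of the weight `k` modular forms on `Γ ≤ SL(2,ℤ)`:
holomorphic, `Γ`-invariant, and every `SL(2,ℤ)`-translate is bounded at `i∞`. -/
def MFun (Γ : Subgroup SL(2, ℤ)) (k : ℤ) : Submodule ℂ (ℍ → ℂ) where
  carrier := {f | MDiff f ∧ (∀ γ ∈ Γ, f ∣[k] γ = f) ∧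
    ∀ γ : SL(2, ℤ), IsBoundedAtImInfty (f ∣[k] γ)}
  add_mem' := by
    rintro f g ⟨hf1, hf2, hf3⟩ ⟨hg1, hg2, hg3⟩
    refine ⟨hf1.add hg1, fun γ hγ => ?_, fun γ => ?_⟩
    · rw [SlashAction.add_slash, hf2 γ hγ, hg2 γ hγ]
    · rw [SlashAction.add_slash]; exact (hf3 γ).add (hg3 γ)
  zero_mem' := by
    refine ⟨mdifferentiable_const, fun γ _ => SlashAction.zero_slash _ _, fun γ => ?_⟩
    rw [SlashAction.zero_slash]; exact zero_form_isBoundedAtImInfty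
  smul_mem' := by
    rintro c f ⟨hf1, hf2, hf3⟩
    refine ⟨hf1.const_smul c, fun γ hγ => ?_, fun γ => ?_⟩
    · rw [SL_smul_slash, hf2 γ hγ]
    · rw [SL_smul_slash]; exact (hf3 γ).const_smul_left c

/-- Function-space model of the weight `k` cusp forms on `Γ ≤ SL(2,ℤ)`. -/
def SFun (Γ : Subgroup SL(2, ℤ)) (k : ℤ) : Submodule ℂ (ℍ → ℂ) where
  carrier := {f | MDiff f ∧ (∀ γ ∈ Γ, f ∣[k] γ = f) ∧
    ∀ γ : SL(2, ℤ), IsZeroAtImInfty (f ∣[k] γ)}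
  add_mem' := by
    rintro f g ⟨hf1, hf2, hf3⟩ ⟨hg1, hg2, hg3⟩
    refine ⟨hf1.add hg1, fun γ hγ => ?_, fun γ => ?_⟩
    · rw [SlashAction.add_slash, hf2 γ hγ, hg2 γ hγ]
    · rw [SlashAction.add_slash]; exact (hf3 γ).add (hg3 γ)
  zero_mem' := by
    refine ⟨mdifferentiable_const, fun γ _ => SlashAction.zero_slash _ _, fun γ => ?_⟩
    rw [SlashAction.zero_slash]; exact Filter.zero_zeroAtFilter _
  smul_mem' := by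
    rintro c f ⟨hf1, hf2, hf3⟩
    refine ⟨hf1.const_smul c, fun γ hγ => ?_, fun γ => ?_⟩
    · rw [SL_smul_slash, hf2 γ hγ]
    · rw [SL_smul_slash]; exact (hf3 γ).smul c

variable {Γ : Subgroup SL(2, ℤ)} {k l : ℤ} {f g : ℍ → ℂ}

lemma mem_MFun_iff : f ∈ MFun Γ k ↔ MDiff f ∧ (∀ γ ∈ Γ, f ∣[k] γ = f) ∧
    ∀ γ : SL(2, ℤ), IsBoundedAtImInfty (f ∣[k] γ) := Iff.rfl

lemma mem_SFun_iff : f ∈ SFun Γ k ↔ MDiff f ∧ (∀ γ ∈ Γ, f ∣[k] γ = f) ∧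
    ∀ γ : SL(2, ℤ), IsZeroAtImInfty (f ∣[k] γ) := Iff.rfl

lemma SFun_le_MFun : SFun Γ k ≤ MFun Γ k := fun _ hf =>
  ⟨hf.1, hf.2.1, fun γ => (hf.2.2 γ).boundedAtFilter⟩

lemma MFun_mono {Γ' : Subgroup SL(2, ℤ)} (h : Γ' ≤ Γ) : MFun Γ k ≤ MFun Γ' k := fun _ hf =>
  ⟨hf.1, fun γ hγ => hf.2.1 γ (h hγ), hf.2.2⟩

lemma SFun_mono {Γ' : Subgroup SL(2, ℤ)} (h : Γ' ≤ Γ) : SFun Γ k ≤ SFun Γ' k := fun _ hf =>
  ⟨hf.1, fun γ hγ => hf.2.1 γ (h hγ), hf.2.2⟩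

lemma mul_mem_MFun (hf : f ∈ MFun Γ k) (hg : g ∈ MFun Γ l) : f * g ∈ MFun Γ (k + l) := by
  obtain ⟨hf1, hf2, hf3⟩ := hf
  obtain ⟨hg1, hg2, hg3⟩ := hg
  refine ⟨hf1.mul hg1, fun γ hγ => ?_, fun γ => ?_⟩
  · rw [mul_slash_SL2, hf2 γ hγ, hg2 γ hγ]
  · rw [mul_slash_SL2]; exact (hf3 γ).mul (hg3 γ)

lemma mul_mem_MFun_of_top (hf : f ∈ MFun ⊤ k) (hg : g ∈ MFun Γ l) : f * g ∈ MFun Γ (k + l) :=
  mul_mem_MFun (MFun_mono le_top hf) hg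

lemma mul_mem_MFun' {m : ℤ} (hf : f ∈ MFun ⊤ k) (hg : g ∈ MFun Γ l) (h : k + l = m) :
    f * g ∈ MFun Γ m := h ▸ mul_mem_MFun_of_top hf hg

lemma mul_mem_SFun (hf : f ∈ MFun Γ k) (hg : g ∈ SFun Γ l) : f * g ∈ SFun Γ (k + l) := by
  obtain ⟨hf1, hf2, hf3⟩ := hf
  obtain ⟨hg1, hg2, hg3⟩ := hg
  refine ⟨hf1.mul hg1, fun γ hγ => ?_, fun γ => ?_⟩
  · rw [mul_slash_SL2, hf2 γ hγ, hg2 γ hγ]
  · rw [mul_slash_SL2, mul_comm]; exact (hg3 γ).mul_boundedAtFilter (hf3 γ) |>.congr' (by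
      filter_upwards with z; simp [mul_comm])

/-- Level one: the boundedness condition only needs to be checked for `f` itself. -/
lemma mem_MFun_top_iff : f ∈ MFun ⊤ k ↔ MDiff f ∧ (∀ γ : SL(2, ℤ), f ∣[k] γ = f) ∧
    IsBoundedAtImInfty f := by
  constructor
  · rintro ⟨h1, h2, h3⟩
    refine ⟨h1, fun γ => h2 γ (Subgroup.mem_top γ), ?_⟩
    simpa using h3 1
  · rintro ⟨h1, h2, h3⟩
    exact ⟨h1, fun γ _ => h2 γ, fun γ => by rw [h2 γ]; exact h3⟩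

lemma mem_SFun_top_iff : f ∈ SFun ⊤ k ↔ MDiff f ∧ (∀ γ : SL(2, ℤ), f ∣[k] γ = f) ∧
    IsZeroAtImInfty f := by
  constructor
  · rintro ⟨h1, h2, h3⟩
    refine ⟨h1, fun γ => h2 γ (Subgroup.mem_top γ), ?_⟩
    simpa using h3 1
  · rintro ⟨h1, h2, h3⟩
    exact ⟨h1, fun γ _ => h2 γ, fun γ => by rw [h2 γ]; exact h3⟩

/-! ### Coset components -/

/-- The component of `f` at the left coset `x = gΓ`, namely `f ∣[k] g⁻¹`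
(well defined when `f` is `Γ`-invariant). -/
noncomputable def comp (Γ : Subgroup SL(2, ℤ)) (k : ℤ) (f : ℍ → ℂ) (x : SL(2, ℤ) ⧸ Γ) : ℍ → ℂ :=
  f ∣[k] (Quotient.out x)⁻¹

lemma comp_mk (hf : ∀ γ ∈ Γ, f ∣[k] γ = f) (σ : SL(2, ℤ)) :
    comp Γ k f (σ : SL(2, ℤ) ⧸ Γ) = f ∣[k] σ⁻¹ := by
  unfold comp
  have h : (Quotient.out (σ : SL(2, ℤ) ⧸ Γ))⁻¹ * σ ∈ Γ := by
    rw [← QuotientGroup.eq]; exact QuotientGroup.out_eq' _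
  have h2 : (Quotient.out (σ : SL(2, ℤ) ⧸ Γ))⁻¹ =
      ((Quotient.out (σ : SL(2, ℤ) ⧸ Γ))⁻¹ * σ) * σ⁻¹ := by group
  rw [h2, SlashAction.slash_mul, hf _ h]

lemma comp_slash (hf : ∀ γ ∈ Γ, f ∣[k] γ = f) (σ : SL(2, ℤ)) (x : SL(2, ℤ) ⧸ Γ) :
    (comp Γ k f x) ∣[k] σ = comp Γ k f (σ⁻¹ • x) := by
  induction x using QuotientGroup.induction_on with
  | H τ =>
    rw [comp_mk hf, ← SlashAction.slash_mul]
    have : σ⁻¹ • (τ : SL(2, ℤ) ⧸ Γ) = ((σ⁻¹ * τ : SL(2, ℤ)) : SL(2, ℤ) ⧸ Γ) := rfl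
    rw [this, comp_mk hf]
    congr 1
    group

lemma comp_one_coset (hf : ∀ γ ∈ Γ, f ∣[k] γ = f) :
    comp Γ k f ((1 : SL(2, ℤ)) : SL(2, ℤ) ⧸ Γ) = f := by
  rw [comp_mk hf]; simp

lemma comp_add (f g : ℍ → ℂ) (x : SL(2, ℤ) ⧸ Γ) :
    comp Γ k (f + g) x = comp Γ k f x + comp Γ k g x := by
  simp [comp]

lemma comp_smul (c : ℂ) (f : ℍ → ℂ) (x : SL(2, ℤ) ⧸ Γ) :
    comp Γ k (c • f) x = c • comp Γ k f x := by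
  simp [comp]

lemma comp_zero (x : SL(2, ℤ) ⧸ Γ) : comp Γ k 0 x = 0 := by
  simp [comp]

lemma comp_sum {ι : Type*} (s : Finset ι) (F : ι → ℍ → ℂ) (x : SL(2, ℤ) ⧸ Γ) :
    comp Γ k (∑ i ∈ s, F i) x = ∑ i ∈ s, comp Γ k (F i) x := by
  simp [comp]

lemma comp_mul (f g : ℍ → ℂ) (x : SL(2, ℤ) ⧸ Γ) :
    comp Γ (k + l) (f * g) x = comp Γ k f x * comp Γ l g x := by
  simp [comp, mul_slash_SL2]

lemma comp_of_top (hf : f ∈ MFun ⊤ k) (x : SL(2, ℤ) ⧸ Γ) : comp Γ k f x = f :=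
  hf.2.1 _ (Subgroup.mem_top _)

lemma comp_mul_of_top {m : ℤ} (hf : f ∈ MFun ⊤ k) (g : ℍ → ℂ) (h : k + l = m)
    (x : SL(2, ℤ) ⧸ Γ) : comp Γ m (f * g) x = f * comp Γ l g x := by
  subst h
  rw [comp_mul, comp_of_top hf]

lemma mdiff_comp (hf : MDiff f) (x : SL(2, ℤ) ⧸ Γ) : MDiff (comp Γ k f x) :=
  hf.slash k _

lemma isBoundedAtImInfty_comp (hf : f ∈ MFun Γ k) (x : SL(2, ℤ) ⧸ Γ) :
    IsBoundedAtImInfty (comp Γ k f x) := hf.2.2 _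

lemma isZeroAtImInfty_comp (hf : f ∈ SFun Γ k) (x : SL(2, ℤ) ⧸ Γ) :
    IsZeroAtImInfty (comp Γ k f x) := hf.2.2 _

/-- A `Γ`-invariant function all of whose components are bounded at `i∞` is in `MFun`. -/
lemma mem_MFun_of_comp (h1 : MDiff f) (h2 : ∀ γ ∈ Γ, f ∣[k] γ = f)
    (h3 : ∀ x : SL(2, ℤ) ⧸ Γ, IsBoundedAtImInfty (comp Γ k f x)) : f ∈ MFun Γ k := by
  refine ⟨h1, h2, fun γ => ?_⟩
  have := h3 ((γ⁻¹ : SL(2, ℤ)) : SL(2, ℤ) ⧸ Γ)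
  rwa [comp_mk h2, inv_inv] at this

lemma mem_SFun_of_comp (h1 : MDiff f) (h2 : ∀ γ ∈ Γ, f ∣[k] γ = f)
    (h3 : ∀ x : SL(2, ℤ) ⧸ Γ, IsZeroAtImInfty (comp Γ k f x)) : f ∈ SFun Γ k := by
  refine ⟨h1, h2, fun γ => ?_⟩
  have := h3 ((γ⁻¹ : SL(2, ℤ)) : SL(2, ℤ) ⧸ Γ)
  rwa [comp_mk h2, inv_inv] at this

/-! ### Homogeneous bases and the fundamental matrix -/

/-- `φ` (with weights `κ`) is a homogeneous basis of `⨁ₖ MFun Γ k` as a module over the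
level-one forms `⨁ₖ MFun ⊤ k`. -/
structure IsHomBasis (Γ : Subgroup SL(2, ℤ)) {J : Type} [Fintype J] (κ : J → ℤ)
    (φ : J → ℍ → ℂ) : Prop where
  mem : ∀ j, φ j ∈ MFun Γ (κ j)
  span : ∀ (k : ℤ) (f : ℍ → ℂ), f ∈ MFun Γ k →
    ∃ a : J → ℍ → ℂ, (∀ j, a j ∈ MFun ⊤ (k - κ j)) ∧ f = ∑ j, a j * φ j
  indep : ∀ (k : ℤ) (a : J → ℍ → ℂ), (∀ j, a j ∈ MFun ⊤ (k - κ j)) →
    ∑ j, a j * φ j = 0 → ∀ j, a j = 0

/-- The fundamental matrix: rows indexed by cosets, columns by basis elements. -/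
noncomputable def fundMatrix (Γ : Subgroup SL(2, ℤ)) {J : Type} (κ : J → ℤ) (φ : J → ℍ → ℂ)
    (z : ℍ) : Matrix (SL(2, ℤ) ⧸ Γ) J ℂ :=
  Matrix.of fun x j => comp Γ (κ j) (φ j) x z

/-- The number of cusps: orbits of `T` on `SL(2,ℤ) ⧸ Γ`. -/
noncomputable def numCusps (Γ : Subgroup SL(2, ℤ)) : ℕ :=
  Nat.card (MulAction.orbitRel.Quotient (Subgroup.zpowers ModularGroup.T) (SL(2, ℤ) ⧸ Γ))

/-- The number of fixed points of `S` on `SL(2,ℤ) ⧸ Γ`. -/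
noncomputable def numFixS (Γ : Subgroup SL(2, ℤ)) : ℕ :=
  Nat.card (MulAction.fixedBy (SL(2, ℤ) ⧸ Γ) ModularGroup.S)

/-- The number of fixed points of `S * T` on `SL(2,ℤ) ⧸ Γ`. -/
noncomputable def numFixST (Γ : Subgroup SL(2, ℤ)) : ℕ :=
  Nat.card (MulAction.fixedBy (SL(2, ℤ) ⧸ Γ) (ModularGroup.S * ModularGroup.T))

/-- A form whose stabiliser in `SL(2,ℤ)` is exactly `Γ`. -/
def HasSeparating (Γ : Subgroup SL(2, ℤ)) : Prop :=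
  ∃ (k : ℤ) (g : ℍ → ℂ), g ∈ MFun Γ k ∧ ∀ σ : SL(2, ℤ), g ∣[k] σ = g → σ ∈ Γ

/-- The determinant of the fundamental matrix is a nonzero constant times a power of `Δ`
(up to a 12th power): `det ^ 12 = c * Δ ^ (∑ κ)`. -/
def DetFormula (Γ : Subgroup SL(2, ℤ)) [Fintype (SL(2, ℤ) ⧸ Γ)] [DecidableEq (SL(2, ℤ) ⧸ Γ)]
    (κ : SL(2, ℤ) ⧸ Γ → ℤ) (φ : SL(2, ℤ) ⧸ Γ → ℍ → ℂ) : Prop :=
  ∃ c : ℂ, c ≠ 0 ∧ ∀ z : ℍ,
    (fundMatrix Γ κ φ z).det ^ 12 = c * ModularForm.discriminant z ^ (∑ j, κ j).toNat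

lemma DetFormula.det_ne_zero {Γ : Subgroup SL(2, ℤ)} [Fintype (SL(2, ℤ) ⧸ Γ)]
    [DecidableEq (SL(2, ℤ) ⧸ Γ)] {κ : SL(2, ℤ) ⧸ Γ → ℤ} {φ : SL(2, ℤ) ⧸ Γ → ℍ → ℂ}
    (h : DetFormula Γ κ φ) (z : ℍ) : (fundMatrix Γ κ φ z).det ≠ 0 := by
  obtain ⟨c, hc, hz⟩ := h
  intro h0
  have := hz z
  rw [h0, zero_pow (by norm_num)] at this
  exact mul_ne_zero hc (pow_ne_zero _ (ModularForm.discriminant_ne_zero z)) this.symm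

end Fermat.Agent.S20
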