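import Mathlib
import Fermat.Agent.S20.Defs

/-!  S20 package P3 (Separating), complete: `N³ E₄(N z)` is a separating form for `Γ₀(N)`.  -/

set_option autoImplicit false

open UpperHalfPlane ModularForm CongruenceSubgroup Filter
open scoped MatrixGroups Manifold ModularForm

namespace Fermat.Agent.S20

namespace Separating

/-- `E₄ → 1` at `i∞`. -/
theorem tendsto_E4_one : Tendsto (⇑ModularForm.E₄ : ℍ → ℂ) atImInfty (nhds 1) := by
  have hper := SlashInvariantFormClass.periodic_comp_ofComplex (h := 1) ModularForm.E₄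
    one_mem_strictPeriods_SL
  have han := ModularFormClass.analyticAt_cuspFunction_zero (h := 1) ModularForm.E₄ one_pos
    one_mem_strictPeriods_SL
  have h0 : cuspFunction 1 (⇑ModularForm.E₄) 0 = 1 := by
    rw [cuspFunction_apply_zero one_pos han hper, ← qExpansion_coeff_zero one_pos han hper]
    exact EisensteinSeries.E_qExpansion_coeff_zero _ ⟨2, rfl⟩
  have hcomp : (cuspFunction 1 (⇑ModularForm.E₄) ∘ fun τ : ℍ => Function.Periodic.qParam 1 τ)
      = ⇑ModularForm.E₄ := by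
    funext τ
    simpa using eq_cuspFunction τ one_ne_zero hper
  have h := han.continuousAt.tendsto.comp (qParam_tendsto_atImInfty one_pos)
  rw [hcomp, h0] at h
  exact h

/-- Limit at `i∞` of the slash by an upper triangular matrix of positive determinant. -/
theorem tendsto_slash_upper (β : GL (Fin 2) ℝ) (hβ : β 1 0 = 0) (hdet : 0 < β.det.val)
    {f : ℍ → ℂ} {c : ℂ} (hf : Tendsto f atImInfty (nhds c)) (k : ℤ) :
    Tendsto (f ∣[k] β) atImInfty
      (nhds (c * ((|β.det.val| : ℝ) : ℂ) ^ (k - 1) * ((β 1 1 : ℝ) : ℂ) ^ (-k))) := by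
  have h1 : f ∣[k] β = fun τ => f (β • τ) * ((|β.det.val| : ℝ) : ℂ) ^ (k - 1) *
      ((β 1 1 : ℝ) : ℂ) ^ (-k) := by
    funext τ
    have hdet' : 0 < (β : Matrix (Fin 2) (Fin 2) ℝ).det := by simpa using hdet
    rw [ModularForm.slash_apply]
    simp [UpperHalfPlane.σ, hdet', denom, hβ]
  rw [h1]
  exact ((hf.comp (tendsto_smul_atImInfty hβ)).mul tendsto_const_nhds).mul tendsto_const_nhds

/-- Integral Hermite-type decomposition of `diag(N,1) * σ`. -/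
theorem exists_decomp (N : ℕ) (hN : 0 < N) (σ : SL(2, ℤ)) :
    ∃ (σ' : SL(2, ℤ)) (A D : ℕ) (B : ℤ), 0 < A ∧ 0 < D ∧ A * D = N ∧
      (N : ℤ) * σ 0 0 = σ' 0 0 * A ∧ (N : ℤ) * σ 0 1 = σ' 0 0 * B + σ' 0 1 * D ∧
      σ 1 0 = σ' 1 0 * A ∧ σ 1 1 = σ' 1 0 * B + σ' 1 1 * D := by
  have hdet : σ 0 0 * σ 1 1 - σ 0 1 * σ 1 0 = 1 := by
    have := σ.det_coe
    rw [Matrix.det_fin_two] at this
    exact this
  set a := σ 0 0 with ha
  set b := σ 0 1 with hb
  set c := σ 1 0 with hc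
  set d := σ 1 1 with hd
  have hApos : 0 < Int.gcd ((N : ℤ) * a) c := by
    rw [Int.gcd_pos_iff]
    by_cases hc0 : c = 0
    · left
      have ha0 : a ≠ 0 := by
        rintro h0
        rw [h0, hc0] at hdet
        simp at hdet
      exact mul_ne_zero (by exact_mod_cast hN.ne') ha0
    · right; exact hc0
  set A := Int.gcd ((N : ℤ) * a) c with hA
  have hAp : ((N : ℤ) * a) / (A : ℤ) * A = (N : ℤ) * a :=
    Int.ediv_mul_cancel (Int.gcd_dvd_left _ _)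
  have hAr : c / (A : ℤ) * A = c := Int.ediv_mul_cancel (Int.gcd_dvd_right _ _)
  have hcop : Int.gcd (((N : ℤ) * a) / (A : ℤ)) (c / (A : ℤ)) = 1 :=
    Int.gcd_div_gcd_div_gcd hApos
  set p := ((N : ℤ) * a) / (A : ℤ) with hp
  set r := c / (A : ℤ) with hr
  have hbez := Int.gcd_eq_gcd_ab p r
  rw [hcop] at hbez
  set s := Int.gcdA p r with hs
  set t := Int.gcdB p r with ht
  have hbez' : p * s + r * t = 1 := by
    have : ((1 : ℕ) : ℤ) = p * s + r * t := hbez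
    simpa using this.symm
  have hAD : (A : ℤ) * (p * d - r * ((N : ℤ) * b)) = N := by
    have : (A : ℤ) * (p * d - r * ((N : ℤ) * b)) = (p * A) * d - (r * A) * ((N : ℤ) * b) := by ring
    rw [this, hAp, hAr]
    have : (N : ℤ) * a * d - c * ((N : ℤ) * b) = N * (a * d - b * c) := by ring
    rw [this, hdet, mul_one]
  have hDpos : 0 < p * d - r * ((N : ℤ) * b) := by
    have hA0 : (0 : ℤ) < A := by exact_mod_cast hApos
    have hN0 : (0 : ℤ) < N := by exact_mod_cast hN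
    by_contra hcon
    push Not at hcon
    have : (A : ℤ) * (p * d - r * ((N : ℤ) * b)) ≤ 0 :=
      mul_nonpos_of_nonneg_of_nonpos hA0.le hcon
    omega
  refine ⟨⟨!![p, -t; r, s], ?_⟩, A, (p * d - r * ((N : ℤ) * b)).toNat,
    s * ((N : ℤ) * b) + t * d, hApos, ?_, ?_, ?_, ?_, ?_, ?_⟩
  · rw [Matrix.det_fin_two_of]; linarith
  · omega
  · have h1 : (((p * d - r * ((N : ℤ) * b)).toNat : ℕ) : ℤ) = p * d - r * ((N : ℤ) * b) :=
      Int.toNat_of_nonneg hDpos.le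
    have : ((A * (p * d - r * ((N : ℤ) * b)).toNat : ℕ) : ℤ) = (N : ℤ) := by
      push_cast
      rw [h1, hAD]
    exact_mod_cast this
  · show (N : ℤ) * a = p * A
    rw [hAp]
  · have h1 : (((p * d - r * ((N : ℤ) * b)).toNat : ℕ) : ℤ) = p * d - r * ((N : ℤ) * b) :=
      Int.toNat_of_nonneg hDpos.le
    show (N : ℤ) * b = p * (s * ((N : ℤ) * b) + t * d) + (-t) * _
    rw [h1]
    linear_combination (-((N : ℤ) * b)) * hbez'
  · show c = r * A
    rw [hAr]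
  · have h1 : (((p * d - r * ((N : ℤ) * b)).toNat : ℕ) : ℤ) = p * d - r * ((N : ℤ) * b) :=
      Int.toNat_of_nonneg hDpos.le
    show d = r * (s * ((N : ℤ) * b) + t * d) + s * _
    rw [h1]
    linear_combination (-d) * hbez'


/-- `diag(N, 1)` as an element of `GL₂(ℝ)`. -/
noncomputable def diagN (N : ℕ) [NeZero N] : GL (Fin 2) ℝ :=
  Matrix.GeneralLinearGroup.mkOfDetNeZero !![(N : ℝ), 0; 0, 1]
    (by simp [Matrix.det_fin_two_of, NeZero.ne])

/-- The upper triangular matrix `(A B; 0 D)` as an element of `GL₂(ℝ)`. -/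
noncomputable def upper (A D : ℕ) (B : ℤ) (hA : 0 < A) (hD : 0 < D) : GL (Fin 2) ℝ :=
  Matrix.GeneralLinearGroup.mkOfDetNeZero !![(A : ℝ), (B : ℝ); 0, (D : ℝ)]
    (by
      rw [Matrix.det_fin_two_of]
      have h1 : (0 : ℝ) < A := by exact_mod_cast hA
      have h2 : (0 : ℝ) < D := by exact_mod_cast hD
      simp only [mul_zero, sub_zero]
      positivity)

theorem diagN_mul (N : ℕ) [NeZero N] (σ σ' : SL(2, ℤ)) (A D : ℕ) (B : ℤ) (hA : 0 < A)
    (hD : 0 < D)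
    (h00 : (N : ℤ) * σ 0 0 = σ' 0 0 * A) (h01 : (N : ℤ) * σ 0 1 = σ' 0 0 * B + σ' 0 1 * D)
    (h10 : σ 1 0 = σ' 1 0 * A) (h11 : σ 1 1 = σ' 1 0 * B + σ' 1 1 * D) :
    diagN N * Matrix.SpecialLinearGroup.mapGL ℝ σ =
      Matrix.SpecialLinearGroup.mapGL ℝ σ' * upper A D B hA hD := by
  have h00' : (N : ℝ) * (σ 0 0 : ℝ) = (σ' 0 0 : ℝ) * A := by exact_mod_cast h00
  have h01' : (N : ℝ) * (σ 0 1 : ℝ) = (σ' 0 0 : ℝ) * B + (σ' 0 1 : ℝ) * D := by
    exact_mod_cast h01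
  have h10' : (σ 1 0 : ℝ) = (σ' 1 0 : ℝ) * A := by exact_mod_cast h10
  have h11' : (σ 1 1 : ℝ) = (σ' 1 0 : ℝ) * B + (σ' 1 1 : ℝ) * D := by exact_mod_cast h11
  apply Matrix.GeneralLinearGroup.ext
  intro i j
  fin_cases i <;> fin_cases j <;>
    simp [diagN, upper, Matrix.mul_apply, Fin.sum_univ_two, h00', h01', h10', h11']

/-- The separating form `z ↦ N³ E₄(N z)`. -/
noncomputable def sepForm (N : ℕ) [NeZero N] : ℍ → ℂ :=
  (⇑ModularForm.E₄ : ℍ → ℂ) ∣[(4 : ℤ)] diagN N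

theorem E4_slash_SL (σ : SL(2, ℤ)) :
    (⇑ModularForm.E₄ : ℍ → ℂ) ∣[(4 : ℤ)] (Matrix.SpecialLinearGroup.mapGL ℝ σ) =
      ⇑ModularForm.E₄ :=
  SlashInvariantFormClass.slash_action_eq ModularForm.E₄ _ ⟨σ, rfl⟩

theorem sepForm_slash (N : ℕ) [NeZero N] (σ σ' : SL(2, ℤ)) (A D : ℕ) (B : ℤ) (hA : 0 < A)
    (hD : 0 < D)
    (h00 : (N : ℤ) * σ 0 0 = σ' 0 0 * A) (h01 : (N : ℤ) * σ 0 1 = σ' 0 0 * B + σ' 0 1 * D)
    (h10 : σ 1 0 = σ' 1 0 * A) (h11 : σ 1 1 = σ' 1 0 * B + σ' 1 1 * D) :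
    sepForm N ∣[(4 : ℤ)] σ = (⇑ModularForm.E₄ : ℍ → ℂ) ∣[(4 : ℤ)] upper A D B hA hD := by
  show ((⇑ModularForm.E₄ : ℍ → ℂ) ∣[(4 : ℤ)] diagN N) ∣[(4 : ℤ)]
      (Matrix.SpecialLinearGroup.mapGL ℝ σ) = _
  rw [← SlashAction.slash_mul,
    diagN_mul N σ σ' A D B hA hD h00 h01 h10 h11, SlashAction.slash_mul, E4_slash_SL]


theorem isBoundedAtImInfty_E4 : IsBoundedAtImInfty (⇑ModularForm.E₄ : ℍ → ℂ) :=
  tendsto_E4_one.isBigO_one ℝ

theorem sepForm_mem (N : ℕ) [NeZero N] : sepForm N ∈ MFun (Gamma0 N) 4 := by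
  refine ⟨(ModularFormClass.holo ModularForm.E₄).slash 4 _, fun γ hγ => ?_, fun σ => ?_⟩
  · -- invariance under `Γ₀(N)`
    rw [Gamma0_mem] at hγ
    have hdvd : (N : ℤ) ∣ γ 1 0 := (ZMod.intCast_zmod_eq_zero_iff_dvd _ _).mp hγ
    obtain ⟨c', hc'⟩ := hdvd
    have hdet : γ 0 0 * γ 1 1 - γ 0 1 * γ 1 0 = 1 := by
      have := γ.det_coe
      rw [Matrix.det_fin_two] at this
      exact this
    let γ' : SL(2, ℤ) := ⟨!![γ 0 0, (N : ℤ) * γ 0 1; c', γ 1 1], by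
      rw [Matrix.det_fin_two_of]
      rw [hc'] at hdet
      linarith⟩
    have hmul : diagN N * Matrix.SpecialLinearGroup.mapGL ℝ γ =
        Matrix.SpecialLinearGroup.mapGL ℝ γ' * diagN N := by
      have h10' : (γ 1 0 : ℝ) = (N : ℝ) * (c' : ℝ) := by exact_mod_cast hc'
      apply Matrix.GeneralLinearGroup.ext
      intro i j
      fin_cases i <;> fin_cases j <;>
        simp [diagN, γ', Matrix.mul_apply, Fin.sum_univ_two, h10', mul_comm]
    show ((⇑ModularForm.E₄ : ℍ → ℂ) ∣[(4 : ℤ)] diagN N) ∣[(4 : ℤ)]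
      (Matrix.SpecialLinearGroup.mapGL ℝ γ) = _
    rw [← SlashAction.slash_mul, hmul, SlashAction.slash_mul, E4_slash_SL]
    rfl
  · -- boundedness of all translates
    obtain ⟨σ', A, D, B, hA, hD, -, h00, h01, h10, h11⟩ := exists_decomp N (NeZero.pos N) σ
    rw [sepForm_slash N σ σ' A D B hA hD h00 h01 h10 h11]
    exact isBoundedAtImInfty_E4.slash 4 (by simp [upper])

theorem mem_Gamma0_of_sepForm_slash (N : ℕ) [NeZero N] (σ : SL(2, ℤ))
    (h : sepForm N ∣[(4 : ℤ)] σ = sepForm N) : σ ∈ Gamma0 N := by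
  obtain ⟨σ', A, D, B, hA, hD, hAD, h00, h01, h10, h11⟩ := exists_decomp N (NeZero.pos N) σ
  rw [sepForm_slash N σ σ' A D B hA hD h00 h01 h10 h11] at h
  have hN : (0 : ℝ) < N := by exact_mod_cast NeZero.pos N
  have hAr : (0 : ℝ) < A := by exact_mod_cast hA
  have hDr : (0 : ℝ) < D := by exact_mod_cast hD
  -- limits of both sides at `i∞`
  have hdetu : (upper A D B hA hD).det.val = (A : ℝ) * D := by
    simp [upper, Matrix.det_fin_two_of]
  have hdetd : (diagN N).det.val = (N : ℝ) := by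
    simp [diagN, Matrix.det_fin_two_of]
  have l1 := tendsto_slash_upper (upper A D B hA hD) (by simp [upper])
    (by rw [hdetu]; positivity) tendsto_E4_one 4
  have l2 := tendsto_slash_upper (diagN N) (by simp [diagN])
    (by rw [hdetd]; exact hN) tendsto_E4_one 4
  rw [h] at l1
  have heq := tendsto_nhds_unique l1 l2
  rw [hdetu, hdetd] at heq
  have hAD' : (A : ℝ) * D = N := by exact_mod_cast hAD
  have hu11 : ((upper A D B hA hD : GL (Fin 2) ℝ) 1 1 : ℝ) = D := by simp [upper]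
  have hd11 : ((diagN N : GL (Fin 2) ℝ) 1 1 : ℝ) = 1 := by simp [diagN]
  rw [hu11, hd11, hAD'] at heq
  -- deduce `D = 1`
  have hNc : ((|(N : ℝ)| : ℝ) : ℂ) ^ ((4 : ℤ) - 1) ≠ 0 := by
    apply zpow_ne_zero
    rw [abs_of_pos hN]
    exact_mod_cast hN.ne'
  have hD4 : ((D : ℝ) : ℂ) ^ (-(4 : ℤ)) = 1 := by
    have heq' : (1 : ℂ) * ((|(N : ℝ)| : ℝ) : ℂ) ^ ((4 : ℤ) - 1) * ((D : ℝ) : ℂ) ^ (-(4 : ℤ)) =
        (1 : ℂ) * ((|(N : ℝ)| : ℝ) : ℂ) ^ ((4 : ℤ) - 1) * 1 := by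
      rw [heq]; simp
    exact mul_left_cancel₀ (by rw [one_mul]; exact hNc) heq'
  have hD4' : (D : ℝ) ^ 4 = 1 := by
    have h1 : ((D : ℝ) : ℂ) ^ (4 : ℕ) = 1 := by
      have h2 : ((D : ℝ) : ℂ) ^ (-(4 : ℤ)) = (((D : ℝ) : ℂ) ^ (4 : ℕ))⁻¹ := by
        rw [zpow_neg]; norm_cast
      rw [h2, inv_eq_one] at hD4
      exact hD4
    exact_mod_cast h1
  have hD1 : D = 1 := by
    have h1 : (D : ℝ) = 1 := by
      have := pow_eq_one_iff_of_nonneg hDr.le (n := 4) (by norm_num)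
      exact this.mp hD4'
    exact_mod_cast h1
  rw [hD1, mul_one] at hAD
  rw [Gamma0_mem, h10, hAD]
  simp

end Separating

/-- **P3**: a separating form for `Γ₀(N)`. -/
theorem hasSeparating_Gamma0 (N : ℕ) [NeZero N] : HasSeparating (Gamma0 N) :=
  ⟨4, Separating.sepForm N, Separating.sepForm_mem N, Separating.mem_Gamma0_of_sepForm_slash N⟩

end Fermat.Agent.S20
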