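import Fermat.Agent.S20.Basis
import Fermat.Agent.S20.Separating
import Fermat.Agent.S20.Arith
import Fermat.Agent.S20.Count
import Fermat.Statements.S20

/-! S20 assembly (WIP skeleton): the statement of S20 from the packages. -/

set_option autoImplicit false

open UpperHalfPlane ModularForm CongruenceSubgroup
open scoped MatrixGroups Manifold ModularForm

namespace Fermat.Agent.S20

local notation "Δ" => ModularForm.discriminant

theorem result' (N : ℕ) [NeZero N] :
    (Module.finrank ℂ (CuspForm (CongruenceSubgroup.Gamma0 N) 2) : ℚ) =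
      ModularCurve.genusFormula N := by
  classical
  letI : Fintype (SL(2, ℤ) ⧸ Gamma0 N) := Fintype.ofFinite _
  have hsep := hasSeparating_Gamma0 N
  obtain ⟨κ, φ, hb⟩ := exists_homBasis (Γ := Gamma0 N) (neg_one_mem_Gamma0 N)
    (finrank_MFun_Gamma0_le N) hsep
  have hd := detFormula_of_homBasis hb (exists_det_ne_zero hb hsep)
  rw [finrank_cuspForm_eq_finrank_SFun, finrank_SFun_two_eq (neg_one_mem_Gamma0 N) hb hd,
    numFixS_Gamma0, numFixST_Gamma0, numCusps_Gamma0, ← Nat.card_eq_fintype_card,
    card_quotient_Gamma0]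
  rfl

end Fermat.Agent.S20
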