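import Mathlib

/-! S20 package P7b, core: the final arithmetic (sorry-free; Mathlib only). -/

set_option autoImplicit false

namespace Fermat.Agent.S20.ArithCore

/-- the primitive sixth root of unity `exp (π i / 3)` in coordinates -/
theorem exp_pi_div_three : Complex.exp (Real.pi * Complex.I / 3) = ⟨1 / 2, Real.sqrt 3 / 2⟩ := by
  have h2 : Complex.exp (Real.pi * Complex.I / 3) =
      Complex.cos (Real.pi / 3) + Complex.sin (Real.pi / 3) * Complex.I := by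
    rw [← Complex.exp_mul_I]
    congr 1
    ring
  rw [h2]
  have h3 : Complex.cos (Real.pi / 3) = ((Real.cos (Real.pi / 3) : ℝ) : ℂ) := by
    push_cast; rfl
  have h4 : Complex.sin (Real.pi / 3) = ((Real.sin (Real.pi / 3) : ℝ) : ℂ) := by
    push_cast; rfl
  rw [h3, h4, Real.cos_pi_div_three, Real.sin_pi_div_three]
  apply Complex.ext <;> simp

theorem zeta_sq : Complex.exp (Real.pi * Complex.I / 3) ^ 2 = ⟨-1 / 2, Real.sqrt 3 / 2⟩ := by
  rw [exp_pi_div_three]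
  have h3 : Real.sqrt 3 * Real.sqrt 3 = 3 := Real.mul_self_sqrt (by norm_num)
  apply Complex.ext
  · simp [pow_two]; nlinarith
  · simp [pow_two]; ring

theorem omega_sq : (⟨-1 / 2, Real.sqrt 3 / 2⟩ : ℂ) ^ 2 = ⟨-1 / 2, -(Real.sqrt 3 / 2)⟩ := by
  have h3 : Real.sqrt 3 * Real.sqrt 3 = 3 := Real.mul_self_sqrt (by norm_num)
  apply Complex.ext
  · simp [pow_two]; nlinarith
  · simp [pow_two]; ring

theorem omega_cube : (⟨-1 / 2, Real.sqrt 3 / 2⟩ : ℂ) ^ 3 = 1 := by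
  have h3 : Real.sqrt 3 * Real.sqrt 3 = 3 := Real.mul_self_sqrt (by norm_num)
  rw [pow_succ, omega_sq]
  apply Complex.ext
  · simp; nlinarith
  · simp; ring

theorem omega_inv : (⟨-1 / 2, Real.sqrt 3 / 2⟩ : ℂ)⁻¹ = ⟨-1 / 2, -(Real.sqrt 3 / 2)⟩ := by
  rw [← omega_sq]
  apply inv_eq_of_mul_eq_one_right
  rw [← pow_succ']
  exact omega_cube

theorem omega_bar_inv : (⟨-1 / 2, -(Real.sqrt 3 / 2)⟩ : ℂ)⁻¹ = ⟨-1 / 2, Real.sqrt 3 / 2⟩ := by
  rw [← omega_inv, inv_inv]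

theorem I_zpow_neg_two_mul (m : ℕ) : Complex.I ^ (-((2 * m : ℕ) : ℤ)) = ((-1 : ℂ) ^ m)⁻¹ := by
  rw [zpow_neg, zpow_natCast, pow_mul, Complex.I_sq]

theorem zeta_zpow_neg_two_mul (m : ℕ) :
    Complex.exp (Real.pi * Complex.I / 3) ^ (-((2 * m : ℕ) : ℤ)) =
      ((⟨-1 / 2, Real.sqrt 3 / 2⟩ : ℂ) ^ m)⁻¹ := by
  rw [zpow_neg, zpow_natCast, pow_mul, zeta_sq]

/-- The pointwise identity behind the dimension formula. -/
theorem weight_pointwise (m : ℕ) (hm : m ≤ 5) :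
    ((if m = 5 then (1 : ℝ) else 0) - (if m = 0 then (1 : ℝ) else 0)) =
      -5 / 12 + ((2 * m : ℕ) : ℝ) / 12 - (Complex.I ^ (-((2 * m : ℕ) : ℤ))).re / 4
        - (Complex.exp (Real.pi * Complex.I / 3) ^ (-((2 * m : ℕ) : ℤ))).re / 3
        + (Complex.exp (Real.pi * Complex.I / 3) ^ (-((2 * m : ℕ) : ℤ))).im / (3 * Real.sqrt 3) := by
  have hs : Real.sqrt 3 ≠ 0 := by positivity
  rw [I_zpow_neg_two_mul, zeta_zpow_neg_two_mul]
  have h4 : (⟨-1 / 2, Real.sqrt 3 / 2⟩ : ℂ) ^ 4 = ⟨-1 / 2, Real.sqrt 3 / 2⟩ := by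
    rw [pow_succ, omega_cube, one_mul]
  have h5 : (⟨-1 / 2, Real.sqrt 3 / 2⟩ : ℂ) ^ 5 = ⟨-1 / 2, -(Real.sqrt 3 / 2)⟩ := by
    rw [show 5 = 3 + 2 from rfl, pow_add, omega_cube, one_mul, omega_sq]
  interval_cases m
  · simp
    norm_num
  · simp only [pow_one, omega_inv]
    norm_num
    field_simp
    ring
  · simp only [omega_sq, omega_bar_inv]
    norm_num
    field_simp
    ring
  · simp only [omega_cube]
    norm_num
  · simp only [h4, omega_inv]
    norm_num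
    field_simp
    ring
  · simp only [h5, omega_bar_inv]
    norm_num
    field_simp
    ring

theorem weight_pointwise_int (κ : ℤ) (h0 : 0 ≤ κ) (h10 : κ ≤ 10) (hev : Even κ) :
    ((if κ = 10 then (1 : ℝ) else 0) - (if κ = 0 then (1 : ℝ) else 0)) =
      -5 / 12 + (κ : ℝ) / 12 - (Complex.I ^ (-κ)).re / 4
        - (Complex.exp (Real.pi * Complex.I / 3) ^ (-κ)).re / 3
        + (Complex.exp (Real.pi * Complex.I / 3) ^ (-κ)).im / (3 * Real.sqrt 3) := by
  obtain ⟨r, hr⟩ := hev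
  obtain ⟨m, rfl⟩ : ∃ m : ℕ, r = m := ⟨r.toNat, (Int.toNat_of_nonneg (by omega)).symm⟩
  have hm : m ≤ 5 := by omega
  have hκ : κ = ((2 * m : ℕ) : ℤ) := by push_cast; omega
  have h := weight_pointwise m hm
  rw [← hκ] at h
  have e1 : (κ = 10) ↔ (m = 5) := by omega
  have e2 : (κ = 0) ↔ (m = 0) := by omega
  have e3 : (κ : ℝ) = ((2 * m : ℕ) : ℝ) := by rw [hκ]; push_cast; ring
  simp only [e1, e2, e3]
  exact h

/-- Pure arithmetic: the six linear relations determine the number of weight-10 generators. -/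
theorem arith_core {X : Type} [Fintype X] (κ : X → ℤ) (μ ν₂ ν₃ c : ℕ)
    (h0 : ∀ j, 0 ≤ κ j) (h10 : ∀ j, κ j ≤ 10) (hev : ∀ j, Even (κ j))
    (hcard : Fintype.card X = μ)
    (hzero : Fintype.card {j : X // κ j = 0} = 1)
    (hS : (ν₂ : ℂ) = ∑ j, Complex.I ^ (-κ j))
    (hST : (ν₃ : ℂ) = ∑ j, Complex.exp (Real.pi * Complex.I / 3) ^ (-κ j))
    (hsum : ∑ j, κ j = 6 * ((μ : ℤ) - c)) :
    (Fintype.card {j : X // κ j = 10} : ℚ) =
      1 + (μ : ℚ) / 12 - (ν₂ : ℚ) / 4 - (ν₃ : ℚ) / 3 - (c : ℚ) / 2 := by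
  classical
  subst hcard
  have hpt := fun j => weight_pointwise_int (κ j) (h0 j) (h10 j) (hev j)
  have hsumpt := Finset.sum_congr (rfl : (Finset.univ : Finset X) = Finset.univ)
    (fun j _ => hpt j)
  simp only [Finset.sum_sub_distrib, Finset.sum_add_distrib, ← Finset.sum_div,
    Finset.sum_const, Finset.card_univ, nsmul_eq_mul] at hsumpt
  rw [Finset.sum_boole, Finset.sum_boole] at hsumpt
  have c10 : (Finset.univ.filter (fun j => κ j = 10)).card = Fintype.card {j : X // κ j = 10} :=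
    (Fintype.card_subtype _).symm
  have c0 : (Finset.univ.filter (fun j => κ j = 0)).card = 1 := by
    rw [← hzero]; exact (Fintype.card_subtype _).symm
  rw [c10, c0] at hsumpt
  have hκsum : (∑ j, (κ j : ℝ)) = 6 * ((Fintype.card X : ℝ) - c) := by
    have := congrArg (fun n : ℤ => (n : ℝ)) hsum
    simp only [Int.cast_sum] at this
    rw [this]
    push_cast
    ring
  have hS1 : (∑ j, (Complex.I ^ (-κ j)).re) = ν₂ := by
    rw [← Complex.re_sum, ← hS]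
    simp
  have hST1 : (∑ j, (Complex.exp (Real.pi * Complex.I / 3) ^ (-κ j)).re) = ν₃ := by
    rw [← Complex.re_sum, ← hST]
    simp
  have hST2 : (∑ j, (Complex.exp (Real.pi * Complex.I / 3) ^ (-κ j)).im) = 0 := by
    rw [← Complex.im_sum, ← hST]
    simp
  rw [hκsum, hS1, hST1, hST2, zero_div, add_zero] at hsumpt
  have hreal : ((Fintype.card {j : X // κ j = 10} : ℚ) : ℝ) =
      ((1 + (Fintype.card X : ℚ) / 12 - (ν₂ : ℚ) / 4 - (ν₃ : ℚ) / 3 - (c : ℚ) / 2 : ℚ) : ℝ) := by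
    push_cast
    push_cast at hsumpt
    linarith
  exact_mod_cast hreal

end Fermat.Agent.S20.ArithCore
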