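import Mathlib

set_option autoImplicit false
set_option linter.unusedSectionVars false

open Complex Function
open scoped Real

namespace Fermat.Agent.S20.CycleDFT

noncomputable section

variable {X : Type*} [Fintype X] [DecidableEq X] (σ : Equiv.Perm X)

/-! ### Cycle bookkeeping for a permutation of a finite type -/

/-- A chosen base point in the cycle of `x`. -/
def base (x : X) : X := (Quotient.mk (Equiv.Perm.SameCycle.setoid σ) x).out

lemma base_sameCycle (x : X) : σ.SameCycle (base σ x) x :=
  Quotient.mk_out (s := Equiv.Perm.SameCycle.setoid σ) x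

lemma base_eq_of_sameCycle {x y : X} (h : σ.SameCycle x y) : base σ x = base σ y := by
  unfold base
  rw [Quotient.sound (s := Equiv.Perm.SameCycle.setoid σ) h]

lemma base_base (x : X) : base σ (base σ x) = base σ x :=
  base_eq_of_sameCycle σ (base_sameCycle σ x)

lemma base_pow (n : ℕ) (x : X) : base σ ((σ ^ n) x) = base σ x :=
  base_eq_of_sameCycle σ (Equiv.Perm.sameCycle_pow_left.mpr (Equiv.Perm.SameCycle.refl σ x))

lemma base_apply (x : X) : base σ (σ x) = base σ x := by
  simpa using base_pow σ 1 x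

/-- The length of the cycle of `x`. -/
def per (x : X) : ℕ := Function.minimalPeriod σ x

lemma per_pos (x : X) : 0 < per σ x :=
  Function.minimalPeriod_pos_of_mem_periodicPts (σ.injective.mem_periodicPts x)

lemma pow_per (x : X) : (σ ^ per σ x) x = x := by
  rw [← Equiv.Perm.iterate_eq_pow]
  exact Function.iterate_minimalPeriod

lemma per_pow (n : ℕ) (x : X) : per σ ((σ ^ n) x) = per σ x := by
  rw [← Equiv.Perm.iterate_eq_pow]
  exact Function.minimalPeriod_apply_iterate (σ.injective.mem_periodicPts x) n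

lemma per_apply (x : X) : per σ (σ x) = per σ x := by
  simpa using per_pow σ 1 x

lemma per_eq_of_sameCycle {x y : X} (h : σ.SameCycle x y) : per σ x = per σ y := by
  obtain ⟨n, rfl⟩ := h.exists_nat_pow_eq
  exact (per_pow σ n x).symm

lemma per_base (x : X) : per σ (base σ x) = per σ x :=
  per_eq_of_sameCycle σ (base_sameCycle σ x)

lemma per_le_card (x : X) : per σ x ≤ Fintype.card X := by
  have hinj : Set.InjOn (fun n : ℕ => σ^[n] x) (Set.Iio (per σ x)) :=
    Function.iterate_injOn_Iio_minimalPeriod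
  have := Finset.card_le_card_of_injOn (s := Finset.range (per σ x)) (t := Finset.univ)
    (fun n : ℕ => σ^[n] x) (fun _ _ => Finset.mem_univ _)
    (by intro a ha b hb hab; exact hinj (by simpa using ha) (by simpa using hb) hab)
  simpa using this

lemma exists_pow_base (x : X) : ∃ n : ℕ, (σ ^ n) (base σ x) = x :=
  (base_sameCycle σ x).exists_nat_pow_eq

/-- The position of `x` in its cycle, counted from the base point. -/
def pos (x : X) : ℕ := Nat.find (exists_pow_base σ x)

lemma pow_pos_base (x : X) : (σ ^ pos σ x) (base σ x) = x :=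
  Nat.find_spec (exists_pow_base σ x)

lemma pos_lt_per (x : X) : pos σ x < per σ x := by
  by_contra h
  rw [not_lt] at h
  have h1 : (σ ^ (pos σ x % per σ (base σ x))) (base σ x) = x := by
    rw [← Equiv.Perm.iterate_eq_pow]
    unfold per
    rw [Function.iterate_mod_minimalPeriod_eq, Equiv.Perm.iterate_eq_pow, pow_pos_base]
  have hmin : pos σ x ≤ pos σ x % per σ (base σ x) := Nat.find_min' (exists_pow_base σ x) h1
  have hlt := Nat.mod_lt (pos σ x) (per_pos σ (base σ x))
  rw [per_base] at hlt hmin
  omega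

lemma pos_pow_of_base {b : X} (hb : base σ b = b) {m : ℕ} (hm : m < per σ b) :
    pos σ ((σ ^ m) b) = m := by
  have hbase : base σ ((σ ^ m) b) = b := by rw [base_pow, hb]
  have h1 : (σ ^ pos σ ((σ ^ m) b)) b = (σ ^ m) b := by
    have := pow_pos_base σ ((σ ^ m) b)
    rwa [hbase] at this
  have h2 : pos σ ((σ ^ m) b) < per σ b := by
    have := pos_lt_per σ ((σ ^ m) b)
    rwa [per_pow] at this
  rw [← Equiv.Perm.iterate_eq_pow, ← Equiv.Perm.iterate_eq_pow] at h1
  exact (Function.iterate_eq_iterate_iff_of_lt_minimalPeriod h2 hm).mp h1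

/-- Summing over the cycle of a base point. -/
lemma sum_fiber {M : Type*} [AddCommMonoid M] {b : X} (hb : base σ b = b) (F : X → M) :
    ∑ y, (if base σ y = b then F y else 0) = ∑ l ∈ Finset.range (per σ b), F ((σ ^ l) b) := by
  rw [← Finset.sum_filter]
  symm
  refine Finset.sum_nbij' (fun l => (σ ^ l) b) (fun y => pos σ y) ?_ ?_ ?_ ?_ ?_
  · intro l _
    simp [base_pow, hb]
  · intro y hy
    simp only [Finset.mem_filter, Finset.mem_univ, true_and] at hy
    rw [Finset.mem_range, ← hy, per_base]
    exact pos_lt_per σ y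
  · intro l hl
    exact pos_pow_of_base σ hb (Finset.mem_range.mp hl)
  · intro y hy
    simp only [Finset.mem_filter, Finset.mem_univ, true_and] at hy
    rw [← hy]
    exact pow_pos_base σ y
  · intro l _
    rfl

/-! ### The exponents and the number of cycles -/

/-- The exponent `pos x / per x ∈ [0, 1)` attached to `x`. -/
def expo (x : X) : ℝ := (pos σ x : ℝ) / (per σ x : ℝ)

lemma expo_nonneg (x : X) : 0 ≤ expo σ x := by
  unfold expo; positivity

lemma expo_lt_one (x : X) : expo σ x < 1 := by
  unfold expo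
  have h := per_pos σ x
  rw [div_lt_one (by exact_mod_cast h)]
  exact_mod_cast pos_lt_per σ x

/-- The number of cycles (including fixed points) of `σ`. -/
def numCycles : ℕ := Nat.card (Quotient (Equiv.Perm.SameCycle.setoid σ))

/-- The base points are in bijection with the cycles. -/
def baseEquiv : Quotient (Equiv.Perm.SameCycle.setoid σ) ≃ {b : X // base σ b = b} where
  toFun q := ⟨q.out, by unfold base; rw [Quotient.out_eq]⟩
  invFun b := Quotient.mk _ b.1
  left_inv q := Quotient.out_eq q
  right_inv b := Subtype.ext b.2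

lemma card_basePoints :
    (Finset.univ.filter (fun b : X => base σ b = b)).card = numCycles σ := by
  unfold numCycles
  rw [Nat.card_congr (baseEquiv σ), Nat.card_eq_fintype_card, Fintype.card_subtype]

lemma sum_range_div (w : ℕ) (hw : 0 < w) :
    ∑ l ∈ Finset.range w, (l : ℝ) / (w : ℝ) = ((w : ℝ) - 1) / 2 := by
  rw [← Finset.sum_div, ← Nat.cast_sum]
  have h := Finset.sum_range_id_mul_two w
  have hw' : (w : ℝ) ≠ 0 := by exact_mod_cast hw.ne'
  have h2 : ((∑ i ∈ Finset.range w, i : ℕ) : ℝ) * 2 = (w : ℝ) * ((w : ℝ) - 1) := by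
    have : ((∑ i ∈ Finset.range w, i : ℕ) : ℝ) * 2 = ((w * (w - 1) : ℕ) : ℝ) := by
      rw [← h]; push_cast; ring
    rw [this, Nat.cast_mul, Nat.cast_sub hw]
    simp
  field_simp
  linarith

theorem card_eq_sum_per :
    (Fintype.card X : ℝ) = ∑ b ∈ Finset.univ.filter (fun b : X => base σ b = b), (per σ b : ℝ) := by
  have h1 : (Fintype.card X : ℝ) = ∑ _x : X, (1 : ℝ) := by simp
  rw [h1, ← Finset.sum_fiberwise_of_maps_to (g := base σ)
    (t := Finset.univ.filter (fun b : X => base σ b = b))
    (fun x _ => by simp [base_base])]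
  refine Finset.sum_congr rfl fun b hb => ?_
  simp only [Finset.mem_filter, Finset.mem_univ, true_and] at hb
  rw [Finset.sum_filter, sum_fiber σ hb]
  simp

theorem sum_expo :
    ∑ x, expo σ x = ((Fintype.card X : ℝ) - (numCycles σ : ℝ)) / 2 := by
  rw [← card_basePoints, card_eq_sum_per σ,
    ← Finset.sum_fiberwise_of_maps_to (g := base σ)
      (t := Finset.univ.filter (fun b : X => base σ b = b))
      (fun x _ => by simp [base_base])]
  have : ∀ b ∈ Finset.univ.filter (fun b : X => base σ b = b),
      ∑ x ∈ Finset.univ.filter (fun x : X => base σ x = b), expo σ x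
        = ((per σ b : ℝ) - 1) / 2 := by
    intro b hb
    simp only [Finset.mem_filter, Finset.mem_univ, true_and] at hb
    rw [Finset.sum_filter, sum_fiber σ hb, ← sum_range_div _ (per_pos σ b)]
    refine Finset.sum_congr rfl fun l hl => ?_
    unfold expo
    rw [pos_pow_of_base σ hb (Finset.mem_range.mp hl), per_pow]
  rw [Finset.sum_congr rfl this, ← Finset.sum_div, Finset.sum_sub_distrib]
  simp

/-! ### The block discrete Fourier transform -/

lemma cexp_two_pi_int_div_ne_one {w : ℕ} {d : ℤ} (hd : d ≠ 0) (hdw : |d| < (w : ℤ)) :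
    cexp (2 * π * I * (d : ℂ) / (w : ℂ)) ≠ 1 := by
  intro h
  rw [Complex.exp_eq_one_iff] at h
  obtain ⟨n, hn⟩ := h
  have hw0 : (0 : ℤ) < w := lt_of_le_of_lt (abs_nonneg d) hdw
  have hw : (w : ℂ) ≠ 0 := by exact_mod_cast hw0.ne'
  have h2 : (d : ℂ) = n * w := by
    have hpi : (2 * π * I : ℂ) ≠ 0 := two_pi_I_ne_zero
    field_simp at hn
    linear_combination hn
  have h3 : d = n * w := by exact_mod_cast h2
  rcases eq_or_ne n 0 with rfl | hn0
  · simp at h3; exact hd h3
  · have : (w : ℤ) ≤ |d| := by
      rw [h3, abs_mul, abs_of_pos hw0]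
      exact le_mul_of_one_le_left hw0.le (Int.one_le_abs hn0)
    omega

/-- Sum of the `w`-th roots of unity twisted by `a' - a`. -/
lemma sum_range_cexp {w a a' : ℕ} (ha : a < w) (ha' : a' < w) :
    ∑ l ∈ Finset.range w, cexp (2 * π * I * (((a' : ℤ) - (a : ℤ) : ℤ) : ℂ) * (l : ℂ) / (w : ℂ))
      = if a = a' then (w : ℂ) else 0 := by
  have hw : (w : ℂ) ≠ 0 := by
    have : 0 < w := lt_of_le_of_lt (Nat.zero_le _) ha
    exact_mod_cast this.ne'
  set ξ : ℂ := cexp (2 * π * I * (((a' : ℤ) - (a : ℤ) : ℤ) : ℂ) / (w : ℂ)) with hξ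
  have hterm : ∀ l : ℕ, cexp (2 * π * I * (((a' : ℤ) - (a : ℤ) : ℤ) : ℂ) * (l : ℂ) / (w : ℂ))
      = ξ ^ l := by
    intro l
    rw [hξ, ← Complex.exp_nat_mul]
    congr 1
    ring
  simp_rw [hterm]
  split_ifs with h
  · subst h
    have : ξ = 1 := by simp [hξ]
    simp [this]
  · have hξ1 : ξ ≠ 1 := by
      apply cexp_two_pi_int_div_ne_one
      · omega
      · rw [abs_lt]; constructor <;> omega
    have hξw : ξ ^ w = 1 := by
      rw [hξ, ← Complex.exp_nat_mul, Complex.exp_eq_one_iff]
      refine ⟨(a' : ℤ) - (a : ℤ), ?_⟩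
      field_simp
    have := mul_geom_sum ξ w
    rw [hξw, sub_self] at this
    rcases mul_eq_zero.mp this with h1 | h1
    · exact absurd (sub_eq_zero.mp h1) hξ1
    · exact h1

/-- The block DFT matrix: rows are "frequencies", columns are "positions". -/
def dft : Matrix X X ℂ := fun x y =>
  if base σ y = base σ x then
    cexp (-(2 * π * I * (pos σ x : ℂ) * (pos σ y : ℂ) / (per σ x : ℂ))) else 0

/-- The inverse of the block DFT matrix. -/
def dftInv : Matrix X X ℂ := fun y x =>
  if base σ y = base σ x then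
    (per σ x : ℂ)⁻¹ * cexp (2 * π * I * (pos σ x : ℂ) * (pos σ y : ℂ) / (per σ x : ℂ)) else 0

lemma eq_of_base_eq_of_pos_eq {x x' : X} (hb : base σ x = base σ x') (hp : pos σ x = pos σ x') :
    x = x' := by
  rw [← pow_pos_base σ x, ← pow_pos_base σ x', hb, hp]

theorem dft_mul_dftInv : dft σ * dftInv σ = 1 := by
  ext x x'
  rw [Matrix.mul_apply]
  by_cases hb : base σ x = base σ x'
  · -- same cycle
    have hper : per σ x' = per σ x := by
      rw [← per_base σ x', ← per_base σ x, hb]
    have hperb : per σ (base σ x) = per σ x := per_base σ x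
    have hw : (per σ x : ℂ) ≠ 0 := by exact_mod_cast (per_pos σ x).ne'
    have hterm : ∀ y : X, dft σ x y * dftInv σ y x'
        = if base σ y = base σ x then
            (per σ x : ℂ)⁻¹ * cexp (2 * π * I * (((pos σ x' : ℤ) - (pos σ x : ℤ) : ℤ) : ℂ)
              * (pos σ y : ℂ) / (per σ x : ℂ)) else 0 := by
      intro y
      unfold dft dftInv
      by_cases hy : base σ y = base σ x
      · rw [if_pos hy, if_pos (hy.trans hb), if_pos hy, hper, mul_left_comm, ← Complex.exp_add]
        congr 2
        push_cast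
        field_simp
        ring
      · rw [if_neg hy, if_neg hy, zero_mul]
    simp_rw [hterm]
    rw [sum_fiber σ (base_base σ x), hperb]
    have hterm2 : ∀ l ∈ Finset.range (per σ x),
        (per σ x : ℂ)⁻¹ * cexp (2 * π * I * (((pos σ x' : ℤ) - (pos σ x : ℤ) : ℤ) : ℂ)
              * (pos σ ((σ ^ l) (base σ x)) : ℂ) / (per σ x : ℂ))
        = (per σ x : ℂ)⁻¹ * cexp (2 * π * I * (((pos σ x' : ℤ) - (pos σ x : ℤ) : ℤ) : ℂ)
              * (l : ℂ) / (per σ x : ℂ)) := by
      intro l hl
      rw [pos_pow_of_base σ (base_base σ x) (by rw [hperb]; exact Finset.mem_range.mp hl)]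
    rw [Finset.sum_congr rfl hterm2, ← Finset.mul_sum,
      sum_range_cexp (pos_lt_per σ x) (by rw [← hper]; exact pos_lt_per σ x')]
    by_cases hxx : x = x'
    · subst hxx
      simp [hw]
    · have hpos : pos σ x ≠ pos σ x' := fun hp => hxx (eq_of_base_eq_of_pos_eq σ hb hp)
      simp [hpos, hxx]
  · have hxx : x ≠ x' := fun h => hb (by rw [h])
    rw [Matrix.one_apply_ne hxx]
    refine Finset.sum_eq_zero fun y _ => ?_
    unfold dft dftInv
    by_cases hy : base σ y = base σ x
    · rw [if_neg (fun h => hb (hy.symm.trans h)), mul_zero]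
    · rw [if_neg hy, zero_mul]

theorem dftInv_mul_dft : dftInv σ * dft σ = 1 :=
  mul_eq_one_comm.mp (dft_mul_dftInv σ)

lemma det_dft_ne_zero : (dft σ).det ≠ 0 := by
  intro h
  have := congrArg Matrix.det (dft_mul_dftInv σ)
  rw [Matrix.det_mul, h, zero_mul, Matrix.det_one] at this
  exact zero_ne_one this

/-- Row `x` of `dft σ * M` is the finite Fourier transform along the cycle of `x`. -/
lemma dft_mul_apply {J : Type*} (M : Matrix X J ℂ) (x : X) (j : J) :
    (dft σ * M) x j = ∑ l ∈ Finset.range (per σ x),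
      cexp (-(2 * π * I * (pos σ x : ℂ) * (l : ℂ) / (per σ x : ℂ))) * M ((σ ^ l) (base σ x)) j := by
  rw [Matrix.mul_apply]
  have hterm : ∀ y : X, dft σ x y * M y j
      = if base σ y = base σ x then
          cexp (-(2 * π * I * (pos σ x : ℂ) * (pos σ y : ℂ) / (per σ x : ℂ))) * M y j else 0 := by
    intro y
    unfold dft
    split_ifs <;> simp
  simp_rw [hterm]
  rw [sum_fiber σ (base_base σ x), per_base]
  refine Finset.sum_congr rfl fun l hl => ?_
  rw [pos_pow_of_base σ (base_base σ x) (by rw [per_base]; exact Finset.mem_range.mp hl)]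

/-! ### Cycles of the permutation induced by a group element -/

lemma sameCycle_toPerm_iff {G : Type*} [Group G] [MulAction G X] (t : G) (x y : X) :
    (MulAction.toPerm t : Equiv.Perm X).SameCycle x y
      ↔ (MulAction.orbitRel (Subgroup.zpowers t) X) x y := by
  rw [MulAction.orbitRel_apply, MulAction.mem_orbit_iff]
  have hz : ∀ i : ℤ, ((MulAction.toPerm t : Equiv.Perm X) ^ i) = MulAction.toPerm (t ^ i) := by
    intro i
    exact (map_zpow (MulAction.toPermHom G X) t i).symm
  constructor
  · rintro ⟨i, hi⟩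
    refine ⟨⟨t ^ (-i), Subgroup.zpow_mem_zpowers t (-i)⟩, ?_⟩
    rw [hz] at hi
    rw [← hi]
    show t ^ (-i) • (t ^ i • x) = x
    rw [smul_smul, ← zpow_add]
    simp
  · rintro ⟨⟨g, hg⟩, hgy⟩
    obtain ⟨i, rfl⟩ := Subgroup.mem_zpowers_iff.mp hg
    refine ⟨-i, ?_⟩
    rw [hz]
    have : t ^ i • y = x := hgy
    rw [← this]
    show t ^ (-i) • (t ^ i • y) = y
    rw [smul_smul, ← zpow_add]
    simp

/-- The number of cycles of the permutation induced by a group element is the number of orbits
of the cyclic subgroup it generates. -/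
theorem numCycles_toPerm {G : Type*} [Group G] [MulAction G X] (t : G) :
    numCycles (MulAction.toPerm t : Equiv.Perm X)
      = Nat.card (MulAction.orbitRel.Quotient (Subgroup.zpowers t) X) := by
  unfold numCycles
  exact Nat.card_congr (Quotient.congrRight (sameCycle_toPerm_iff t))

theorem numCycles_toPerm_inv {G : Type*} [Group G] [MulAction G X] (t : G) :
    numCycles (MulAction.toPerm t⁻¹ : Equiv.Perm X)
      = Nat.card (MulAction.orbitRel.Quotient (Subgroup.zpowers t) X) := by
  rw [numCycles_toPerm, Subgroup.zpowers_inv]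

end

end Fermat.Agent.S20.CycleDFT
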