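import Mathlib
import Fermat.Agent.S20.CycleDFT

set_option autoImplicit false
set_option linter.unusedSectionVars false

open Complex Filter Function Asymptotics
open UpperHalfPlane hiding I
open scoped Real Topology Manifold MatrixGroups

namespace Fermat.Agent.S20.AtInftyCore

noncomputable section

/-! ### Periodic holomorphic functions on the upper half plane -/

/-- Periodicity on `ℍ` (in `+ᵥ` form) gives periodicity of `f ∘ ofComplex` on `ℂ`. -/
lemma periodic_comp_ofComplex_of_vadd {f : ℍ → ℂ} {h : ℝ}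
    (hf : ∀ z : ℍ, f (h +ᵥ z) = f z) : Periodic (f ∘ ofComplex) h := by
  intro w
  by_cases hw : 0 < w.im
  · have hw' : 0 < (w + h).im := by simpa using hw
    simp only [comp_apply, ofComplex_apply_of_im_pos hw', ofComplex_apply_of_im_pos hw]
    rw [← hf ⟨w, hw⟩]
    congr 1
    ext
    simp [add_comm]
  · have hw0 : w.im ≤ 0 := not_lt.mp hw
    have hw' : (w + h).im ≤ 0 := by simpa using hw0
    simp [ofComplex_apply_of_im_nonpos hw', ofComplex_apply_of_im_nonpos hw0]

/-- A holomorphic, bounded, periodic function on `ℍ` has a limit at `i∞`. -/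
lemma tendsto_valueAtInfty {f : ℍ → ℂ} {h : ℝ} (hh : 0 < h)
    (hper : ∀ z : ℍ, f (h +ᵥ z) = f z) (hol : MDiff f) (bdd : IsBoundedAtImInfty f) :
    Tendsto f atImInfty (𝓝 (valueAtInfty f)) := by
  have hp := periodic_comp_ofComplex_of_vadd hper
  have han := analyticAt_cuspFunction_zero hh hp hol bdd
  have h0 := cuspFunction_apply_zero hh han hp
  have : (cuspFunction h f ∘ fun τ : ℍ ↦ Periodic.qParam h τ : ℍ → ℂ) = f := by
    funext τ
    simpa using eq_cuspFunction τ hh.ne' hp
  rw [← h0]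
  simpa [this] using han.continuousAt.tendsto.comp (qParam_tendsto_atImInfty hh)

lemma tendsto_vadd_atImInfty (a : ℝ) :
    Tendsto (fun z : ℍ => a +ᵥ z) atImInfty atImInfty := by
  simp only [atImInfty, tendsto_comap_iff, Function.comp_def, vadd_im]
  exact tendsto_comap

/-- Iterating a twisted translation relation. -/
lemma twist_iterate {E : ℍ → ℂ} {c : ℂ} (tw : ∀ z : ℍ, E ((1:ℝ) +ᵥ z) = c * E z) (n : ℕ)
    (z : ℍ) : E ((n : ℝ) +ᵥ z) = c ^ n * E z := by
  induction n with
  | zero => simp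
  | succ n ih =>
    have : ((n + 1 : ℕ) : ℝ) +ᵥ z = (1:ℝ) +ᵥ ((n : ℝ) +ᵥ z) := by
      rw [vadd_vadd]; push_cast; ring_nf
    rw [this, tw, ih, pow_succ]; ring

lemma norm_cexp_neg_two_pi_I_mul (t : ℝ) (z : ℍ) :
    ‖cexp (-(2 * π * I * t * (z : ℂ)))‖ = Real.exp (2 * π * t * z.im) := by
  rw [Complex.norm_exp]
  congr 1
  simp [mul_re, mul_im]

/-- A root of unity `exp (2 π i k / w)` with `0 < k < w` is not `1`. -/
lemma cexp_ne_one_of_lt {w k : ℕ} (hk : 0 < k) (hkw : k < w) :
    cexp (2 * π * I * k / w) ≠ 1 := by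
  intro h
  rw [Complex.exp_eq_one_iff] at h
  obtain ⟨n, hn⟩ := h
  have hw : (w : ℂ) ≠ 0 := by
    have : 0 < w := lt_trans hk hkw
    exact_mod_cast this.ne'
  have h2 : (k : ℂ) = n * w := by
    have hpi : (2 * π * I : ℂ) ≠ 0 := two_pi_I_ne_zero
    field_simp at hn
    linear_combination hn
  have h3 : (k : ℤ) = n * w := by exact_mod_cast h2
  have hn0 : 0 < n := by
    by_contra hcon
    rw [not_lt] at hcon
    have : n * (w : ℤ) ≤ 0 := mul_nonpos_of_nonpos_of_nonneg hcon (by positivity)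
    have hk' : (0 : ℤ) < k := by exact_mod_cast hk
    omega
  have : (w : ℤ) ≤ n * w := le_mul_of_one_le_left (by positivity) hn0
  have hkw' : (k : ℤ) < w := by exact_mod_cast hkw
  omega

/-- **Key lemma.** If `E` is holomorphic and bounded at `i∞` and satisfies the twisted
periodicity `E (z + 1) = exp (2 π i m / w) * E z` with `m < w`, then `exp (-2 π i m z / w) * E z`
is still bounded at `i∞`. -/
lemma twisted_isBoundedAtImInfty {w : ℕ} (m : ℕ) (hm : m < w) {E : ℍ → ℂ}
    (hol : MDiff E) (bdd : IsBoundedAtImInfty E)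
    (tw : ∀ z : ℍ, E ((1:ℝ) +ᵥ z) = cexp (2 * π * I * m / w) * E z) :
    IsBoundedAtImInfty (fun z : ℍ => cexp (-(2 * π * I * (m / w : ℝ) * (z : ℂ))) * E z) := by
  have hw : 0 < w := lt_of_le_of_lt (Nat.zero_le _) hm
  have hwC : (w : ℂ) ≠ 0 := by exact_mod_cast hw.ne'
  have hwR : (0 : ℝ) < w := by exact_mod_cast hw
  -- induction on `m' ≤ m`
  suffices H : ∀ m' : ℕ, m' ≤ m →
      IsBoundedAtImInfty (fun z : ℍ => cexp (-(2 * π * I * (m' / w : ℝ) * (z : ℂ))) * E z) from
    H m le_rfl
  intro m'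
  induction m' with
  | zero =>
    intro _
    simpa using bdd
  | succ m' ih =>
    intro hm'
    have hlt : m' < m := hm'
    set G : ℍ → ℂ := fun z : ℍ => cexp (-(2 * π * I * (m' / w : ℝ) * (z : ℂ))) * E z with hG
    have hGbdd : IsBoundedAtImInfty G := ih hlt.le
    have hGhol : MDiff G := by
      have h1 : MDiff (fun z : ℍ => cexp (-(2 * π * I * (m' / w : ℝ) * (z : ℂ)))) := by
        rw [UpperHalfPlane.mdifferentiable_iff]
        have : DifferentiableOn ℂ (fun z : ℂ => cexp (-(2 * π * I * (m' / w : ℝ) * z)))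
            {z | 0 < z.im} := by
          apply Differentiable.differentiableOn
          fun_prop
        refine this.congr fun z hz => ?_
        simp [Function.comp, ofComplex_apply_of_im_pos hz]
      exact h1.mul hol
    -- twisted relation for `G`
    have hGtw : ∀ z : ℍ, G ((1:ℝ) +ᵥ z) = cexp (2 * π * I * ((m - m' : ℕ) : ℕ) / w) * G z := by
      intro z
      simp only [hG, tw z, coe_vadd]
      rw [← mul_assoc, ← mul_assoc, ← Complex.exp_add, ← Complex.exp_add]
      congr 2
      push_cast [Nat.cast_sub hlt.le]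
      field_simp
      ring
    set c : ℂ := cexp (2 * π * I * ((m - m' : ℕ) : ℕ) / w) with hc
    have hc1 : c ≠ 1 := cexp_ne_one_of_lt (Nat.sub_pos_of_lt hlt) (by omega)
    have hcw : c ^ w = 1 := by
      rw [hc, ← Complex.exp_nat_mul]
      rw [Complex.exp_eq_one_iff]
      refine ⟨((m - m' : ℕ) : ℤ), ?_⟩
      push_cast
      field_simp
    -- `G` is `w`-periodic
    have hGper : ∀ z : ℍ, G ((w : ℝ) +ᵥ z) = G z := by
      intro z
      rw [twist_iterate hGtw w z, hcw, one_mul]
    have hlim := tendsto_valueAtInfty hwR hGper hGhol hGbdd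
    -- the limit is zero
    have hlim2 : Tendsto (fun z : ℍ => G ((1:ℝ) +ᵥ z)) atImInfty (𝓝 (valueAtInfty G)) :=
      hlim.comp (tendsto_vadd_atImInfty 1)
    have hlim3 : Tendsto (fun z : ℍ => G ((1:ℝ) +ᵥ z)) atImInfty (𝓝 (c * valueAtInfty G)) := by
      have := hlim.const_mul c
      refine this.congr fun z => ?_
      rw [hGtw z]
    have hL : valueAtInfty G = 0 := by
      have h := tendsto_nhds_unique hlim2 hlim3
      have : (1 - c) * valueAtInfty G = 0 := by linear_combination h
      rcases mul_eq_zero.mp this with h1 | h1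
      · exact absurd (sub_eq_zero.mp h1).symm hc1
      · exact h1
    have hzero : IsZeroAtImInfty G := by
      have := hlim
      rw [hL] at this
      exact this
    have hdecay := hzero.exp_decay_atImInfty hwR (periodic_comp_ofComplex_of_vadd hGper)
      hGhol hGbdd
    -- multiply by `exp (-2 π i z / w)`
    have hmul : (fun z : ℍ => cexp (-(2 * π * I * (1 / w : ℝ) * (z : ℂ)))) =O[atImInfty]
        fun z : ℍ => Real.exp (2 * π * z.im / w) := by
      refine Asymptotics.IsBigO.of_bound 1 (Eventually.of_forall fun z => ?_)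
      rw [norm_cexp_neg_two_pi_I_mul, one_mul, Real.norm_eq_abs, abs_of_pos (Real.exp_pos _)]
      apply le_of_eq
      congr 1
      ring
    have hprod := hmul.mul hdecay
    have hone : (fun z : ℍ => Real.exp (2 * π * z.im / w) * Real.exp (-2 * π * z.im / w))
        = fun _ => (1 : ℝ) := by
      funext z
      rw [← Real.exp_add]
      have : 2 * π * z.im / w + -2 * π * z.im / w = 0 := by ring
      rw [this, Real.exp_zero]
    rw [hone] at hprod
    have hfun : (fun z : ℍ => cexp (-(2 * π * I * (((m' + 1 : ℕ) : ℝ) / w : ℝ) * (z : ℂ))) * E z)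
        = fun z : ℍ => cexp (-(2 * π * I * (1 / w : ℝ) * (z : ℂ))) * G z := by
      funext z
      simp only [hG]
      rw [← mul_assoc, ← Complex.exp_add]
      congr 2
      push_cast
      ring
    rw [IsBoundedAtImInfty, BoundedAtFilter, hfun]
    exact hprod

/-! ### Matrices of holomorphic functions twisted by a permutation -/

open Fermat.Agent.S20.CycleDFT

variable {X : Type*} [Fintype X] [DecidableEq X] (σ : Equiv.Perm X) {J : Type*}

/-- The "leading part" of a matrix valued function `Φ` whose rows are permuted by `σ` under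
`z ↦ z + 1`: row `x` of `dft σ * Φ z` divided by `exp (2 π i (expo σ x) z)`. -/
def lead (Φ : ℍ → Matrix X J ℂ) (z : ℍ) : Matrix X J ℂ :=
  fun x j => cexp (-(2 * π * I * ((expo σ x : ℝ) : ℂ) * (z : ℂ))) * (dft σ * Φ z) x j

/-- The limit of `lead σ Φ` at `i∞` (the matrix of leading Fourier coefficients). -/
def leadCoeff (Φ : ℍ → Matrix X J ℂ) : Matrix X J ℂ :=
  fun x j => valueAtInfty (fun z => lead σ Φ z x j)

lemma dft_mul_eq (Φ : ℍ → Matrix X J ℂ) (z : ℍ) (x : X) (j : J) :
    (dft σ * Φ z) x j = cexp (2 * π * I * ((expo σ x : ℝ) : ℂ) * (z : ℂ)) * lead σ Φ z x j := by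
  unfold lead
  rw [← mul_assoc, ← Complex.exp_add]
  simp

section Hyp

variable {σ}
variable {Φ : ℍ → Matrix X J ℂ}

lemma mdiff_dft_mul (hol : ∀ x j, MDiff (fun z => Φ z x j)) (x : X) (j : J) :
    MDiff (fun z => (dft σ * Φ z) x j) := by
  rw [UpperHalfPlane.mdifferentiable_iff]
  have : ((fun z => (dft σ * Φ z) x j) ∘ ofComplex)
      = fun w : ℂ => ∑ y, dft σ x y * ((fun z => Φ z y j) ∘ ofComplex) w := by
    funext w
    simp [Matrix.mul_apply]
  rw [this]
  refine DifferentiableOn.fun_sum fun y _ => ?_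
  exact (UpperHalfPlane.mdifferentiable_iff.mp (hol y j)).const_mul _

lemma bdd_dft_mul (bdd : ∀ x j, IsBoundedAtImInfty (fun z => Φ z x j)) (x : X) (j : J) :
    IsBoundedAtImInfty (fun z => (dft σ * Φ z) x j) := by
  have : (fun z => (dft σ * Φ z) x j) = ∑ y ∈ Finset.univ, fun z => dft σ x y * Φ z y j := by
    funext z
    simp [Matrix.mul_apply]
  rw [this, IsBoundedAtImInfty, BoundedAtFilter]
  refine Asymptotics.IsBigO.sum fun y _ => ?_
  exact (bdd y j).const_mul_left _

lemma dft_mul_twist (tw : ∀ z x j, Φ ((1:ℝ) +ᵥ z) x j = Φ z (σ x) j) (z : ℍ) (x : X) (j : J) :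
    (dft σ * Φ ((1:ℝ) +ᵥ z)) x j
      = cexp (2 * π * I * (pos σ x : ℕ) / (per σ x : ℕ)) * (dft σ * Φ z) x j := by
  rw [dft_mul_apply, dft_mul_apply]
  have hw : (per σ x : ℂ) ≠ 0 := by exact_mod_cast (per_pos σ x).ne'
  set g : ℕ → ℂ := fun l =>
    cexp (-(2 * π * I * (pos σ x : ℂ) * (l : ℂ) / (per σ x : ℂ))) * Φ z ((σ ^ l) (base σ x)) j
    with hg
  have h1 : ∀ l : ℕ, cexp (-(2 * π * I * (pos σ x : ℂ) * (l : ℂ) / (per σ x : ℂ)))
        * Φ ((1:ℝ) +ᵥ z) ((σ ^ l) (base σ x)) j
      = cexp (2 * π * I * (pos σ x : ℕ) / (per σ x : ℕ)) * g (l + 1) := by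
    intro l
    rw [tw, hg]
    simp only
    rw [← mul_assoc, ← Complex.exp_add, pow_succ', Equiv.Perm.mul_apply]
    congr 2
    push_cast
    field_simp
    ring
  rw [Finset.sum_congr rfl (fun l _ => h1 l), ← Finset.mul_sum]
  congr 1
  have h2 := Finset.sum_range_succ' g (per σ x)
  have h3 := Finset.sum_range_succ g (per σ x)
  have h4 : g (per σ x) = g 0 := by
    rw [hg]
    simp only
    have hb : (σ ^ per σ x) (base σ x) = base σ x := by
      have := pow_per σ (base σ x)
      rwa [per_base] at this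
    rw [hb]
    congr 1
    · rw [Nat.cast_zero, mul_zero, zero_div, neg_zero, Complex.exp_zero, Complex.exp_eq_one_iff]
      refine ⟨-(pos σ x : ℤ), ?_⟩
      push_cast
      field_simp
  rw [h3, h4] at h2
  exact (add_right_cancel h2).symm

variable (hol : ∀ x j, MDiff (fun z => Φ z x j))
  (bdd : ∀ x j, IsBoundedAtImInfty (fun z => Φ z x j))
  (tw : ∀ z x j, Φ ((1:ℝ) +ᵥ z) x j = Φ z (σ x) j)

include hol in
lemma mdiff_lead (x : X) (j : J) : MDiff (fun z => lead σ Φ z x j) := by
  unfold lead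
  have h1 : MDiff (fun z : ℍ => cexp (-(2 * π * I * ((expo σ x : ℝ) : ℂ) * (z : ℂ)))) := by
    rw [UpperHalfPlane.mdifferentiable_iff]
    have : DifferentiableOn ℂ (fun z : ℂ => cexp (-(2 * π * I * ((expo σ x : ℝ) : ℂ) * z)))
        {z | 0 < z.im} := by
      apply Differentiable.differentiableOn
      fun_prop
    refine this.congr fun z hz => ?_
    simp [Function.comp, ofComplex_apply_of_im_pos hz]
  exact h1.mul (mdiff_dft_mul hol x j)

include hol bdd tw in
lemma bdd_lead (x : X) (j : J) : IsBoundedAtImInfty (fun z => lead σ Φ z x j) := by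
  have := twisted_isBoundedAtImInfty (w := per σ x) (pos σ x) (pos_lt_per σ x)
    (mdiff_dft_mul hol x j) (bdd_dft_mul bdd x j) (fun z => dft_mul_twist tw z x j)
  exact this

include tw in
lemma lead_periodic (x : X) (j : J) (z : ℍ) : lead σ Φ ((1:ℝ) +ᵥ z) x j = lead σ Φ z x j := by
  unfold lead
  rw [dft_mul_twist tw, ← mul_assoc, ← Complex.exp_add]
  congr 2
  have hw : (per σ x : ℂ) ≠ 0 := by exact_mod_cast (per_pos σ x).ne'
  unfold expo
  rw [coe_vadd]
  push_cast
  field_simp
  ring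

include hol bdd tw in
lemma tendsto_lead (x : X) (j : J) :
    Tendsto (fun z => lead σ Φ z x j) atImInfty (𝓝 (leadCoeff σ Φ x j)) :=
  tendsto_valueAtInfty one_pos (lead_periodic tw x j) (mdiff_lead hol x j) (bdd_lead hol bdd tw x j)

end Hyp

/-! ### Consequences -/

section Cor

variable {σ}
variable {Φ : ℍ → Matrix X J ℂ}
variable (hol : ∀ x j, MDiff (fun z => Φ z x j))
  (bdd : ∀ x j, IsBoundedAtImInfty (fun z => Φ z x j))
  (tw : ∀ z x j, Φ ((1:ℝ) +ᵥ z) x j = Φ z (σ x) j)

/-- `dft σ * Φ z = diagonal (exp (2 π i r_x z)) * lead σ Φ z`. -/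
lemma dft_mul_eq_diagonal_mul (Φ : ℍ → Matrix X J ℂ) (z : ℍ) :
    dft σ * Φ z
      = Matrix.diagonal (fun x => cexp (2 * π * I * ((expo σ x : ℝ) : ℂ) * (z : ℂ)))
        * lead σ Φ z := by
  ext x j
  rw [Matrix.diagonal_mul, dft_mul_eq]

/-- `Φ z = dftInv σ * diagonal (exp (2 π i r_x z)) * lead σ Φ z`. -/
lemma eq_dftInv_mul (Φ : ℍ → Matrix X J ℂ) (z : ℍ) :
    Φ z = dftInv σ *
      (Matrix.diagonal (fun x => cexp (2 * π * I * ((expo σ x : ℝ) : ℂ) * (z : ℂ)))
        * lead σ Φ z) := by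
  rw [← dft_mul_eq_diagonal_mul, ← Matrix.mul_assoc, dftInv_mul_dft, Matrix.one_mul]

lemma norm_cexp_two_pi_I_mul (t : ℝ) (z : ℍ) :
    ‖cexp (2 * π * I * (t : ℂ) * (z : ℂ))‖ = Real.exp (-(2 * π * t * z.im)) := by
  rw [Complex.norm_exp]
  congr 1
  simp [mul_re, mul_im]

include hol bdd tw in
/-- **Kernel lemma.** If the coefficient functions `c j` (holomorphic, `1`-periodic, bounded)
tend to a vector `lam` in the kernel of the leading coefficient matrix, then every component of
`Φ z *ᵥ c z` is `O(exp (-2 π Im z))`. -/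
theorem isBigO_of_leadCoeff_mulVec_eq_zero [Fintype J] {c : J → ℍ → ℂ} {lam : J → ℂ}
    (hc : ∀ j, MDiff (c j)) (hcper : ∀ j z, c j ((1:ℝ) +ᵥ z) = c j z)
    (hclim : ∀ j, Tendsto (c j) atImInfty (𝓝 (lam j)))
    (h0 : (leadCoeff σ Φ).mulVec lam = 0) (x : X) :
    (fun z : ℍ => ∑ j, Φ z x j * c j z) =O[atImInfty] fun z : ℍ => Real.exp (-2 * π * z.im) := by
  -- the functions `u y z = ∑ j, lead z y j * c j z`
  set u : X → ℍ → ℂ := fun y z => ∑ j, lead σ Φ z y j * c j z with hu
  have hu_hol : ∀ y, MDiff (u y) := by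
    intro y
    rw [UpperHalfPlane.mdifferentiable_iff]
    have : (u y ∘ ofComplex)
        = fun w : ℂ => ∑ j, ((fun z => lead σ Φ z y j) ∘ ofComplex) w * (c j ∘ ofComplex) w := by
      funext w
      simp [hu]
    rw [this]
    refine DifferentiableOn.fun_sum fun j _ => ?_
    exact (UpperHalfPlane.mdifferentiable_iff.mp (mdiff_lead hol y j)).mul
      (UpperHalfPlane.mdifferentiable_iff.mp (hc j))
  have hu_per : ∀ y z, u y ((1:ℝ) +ᵥ z) = u y z := by
    intro y z
    simp only [hu]
    refine Finset.sum_congr rfl fun j _ => ?_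
    rw [lead_periodic tw, hcper]
  have hu_lim : ∀ y, Tendsto (u y) atImInfty (𝓝 0) := by
    intro y
    have h1 : Tendsto (u y) atImInfty (𝓝 (∑ j, leadCoeff σ Φ y j * lam j)) := by
      simp only [hu]
      exact tendsto_finsetSum _ fun j _ => (tendsto_lead hol bdd tw y j).mul (hclim j)
    have h2 : ∑ j, leadCoeff σ Φ y j * lam j = 0 := by
      have := congrFun h0 y
      simpa [Matrix.mulVec, dotProduct] using this
    rwa [h2] at h1
  have hu_decay : ∀ y, u y =O[atImInfty] fun z : ℍ => Real.exp (-2 * π * z.im) := by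
    intro y
    have hz : IsZeroAtImInfty (u y) := hu_lim y
    have := hz.exp_decay_atImInfty one_pos (periodic_comp_ofComplex_of_vadd (hu_per y))
      (hu_hol y) hz.isBoundedAtImInfty
    simpa using this
  -- components of `dft σ * Φ z *ᵥ c z`
  have hv : ∀ y, (fun z : ℍ => ∑ j, (dft σ * Φ z) y j * c j z)
      =O[atImInfty] fun z : ℍ => Real.exp (-2 * π * z.im) := by
    intro y
    have h1 : (fun z : ℍ => ∑ j, (dft σ * Φ z) y j * c j z)
        = fun z : ℍ => cexp (2 * π * I * ((expo σ y : ℝ) : ℂ) * (z : ℂ)) * u y z := by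
      funext z
      simp only [hu, Finset.mul_sum]
      refine Finset.sum_congr rfl fun j _ => ?_
      rw [dft_mul_eq, mul_assoc]
    rw [h1]
    have h2 : (fun z : ℍ => cexp (2 * π * I * ((expo σ y : ℝ) : ℂ) * (z : ℂ)))
        =O[atImInfty] fun _ : ℍ => (1 : ℝ) := by
      refine Asymptotics.IsBigO.of_bound 1 (Eventually.of_forall fun z => ?_)
      rw [norm_cexp_two_pi_I_mul, one_mul, norm_one, Real.exp_le_one_iff]
      have := expo_nonneg σ y
      have := z.im_pos
      have := Real.pi_pos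
      nlinarith [mul_nonneg (mul_nonneg (mul_nonneg zero_le_two Real.pi_pos.le) (expo_nonneg σ y))
        z.im_pos.le]
    simpa using h2.mul (hu_decay y)
  -- recover `Φ` from `dft σ * Φ`
  have h3 : (fun z : ℍ => ∑ j, Φ z x j * c j z)
      = ∑ y ∈ Finset.univ, fun z : ℍ => dftInv σ x y * ∑ j, (dft σ * Φ z) y j * c j z := by
    funext z
    rw [Finset.sum_apply]
    simp only [Finset.mul_sum]
    rw [Finset.sum_comm]
    refine Finset.sum_congr rfl fun j _ => ?_
    have hΦ : dftInv σ * (dft σ * Φ z) = Φ z := by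
      rw [← Matrix.mul_assoc, dftInv_mul_dft, Matrix.one_mul]
    have : Φ z x j = ∑ y, dftInv σ x y * (dft σ * Φ z) y j := by
      conv_lhs => rw [← hΦ]
      rw [Matrix.mul_apply]
    rw [this, Finset.sum_mul]
    refine Finset.sum_congr rfl fun y _ => ?_
    ring
  rw [h3]
  exact Asymptotics.IsBigO.sum fun y _ => (hv y).const_mul_left _

end Cor

section Square

variable {σ}
variable {Φ : ℍ → Matrix X X ℂ}
variable (hol : ∀ x j, MDiff (fun z => Φ z x j))
  (bdd : ∀ x j, IsBoundedAtImInfty (fun z => Φ z x j))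
  (tw : ∀ z x j, Φ ((1:ℝ) +ᵥ z) x j = Φ z (σ x) j)

include hol bdd tw in
lemma tendsto_lead_matrix :
    Tendsto (fun z => lead σ Φ z) atImInfty (𝓝 (leadCoeff σ Φ)) := by
  have : Tendsto (fun z => (lead σ Φ z : X → X → ℂ)) atImInfty
      (𝓝 (leadCoeff σ Φ : X → X → ℂ)) :=
    tendsto_pi_nhds.mpr fun x => tendsto_pi_nhds.mpr fun j => tendsto_lead hol bdd tw x j
  exact this

/-- The determinant of `Φ z` in terms of the determinant of its leading part. -/
theorem det_eq (Φ : ℍ → Matrix X X ℂ) (z : ℍ) :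
    (Φ z).det = (dft σ).det⁻¹ * cexp (2 * π * I * ((∑ x, expo σ x : ℝ) : ℂ) * (z : ℂ))
      * (lead σ Φ z).det := by
  have h := congrArg Matrix.det (dft_mul_eq_diagonal_mul (σ := σ) Φ z)
  rw [Matrix.det_mul, Matrix.det_mul, Matrix.det_diagonal, ← Complex.exp_sum] at h
  have hd := det_dft_ne_zero σ
  have hsum : ∑ x, 2 * π * I * ((expo σ x : ℝ) : ℂ) * (z : ℂ)
      = 2 * π * I * ((∑ x, expo σ x : ℝ) : ℂ) * (z : ℂ) := by
    push_cast
    rw [Finset.mul_sum, Finset.sum_mul]
  rw [hsum] at h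
  field_simp
  linear_combination h

include hol bdd tw in
theorem tendsto_det_lead :
    Tendsto (fun z => (lead σ Φ z).det) atImInfty (𝓝 (leadCoeff σ Φ).det) := by
  have h1 := tendsto_lead_matrix hol bdd tw
  exact ((continuous_id.matrix_det (n := X) (R := ℂ)).tendsto _).comp h1

include hol bdd tw in
/-- **Inverse bound.** If the leading coefficient matrix is invertible, then `g z * (Φ z)⁻¹ j x`
tends to zero at `i∞` for every `g = O(exp (-2 π Im z))`. -/
theorem isZeroAtImInfty_mul_inv (hdet : (leadCoeff σ Φ).det ≠ 0) {g : ℍ → ℂ}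
    (hg : g =O[atImInfty] fun z : ℍ => Real.exp (-2 * π * z.im)) (j x : X) :
    IsZeroAtImInfty (fun z => g z * (Φ z)⁻¹ j x) := by
  have hdl := tendsto_det_lead hol bdd tw
  have hev : ∀ᶠ z in atImInfty, (lead σ Φ z).det ≠ 0 := hdl.eventually_ne hdet
  -- entries of the inverse of the leading part converge
  have hlead := tendsto_lead_matrix hol bdd tw
  have hinv : ∀ y, Tendsto (fun z => (lead σ Φ z)⁻¹ j y) atImInfty
      (𝓝 ((leadCoeff σ Φ)⁻¹ j y)) := by
    intro y
    have hadj : Tendsto (fun z => (lead σ Φ z).adjugate j y) atImInfty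
        (𝓝 ((leadCoeff σ Φ).adjugate j y)) := by
      have h2 := ((continuous_id.matrix_adjugate (n := X) (R := ℂ)).tendsto
        (leadCoeff σ Φ)).comp hlead
      exact (tendsto_pi_nhds.mp (tendsto_pi_nhds.mp h2 j) y)
    have h3 := (hdl.inv₀ hdet).mul hadj
    have e : ∀ M : Matrix X X ℂ, M⁻¹ j y = M.det⁻¹ * M.adjugate j y := by
      intro M
      rw [Matrix.inv_def, Ring.inverse_eq_inv']
      simp [Matrix.smul_apply]
    rw [e]
    exact h3.congr fun z => (e _).symm
  -- formula for the inverse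
  have hform : ∀ᶠ z in atImInfty, (Φ z)⁻¹ j x = ∑ y, (lead σ Φ z)⁻¹ j y *
      (cexp (-(2 * π * I * ((expo σ y : ℝ) : ℂ) * (z : ℂ))) * dft σ y x) := by
    filter_upwards [hev] with z hz
    have hunit : IsUnit (lead σ Φ z).det := isUnit_iff_ne_zero.mpr hz
    have hmul : Φ z * ((lead σ Φ z)⁻¹ *
        (Matrix.diagonal (fun y => cexp (-(2 * π * I * ((expo σ y : ℝ) : ℂ) * (z : ℂ))))
          * dft σ)) = 1 := by
      conv_lhs => rw [eq_dftInv_mul (σ := σ) Φ z]
      have hdiag : Matrix.diagonal (fun x => cexp (2 * π * I * ((expo σ x : ℝ) : ℂ) * (z : ℂ)))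
          * Matrix.diagonal (fun y => cexp (-(2 * π * I * ((expo σ y : ℝ) : ℂ) * (z : ℂ))))
          = (1 : Matrix X X ℂ) := by
        rw [Matrix.diagonal_mul_diagonal]
        have : (fun i : X => cexp (2 * π * I * ((expo σ i : ℝ) : ℂ) * (z : ℂ))
            * cexp (-(2 * π * I * ((expo σ i : ℝ) : ℂ) * (z : ℂ)))) = fun _ => 1 := by
          funext i
          rw [← Complex.exp_add, add_neg_cancel, Complex.exp_zero]
        rw [this, Matrix.diagonal_one]
      calc dftInv σ * (Matrix.diagonal (fun x => cexp (2 * π * I * ((expo σ x : ℝ) : ℂ) * (z : ℂ)))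
              * lead σ Φ z) * ((lead σ Φ z)⁻¹ *
            (Matrix.diagonal (fun y => cexp (-(2 * π * I * ((expo σ y : ℝ) : ℂ) * (z : ℂ))))
              * dft σ))
          = dftInv σ * (Matrix.diagonal (fun x => cexp (2 * π * I * ((expo σ x : ℝ) : ℂ) * (z : ℂ)))
              * (lead σ Φ z * (lead σ Φ z)⁻¹) *
            Matrix.diagonal (fun y => cexp (-(2 * π * I * ((expo σ y : ℝ) : ℂ) * (z : ℂ)))))
              * dft σ := by
            simp only [Matrix.mul_assoc]
        _ = 1 := by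
            rw [Matrix.mul_nonsing_inv _ hunit, Matrix.mul_one, hdiag, Matrix.mul_one,
              dftInv_mul_dft]
    rw [Matrix.inv_eq_right_inv hmul, Matrix.mul_apply]
    refine Finset.sum_congr rfl fun y _ => ?_
    rw [Matrix.diagonal_mul]
  -- each term tends to zero
  have hterm : ∀ y, Tendsto (fun z : ℍ => g z * ((lead σ Φ z)⁻¹ j y *
      (cexp (-(2 * π * I * ((expo σ y : ℝ) : ℂ) * (z : ℂ))) * dft σ y x))) atImInfty (𝓝 0) := by
    intro y
    -- `g z * exp (-2 π i r z) → 0`
    have h1 : Tendsto (fun z : ℍ => g z * cexp (-(2 * π * I * ((expo σ y : ℝ) : ℂ) * (z : ℂ))))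
        atImInfty (𝓝 0) := by
      have hb : (fun z : ℍ => cexp (-(2 * π * I * ((expo σ y : ℝ) : ℂ) * (z : ℂ))))
          =O[atImInfty] fun z : ℍ => Real.exp (2 * π * expo σ y * z.im) := by
        refine Asymptotics.IsBigO.of_bound 1 (Eventually.of_forall fun z => ?_)
        rw [norm_cexp_neg_two_pi_I_mul, one_mul, Real.norm_eq_abs, abs_of_pos (Real.exp_pos _)]
      have hprod := hg.mul hb
      have hlim : Tendsto (fun z : ℍ => Real.exp (-2 * π * z.im)
          * Real.exp (2 * π * expo σ y * z.im)) atImInfty (𝓝 0) := by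
        have hfun : (fun z : ℍ => Real.exp (-2 * π * z.im) * Real.exp (2 * π * expo σ y * z.im))
            = fun z : ℍ => Real.exp (-(2 * π * (1 - expo σ y)) * z.im) := by
          funext z
          rw [← Real.exp_add]
          congr 1
          ring
        rw [hfun]
        have hpos : 0 < 2 * π * (1 - expo σ y) := by
          have := expo_lt_one σ y
          have := Real.pi_pos
          nlinarith
        have : Tendsto (fun t : ℝ => Real.exp (-(2 * π * (1 - expo σ y)) * t)) atTop (𝓝 0) := by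
          refine Real.tendsto_exp_atBot.comp ?_
          exact Tendsto.const_mul_atTop_of_neg (by linarith) tendsto_id
        exact this.comp tendsto_comap
      exact hprod.trans_tendsto hlim
    have h2 := (h1.mul (hinv y)).mul_const (dft σ y x)
    simp only [zero_mul] at h2
    refine h2.congr fun z => ?_
    ring
  have hsum : Tendsto (fun z : ℍ => ∑ y, g z * ((lead σ Φ z)⁻¹ j y *
      (cexp (-(2 * π * I * ((expo σ y : ℝ) : ℂ) * (z : ℂ))) * dft σ y x))) atImInfty (𝓝 0) := by
    have := tendsto_finsetSum (Finset.univ : Finset X) fun y _ => hterm y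
    simpa using this
  rw [IsZeroAtImInfty, ZeroAtFilter]
  refine hsum.congr' ?_
  filter_upwards [hform] with z hz
  rw [hz, Finset.mul_sum]

include hol bdd tw in
/-- The exact behaviour of `det (Φ z)` at `i∞`. -/
theorem tendsto_det_mul_cexp :
    Tendsto (fun z : ℍ => (Φ z).det
        * cexp (-(2 * π * I * ((∑ x, expo σ x : ℝ) : ℂ) * (z : ℂ)))) atImInfty
      (𝓝 ((dft σ).det⁻¹ * (leadCoeff σ Φ).det)) := by
  have h := (tendsto_det_lead hol bdd tw).const_mul ((dft σ).det⁻¹)
  refine h.congr fun z => ?_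
  rw [det_eq (σ := σ) Φ z]
  have : cexp (2 * π * I * ((∑ x, expo σ x : ℝ) : ℂ) * (z : ℂ))
      * cexp (-(2 * π * I * ((∑ x, expo σ x : ℝ) : ℂ) * (z : ℂ))) = 1 := by
    rw [← Complex.exp_add, add_neg_cancel, Complex.exp_zero]
  linear_combination ((dft σ).det⁻¹ * (lead σ Φ z).det) * this.symm

end Square

/-- If `exp (2 π i a z)` has a nonzero limit at `i∞` then `a = 0`. -/
lemma eq_zero_of_tendsto_cexp {a : ℝ} {L : ℂ} (hL : L ≠ 0)
    (h : Tendsto (fun z : ℍ => cexp (2 * π * I * (a : ℂ) * (z : ℂ))) atImInfty (𝓝 L)) :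
    a = 0 := by
  have hn : Tendsto (fun z : ℍ => Real.exp (-(2 * π * a * z.im))) atImInfty (𝓝 ‖L‖) := by
    refine h.norm.congr fun z => ?_
    rw [norm_cexp_two_pi_I_mul]
  have hrange : Set.range UpperHalfPlane.im ∈ (atTop : Filter ℝ) := by
    refine Filter.mem_of_superset (Filter.Ioi_mem_atTop 0) fun t ht => ?_
    exact ⟨⟨t * I, by simpa using ht⟩, by simp [UpperHalfPlane.im]⟩
  have hn' : Tendsto (fun t : ℝ => Real.exp (-(2 * π * a * t))) atTop (𝓝 ‖L‖) :=
    (Filter.tendsto_comap'_iff (i := UpperHalfPlane.im) hrange).mp hn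
  have hLpos : 0 < ‖L‖ := norm_pos_iff.mpr hL
  rcases lt_trichotomy a 0 with ha | ha | ha
  · exfalso
    have : Tendsto (fun t : ℝ => Real.exp (-(2 * π * a * t))) atTop atTop := by
      refine Real.tendsto_exp_atTop.comp ?_
      have hpos : 0 < -(2 * π * a) := by
        have := Real.pi_pos
        nlinarith
      have := Tendsto.const_mul_atTop hpos (tendsto_id (α := ℝ) (x := atTop))
      refine this.congr fun t => ?_
      simp only [id]
      ring
    exact not_tendsto_nhds_of_tendsto_atTop this _ hn'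
  · exact ha
  · exfalso
    have : Tendsto (fun t : ℝ => Real.exp (-(2 * π * a * t))) atTop (𝓝 0) := by
      refine Real.tendsto_exp_atBot.comp ?_
      have hneg : -(2 * π * a) < 0 := by
        have := Real.pi_pos
        nlinarith
      have := Tendsto.const_mul_atTop_of_neg hneg (tendsto_id (α := ℝ) (x := atTop))
      refine this.congr fun t => ?_
      simp only [id]
      ring
    have := tendsto_nhds_unique hn' this
    linarith

end

end Fermat.Agent.S20.AtInftyCore
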