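import Fermat.Agent.S20.Wronskian
import Fermat.Agent.S20.AtInftyCore

/-! S20 package P5, application part: the abstract analysis at infinity (`AtInftyCore`) applied
to the fundamental matrix of a homogeneous basis.  Everything is in hypothesis form: the
invertibility of the matrix of leading coefficients is an explicit hypothesis `hL`. -/

set_option autoImplicit false
set_option linter.unusedSectionVars false

open Complex Filter Asymptotics
open UpperHalfPlane hiding I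
open ModularForm CongruenceSubgroup
open scoped MatrixGroups Manifold ModularForm Real Topology

namespace Fermat.Agent.S20

namespace AtInftyCore2

open Fermat.Agent.S20.CycleDFT Fermat.Agent.S20.AtInftyCore

local notation "Δ" => ModularForm.discriminant

/-! ### Generalities -/

lemma slash_T_apply (k : ℤ) (f : ℍ → ℂ) (z : ℍ) :
    (f ∣[k] ModularGroup.T) z = f ((1:ℝ) +ᵥ z) := by
  rw [SL_slash_apply, modular_T_smul]
  have h : denom (ModularGroup.T : SL(2, ℤ)) z = 1 := by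
    simp [denom, ModularGroup.coe_T]
  rw [h]
  simp

lemma slash_neg_one_apply (k : ℤ) (f : ℍ → ℂ) (z : ℍ) :
    (f ∣[k] (-1 : SL(2, ℤ))) z = (-1 : ℂ) ^ k * f z := by
  rw [SL_slash_apply]
  have h1 : (-1 : SL(2, ℤ)) • z = z := by
    simp
  rw [h1]
  have h2 : denom ((-1 : SL(2, ℤ)) : GL (Fin 2) ℝ) z = -1 := by
    simp [denom]
  rw [h2, mul_comm]
  congr 1
  rcases Int.even_or_odd k with hk | hk
  · rw [hk.neg.neg_one_zpow, hk.neg_one_zpow]
  · rw [hk.neg.neg_one_zpow, hk.neg_one_zpow]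

/-- `Δ(z) e^{-2πiz} → 1` at `i∞`. -/
lemma tendsto_discriminant_mul_cexp :
    Tendsto (fun z : ℍ => Δ z * cexp (-(2 * π * I * (z : ℂ)))) atImInfty (𝓝 1) := by
  refine tendsto_atImInfty_tprod_one_sub_eta_q_pow.congr fun z => ?_
  rw [discriminant_eq_q_prod, Function.Periodic.qParam, mul_right_comm, ← Complex.exp_add]
  simp

/-- `Δ = O(e^{-2π Im z})` at `i∞`. -/
lemma discriminant_isBigO_exp :
    (fun z : ℍ => Δ z) =O[atImInfty] fun z : ℍ => Real.exp (-2 * π * z.im) := by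
  have h1 : (fun z : ℍ => Δ z * cexp (-(2 * π * I * (z : ℂ)))) =O[atImInfty]
      (fun _ : ℍ => (1:ℝ)) :=
    tendsto_discriminant_mul_cexp.isBigO_one ℝ
  have h2 : (fun z : ℍ => cexp (2 * π * I * (z : ℂ))) =O[atImInfty]
      fun z : ℍ => Real.exp (-2 * π * z.im) := by
    refine Asymptotics.IsBigO.of_bound 1 (Eventually.of_forall fun z => ?_)
    rw [Complex.norm_exp, one_mul, Real.norm_eq_abs, abs_of_pos (Real.exp_pos _)]
    apply le_of_eq
    congr 1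
    simp [mul_re, mul_im]
  refine (h1.mul h2).congr (fun z => ?_) (fun z => one_mul _)
  rw [mul_assoc, ← Complex.exp_add, neg_add_cancel, Complex.exp_zero, mul_one]

/-! ### The fundamental matrix -/

variable {Γ : Subgroup SL(2, ℤ)} [Fintype (SL(2, ℤ) ⧸ Γ)] [DecidableEq (SL(2, ℤ) ⧸ Γ)]
  {κ : SL(2, ℤ) ⧸ Γ → ℤ} {φ : SL(2, ℤ) ⧸ Γ → ℍ → ℂ}

/-- The permutation of the cosets induced by `T⁻¹`. -/
noncomputable def permT (Γ : Subgroup SL(2, ℤ)) : Equiv.Perm (SL(2, ℤ) ⧸ Γ) :=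
  MulAction.toPerm (ModularGroup.T⁻¹ : SL(2, ℤ))

lemma permT_apply (x : SL(2, ℤ) ⧸ Γ) : permT Γ x = (ModularGroup.T⁻¹ : SL(2, ℤ)) • x := rfl

lemma numCycles_permT : numCycles (permT Γ) = numCusps Γ :=
  numCycles_toPerm_inv ModularGroup.T

lemma fundMatrix_apply (z : ℍ) (x j : SL(2, ℤ) ⧸ Γ) :
    fundMatrix Γ κ φ z x j = comp Γ (κ j) (φ j) x z := rfl

/-- `tw`: translating by `1` permutes the rows by `T⁻¹`. -/
lemma fundMatrix_vadd (hb : IsHomBasis Γ κ φ) (z : ℍ) (x j : SL(2, ℤ) ⧸ Γ) :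
    fundMatrix Γ κ φ ((1:ℝ) +ᵥ z) x j = fundMatrix Γ κ φ z (permT Γ x) j := by
  rw [fundMatrix_apply, fundMatrix_apply,
    ← slash_T_apply (κ j) (comp Γ (κ j) (φ j) x) z, comp_slash (hb.mem j).2.1]
  rfl

/-- The row of `(-1) • x` is `(-1) ^ κ j` times the row of `x`. -/
lemma fundMatrix_neg_smul (hb : IsHomBasis Γ κ φ) (z : ℍ) (x j : SL(2, ℤ) ⧸ Γ) :
    fundMatrix Γ κ φ z ((-1 : SL(2, ℤ)) • x) j = (-1 : ℂ) ^ (κ j) * fundMatrix Γ κ φ z x j := by
  rw [fundMatrix_apply, fundMatrix_apply,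
    ← slash_neg_one_apply (κ j) (comp Γ (κ j) (φ j) x) z, comp_slash (hb.mem j).2.1]
  simp

/-- `hol`. -/
lemma fundMatrix_mdiff (hb : IsHomBasis Γ κ φ) (x j : SL(2, ℤ) ⧸ Γ) :
    MDiff (fun z => fundMatrix Γ κ φ z x j) :=
  mdiff_comp (hb.mem j).1 x

/-- `bdd`. -/
lemma fundMatrix_bdd (hb : IsHomBasis Γ κ φ) (x j : SL(2, ℤ) ⧸ Γ) :
    IsBoundedAtImInfty (fun z => fundMatrix Γ κ φ z x j) :=
  isBoundedAtImInfty_comp (hb.mem j) x

/-- Hypothesis form of `isZeroAtImInfty_discriminant_mul_inv`. -/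
theorem isZeroAtImInfty_discriminant_mul_inv_of_lead (hb : IsHomBasis Γ κ φ)
    (hL : (leadCoeff (permT Γ) (fundMatrix Γ κ φ)).det ≠ 0) (j x : SL(2, ℤ) ⧸ Γ) :
    IsZeroAtImInfty (fun z : ℍ => Δ z * (fundMatrix Γ κ φ z)⁻¹ j x) :=
  isZeroAtImInfty_mul_inv (fun x j => fundMatrix_mdiff hb x j) (fun x j => fundMatrix_bdd hb x j)
    (fun z x j => fundMatrix_vadd hb z x j) hL discriminant_isBigO_exp j x

/-- Hypothesis form of `sum_weights` (with `0 ≤ ∑ κ` as an explicit hypothesis). -/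
theorem sum_weights_of_lead_of_nonneg (hb : IsHomBasis Γ κ φ) (hd : DetFormula Γ κ φ)
    (hnn : 0 ≤ ∑ j, κ j)
    (hL : (leadCoeff (permT Γ) (fundMatrix Γ κ φ)).det ≠ 0) :
    ∑ j, κ j = 6 * ((Fintype.card (SL(2, ℤ) ⧸ Γ) : ℤ) - numCusps Γ) := by
  obtain ⟨c, hc, hdet⟩ := hd
  have hol : ∀ x j, MDiff (fun z => fundMatrix Γ κ φ z x j) := fun x j => fundMatrix_mdiff hb x j
  have bdd : ∀ x j, IsBoundedAtImInfty (fun z => fundMatrix Γ κ φ z x j) :=
    fun x j => fundMatrix_bdd hb x j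
  have tw : ∀ z x j, fundMatrix Γ κ φ ((1:ℝ) +ᵥ z) x j = fundMatrix Γ κ φ z (permT Γ x) j :=
    fun z x j => fundMatrix_vadd hb z x j
  have h1 := tendsto_det_mul_cexp hol bdd tw
  set B : ℝ := ∑ x, expo (permT Γ) x with hB
  set K : ℕ := (∑ j, κ j).toNat with hK
  set L1 := (dft (permT Γ)).det⁻¹ * (leadCoeff (permT Γ) (fundMatrix Γ κ φ)).det with hL1
  have hL1ne : L1 ≠ 0 := mul_ne_zero (inv_ne_zero (det_dft_ne_zero (permT Γ))) hL
  have h2 := h1.pow 12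
  have h3 : Tendsto (fun z : ℍ => c * (Δ z * cexp (-(2 * π * I * (z : ℂ)))) ^ K) atImInfty
      (𝓝 (c * 1 ^ K)) :=
    (tendsto_discriminant_mul_cexp.pow K).const_mul c
  have h4 : Tendsto (fun z : ℍ => cexp (2 * π * I * ((12 * B - K : ℝ) : ℂ) * (z : ℂ)))
      atImInfty (𝓝 (c * 1 ^ K / L1 ^ 12)) := by
    refine (h3.div h2 (pow_ne_zero _ hL1ne)).congr fun z => ?_
    have hne : c * Δ z ^ K ≠ 0 := mul_ne_zero hc (pow_ne_zero _ (discriminant_ne_zero z))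
    simp only [Pi.div_apply]
    rw [mul_pow, mul_pow, hdet z, ← Complex.exp_nat_mul, ← Complex.exp_nat_mul, ← mul_assoc,
      mul_div_mul_left _ _ hne, ← Complex.exp_sub]
    congr 1
    push_cast
    ring
  have h5 : 12 * B - K = 0 :=
    eq_zero_of_tendsto_cexp (div_ne_zero (mul_ne_zero hc (pow_ne_zero _ one_ne_zero))
      (pow_ne_zero _ hL1ne)) h4
  have h6 : B = ((Fintype.card (SL(2, ℤ) ⧸ Γ) : ℝ) - (numCusps Γ : ℝ)) / 2 := by
    rw [hB, sum_expo, numCycles_permT]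
  have hK' : (K : ℤ) = ∑ j, κ j := Int.toNat_of_nonneg hnn
  rw [← hK']
  have h7 : ((K : ℤ) : ℝ) = ((6 * ((Fintype.card (SL(2, ℤ) ⧸ Γ) : ℤ) - numCusps Γ) : ℤ) : ℝ) := by
    push_cast
    linarith
  exact_mod_cast h7

/-- Hypothesis form of `sum_weights`. -/
theorem sum_weights_of_lead [Γ.FiniteIndex] (hb : IsHomBasis Γ κ φ) (hd : DetFormula Γ κ φ)
    (hL : (leadCoeff (permT Γ) (fundMatrix Γ κ φ)).det ≠ 0) :
    ∑ j, κ j = 6 * ((Fintype.card (SL(2, ℤ) ⧸ Γ) : ℤ) - numCusps Γ) :=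
  sum_weights_of_lead_of_nonneg hb hd (Finset.sum_nonneg fun j _ => weight_nonneg hb j) hL

end AtInftyCore2

end Fermat.Agent.S20
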