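import Fermat.Agent.S20.Defs

/-! S20 package P1a: level-one facts in the function-space model
(bridge to Mathlib's `ModularForm 𝒮ℒ k` / `CuspForm 𝒮ℒ k`). -/

set_option autoImplicit false

open UpperHalfPlane ModularForm CongruenceSubgroup
open scoped MatrixGroups Manifold ModularForm

namespace Fermat.Agent.S20

local notation "Δ" => ModularForm.discriminant

/-- the coercion of a level-one modular form lies in `MFun ⊤ k` -/
private lemma coe_mem_MFun_top {k : ℤ} (F : ModularForm 𝒮ℒ k) : (⇑F : ℍ → ℂ) ∈ MFun ⊤ k := by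
  rw [mem_MFun_top_iff]
  refine ⟨F.holo', fun γ => ?_, ?_⟩
  · have := SlashInvariantFormClass.slash_action_eq F (γ : GL (Fin 2) ℝ) ⟨γ, rfl⟩
    simpa [SL_slash] using this
  · exact ModularFormClass.bdd_at_infty F

/-- the coercion of a level-one cusp form lies in `SFun ⊤ k` -/
private lemma coe_mem_SFun_top {k : ℤ} (F : CuspForm 𝒮ℒ k) : (⇑F : ℍ → ℂ) ∈ SFun ⊤ k := by
  rw [mem_SFun_top_iff]
  refine ⟨F.holo', fun γ => ?_, ?_⟩
  · have := SlashInvariantFormClass.slash_action_eq F (γ : GL (Fin 2) ℝ) ⟨γ, rfl⟩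
    simpa [SL_slash] using this
  · exact CuspFormClass.zero_at_infty F

/-- an element of `MFun ⊤ k` as a level-one modular form -/
private noncomputable def toMF {k : ℤ} (f : ℍ → ℂ) (hf : f ∈ MFun ⊤ k) : ModularForm 𝒮ℒ k where
  toFun := f
  slash_action_eq' A hA := by
    obtain ⟨A, rfl⟩ := hA
    exact (mem_MFun_top_iff.mp hf).2.1 A
  holo' := (mem_MFun_top_iff.mp hf).1
  bdd_at_cusps' hc := by
    rw [Subgroup.IsArithmetic.isCusp_iff_isCusp_SL2Z] at hc
    rw [OnePoint.isBoundedAt_iff_forall_SL2Z hc]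
    intro γ _
    rw [(mem_MFun_top_iff.mp hf).2.1 γ]
    exact (mem_MFun_top_iff.mp hf).2.2

/-- an element of `SFun ⊤ k` as a level-one cusp form -/
private noncomputable def toCF {k : ℤ} (f : ℍ → ℂ) (hf : f ∈ SFun ⊤ k) : CuspForm 𝒮ℒ k where
  toFun := f
  slash_action_eq' A hA := by
    obtain ⟨A, rfl⟩ := hA
    exact (mem_SFun_top_iff.mp hf).2.1 A
  holo' := (mem_SFun_top_iff.mp hf).1
  zero_at_cusps' hc := by
    rw [Subgroup.IsArithmetic.isCusp_iff_isCusp_SL2Z] at hc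
    rw [OnePoint.isZeroAt_iff_forall_SL2Z hc]
    intro γ _
    rw [(mem_SFun_top_iff.mp hf).2.1 γ]
    exact (mem_SFun_top_iff.mp hf).2.2

private lemma coe_toMF {k : ℤ} (f : ℍ → ℂ) (hf : f ∈ MFun ⊤ k) : (⇑(toMF f hf) : ℍ → ℂ) = f := rfl

private lemma coe_toCF {k : ℤ} (f : ℍ → ℂ) (hf : f ∈ SFun ⊤ k) : (⇑(toCF f hf) : ℍ → ℂ) = f := rfl

/-- the linear equivalence between the function-space model and Mathlib's level-one forms -/
private noncomputable def equivMF (k : ℤ) : MFun ⊤ k ≃ₗ[ℂ] ModularForm 𝒮ℒ k where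
  toFun f := toMF f.1 f.2
  map_add' f g := by ext z; rfl
  map_smul' c f := by ext z; rfl
  invFun F := ⟨⇑F, coe_mem_MFun_top F⟩
  left_inv f := by ext z; rfl
  right_inv F := by ext z; rfl

theorem E4_mem : (⇑ModularForm.E₄ : ℍ → ℂ) ∈ MFun ⊤ 4 := coe_mem_MFun_top ModularForm.E₄

theorem E6_mem : (⇑ModularForm.E₆ : ℍ → ℂ) ∈ MFun ⊤ 6 := coe_mem_MFun_top ModularForm.E₆

theorem discriminant_mem : (Δ : ℍ → ℂ) ∈ SFun ⊤ 12 := coe_mem_SFun_top CuspForm.discriminant

theorem one_mem_MFun_zero (Γ : Subgroup SL(2, ℤ)) : (1 : ℍ → ℂ) ∈ MFun Γ 0 := by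
  refine ⟨mdifferentiable_const, fun γ _ => ?_, fun γ => ?_⟩
  · exact ModularForm.is_invariant_one γ
  · rw [ModularForm.is_invariant_one γ]
    exact Filter.const_boundedAtFilter _ 1

private lemma tendsto_coeff_zero {k : ℤ} (F : ModularForm 𝒮ℒ k) :
    Filter.Tendsto (⇑F : ℍ → ℂ) atImInfty (nhds ((qExpansion 1 F).coeff 0)) := by
  have h1 : (cuspFunction 1 F ∘ fun τ : ℍ => Function.Periodic.qParam 1 τ : ℍ → ℂ) = F := by
    funext τ
    simpa using SlashInvariantFormClass.eq_cuspFunction F τ one_mem_strictPeriods_SL one_ne_zero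
  have h2 := (ModularFormClass.analyticAt_cuspFunction_zero F one_pos
    one_mem_strictPeriods_SL).continuousAt.tendsto.comp (qParam_tendsto_atImInfty one_pos)
  rw [h1] at h2
  have h3 : (qExpansion 1 F).coeff 0 = cuspFunction 1 F 0 := by
    simp [qExpansion_coeff]
  rw [h3]
  exact h2

/-- `E₄ → 1` at `i∞`. -/
theorem tendsto_E4 : Filter.Tendsto (⇑ModularForm.E₄ : ℍ → ℂ) atImInfty (nhds 1) := by
  have := tendsto_coeff_zero ModularForm.E₄
  rwa [EisensteinSeries.E_qExpansion_coeff_zero _ ⟨2, rfl⟩] at this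

/-- `E₆ → 1` at `i∞`. -/
theorem tendsto_E6 : Filter.Tendsto (⇑ModularForm.E₆ : ℍ → ℂ) atImInfty (nhds 1) := by
  have := tendsto_coeff_zero ModularForm.E₆
  rwa [EisensteinSeries.E_qExpansion_coeff_zero _ ⟨3, rfl⟩] at this

/-- `E₄` and `E₆` have no common zero (because `Δ = (E₄³ - E₆²)/1728 ≠ 0`). -/
theorem E4_ne_zero_or_E6_ne_zero (z : ℍ) : ModularForm.E₄ z ≠ 0 ∨ ModularForm.E₆ z ≠ 0 := by
  by_contra h
  push Not at h
  have h1 := ModularForm.discriminant_eq_E₄_cube_sub_E₆_sq z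
  rw [h.1, h.2] at h1
  exact ModularForm.discriminant_ne_zero z (by simpa using h1)

private lemma eq_bot_of_forall_MF {k : ℤ} (h : ∀ F : ModularForm 𝒮ℒ k, (⇑F : ℍ → ℂ) = 0) :
    MFun ⊤ k = ⊥ := by
  rw [eq_bot_iff]
  intro f hf
  rw [Submodule.mem_bot]
  exact h (toMF f hf)

theorem MFun_top_eq_bot_of_neg {k : ℤ} (hk : k < 0) : MFun ⊤ k = ⊥ :=
  eq_bot_of_forall_MF fun F => ModularFormClass.levelOne_neg_weight_eq_zero hk F

theorem MFun_top_eq_bot_of_odd {k : ℤ} (hk : Odd k) : MFun ⊤ k = ⊥ :=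
  eq_bot_of_forall_MF fun F => by
    rw [ModularForm.levelOne_odd_weight_eq_zero hk F]; rfl

theorem MFun_top_two : MFun ⊤ 2 = ⊥ :=
  eq_bot_of_forall_MF fun F => by
    rw [rank_zero_iff_forall_zero.mp ModularForm.levelOne_weight_two_rank_zero F]; rfl

/-- weight-zero level-one forms are constant -/
theorem exists_const_of_mem_MFun_top_zero {f : ℍ → ℂ} (hf : f ∈ MFun ⊤ 0) :
    ∃ c : ℂ, f = fun _ => c := by
  obtain ⟨c, hc⟩ := ModularFormClass.levelOne_weight_zero_const (toMF f hf)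
  exact ⟨c, hc⟩

instance finiteDimensional_MFun_top (k : ℤ) : FiniteDimensional ℂ (MFun ⊤ k) :=
  LinearEquiv.finiteDimensional (equivMF k).symm

/-- level-one dimension formula transported to the function-space model -/
theorem finrank_MFun_top (k : ℕ) (hk : Even k) :
    Module.finrank ℂ (MFun ⊤ (k : ℤ)) = if k % 12 = 2 then k / 12 else k / 12 + 1 := by
  rw [(equivMF (k : ℤ)).finrank_eq]
  have h := ModularForm.dimension_level_one k hk
  rw [← Module.finrank_eq_rank] at h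
  have h2 : (k ≡ 2 [MOD 12]) ↔ k % 12 = 2 := by
    simp [Nat.ModEq]
  split_ifs at h ⊢ with h3 h4 h4
  · exact_mod_cast h
  · exact absurd (h2.mp h3) h4
  · exact absurd (h2.mpr h4) h3
  · exact_mod_cast h

/-- level-one cusp forms are divisible by `Δ` -/
theorem exists_eq_discriminant_mul {k : ℤ} {f : ℍ → ℂ} (hf : f ∈ SFun ⊤ k) :
    ∃ a ∈ MFun ⊤ (k - 12), f = Δ * a := by
  refine ⟨⇑(CuspForm.discriminantEquiv (toCF f hf)), coe_mem_MFun_top _, ?_⟩
  exact (ModularForm.discriminant_mul_discriminantEquiv (toCF f hf)).symm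

/-- holomorphic functions on `ℍ` form a domain -/
theorem eq_zero_or_eq_zero_of_mul_eq_zero {f g : ℍ → ℂ} (hf : MDiff f) (hg : MDiff g)
    (h : f * g = 0) : f = 0 ∨ g = 0 := by
  have hf' := (UpperHalfPlane.mdifferentiable_iff.mp hf).analyticOnNhd isOpen_upperHalfPlaneSet
  have hg' := (UpperHalfPlane.mdifferentiable_iff.mp hg).analyticOnNhd isOpen_upperHalfPlaneSet
  have hU : IsPreconnected {z : ℂ | 0 < z.im} := (convex_halfSpace_im_gt 0).isPreconnected
  rcases hf'.eq_zero_or_eq_zero_of_mul_eq_zero hg' (fun z _ => by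
      have := congrFun h (ofComplex z); simpa using this) hU with h1 | h1
  · left; funext z; have := h1 z z.im_pos; simpa using this
  · right; funext z; have := h1 z z.im_pos; simpa using this

private lemma pow_mem_MFun_top {k : ℤ} {f : ℍ → ℂ} (hf : f ∈ MFun ⊤ k) (n : ℕ) :
    f ^ n ∈ MFun ⊤ (n * k) := by
  induction n with
  | zero => simpa using one_mem_MFun_zero ⊤
  | succ n ih =>
    have h : ((n + 1 : ℕ) : ℤ) * k = n * k + k := by push_cast; ring
    rw [pow_succ, h]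
    exact mul_mem_MFun ih hf

/-- For every even `w ≥ 4` (and `w = 0`) there is a level-one form of weight `w` tending to `1`
at `i∞`. -/
theorem exists_mem_MFun_top_tendsto_one {w : ℤ} (hw : Even w) (hw4 : w = 0 ∨ 4 ≤ w) :
    ∃ h ∈ MFun ⊤ w, Filter.Tendsto h atImInfty (nhds 1) := by
  have key : ∀ a b : ℕ, ∃ h ∈ MFun ⊤ ((a : ℤ) * 4 + (b : ℤ) * 6),
      Filter.Tendsto h atImInfty (nhds 1) := by
    intro a b
    refine ⟨⇑ModularForm.E₄ ^ a * ⇑ModularForm.E₆ ^ b,
      mul_mem_MFun (pow_mem_MFun_top E4_mem a) (pow_mem_MFun_top E6_mem b), ?_⟩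
    have := (tendsto_E4.pow a).mul (tendsto_E6.pow b)
    simp only [one_pow, mul_one] at this
    exact this
  obtain ⟨a, b, hab⟩ : ∃ a b : ℕ, w = (a : ℤ) * 4 + (b : ℤ) * 6 := by
    obtain ⟨m, hm⟩ := hw
    rcases hw4 with h0 | h4
    · exact ⟨0, 0, by simpa using h0⟩
    · rcases Int.emod_two_eq_zero_or_one m with h | h
      · refine ⟨(m / 2).toNat, 0, ?_⟩
        have : 0 ≤ m / 2 := by omega
        rw [Int.toNat_of_nonneg this]; omega
      · refine ⟨((m - 3) / 2).toNat, 1, ?_⟩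
        have : 0 ≤ (m - 3) / 2 := by omega
        rw [Int.toNat_of_nonneg this]; omega
  rw [hab]
  exact key a b

end Fermat.Agent.S20
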