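import Fermat.Agent.S20.AtInftyCore
import Fermat.Agent.S20.LevelOne

/-! S20 package P5, part (b): the leading coefficient matrix at `i∞` of the fundamental matrix
of a homogeneous basis is invertible.

If `lam` is in the kernel of the leading coefficient matrix, every row of `Φ z *ᵥ lam` decays
like `exp (-2 π Im z)`.  This property is stable under the sign change `lam j ↦ (-1) ^ κ j * lam j`
(action of `-1` on the cosets), so we may assume that all weights `κ j` with `lam j ≠ 0` have the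
same parity.  Then `G = ∑ j, lam j • A j * φ j` (with `A j` of level one tending to `1`) has all
its components decaying, so `G / Δ` is again a modular form; expressing it in the basis and
comparing coefficients yields `lam j • A j = Δ * b j`, whence `lam j = 0` by letting `z → i∞`. -/

set_option autoImplicit false
set_option linter.unusedSectionVars false

open Complex Filter Function Asymptotics
open UpperHalfPlane hiding I
open ModularForm
open scoped Real Topology Manifold MatrixGroups ModularForm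

namespace Fermat.Agent.S20.AtInftyKer

open Fermat.Agent.S20

local notation "Δ" => ModularForm.discriminant

/-- Exponential decay `O(exp (-2 π Im z))` at `i∞`. -/
def Dec (f : ℍ → ℂ) : Prop := f =O[atImInfty] fun z : ℍ => Real.exp (-2 * π * z.im)

lemma Dec.add {f g : ℍ → ℂ} (hf : Dec f) (hg : Dec g) : Dec (fun z => f z + g z) :=
  IsBigO.add hf hg

lemma dec_zero : Dec (fun _ => 0) := isBigO_zero _ _

lemma Dec.const_mul {f : ℍ → ℂ} (hf : Dec f) (c : ℂ) : Dec (fun z => c * f z) :=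
  IsBigO.const_mul_left hf c

lemma dec_sum {ι : Type*} (s : Finset ι) {F : ι → ℍ → ℂ} (h : ∀ i ∈ s, Dec (F i)) :
    Dec (fun z => ∑ i ∈ s, F i z) :=
  IsBigO.fun_sum h

lemma Dec.mul_bdd {f g : ℍ → ℂ} (hf : Dec f) (hg : IsBoundedAtImInfty g) :
    Dec (fun z => f z * g z) := by
  have h := IsBigO.mul hf hg
  simpa [Dec] using h

lemma denom_T (z : ℍ) : denom ((ModularGroup.T : SL(2, ℤ)) : GL (Fin 2) ℝ) z = 1 := by
  rw [ModularGroup.denom_apply]
  simp [ModularGroup.coe_T]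

/-- Level one forms are `1`-periodic. -/
lemma vadd_one_of_mem_top {k : ℤ} {f : ℍ → ℂ} (hf : f ∈ MFun ⊤ k) (z : ℍ) :
    f ((1:ℝ) +ᵥ z) = f z := by
  have h := congrFun (hf.2.1 ModularGroup.T (Subgroup.mem_top _)) z
  rw [SL_slash_apply, modular_T_smul, denom_T] at h
  simpa using h

lemma dec_sub_one {k : ℤ} {A : ℍ → ℂ} (hA : A ∈ MFun ⊤ k) (h1 : Tendsto A atImInfty (𝓝 1)) :
    Dec (fun z => A z - 1) := by
  have hper : ∀ z : ℍ, (fun z => A z - 1) ((1:ℝ) +ᵥ z) = (fun z => A z - 1) z := by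
    intro z
    simp only
    rw [vadd_one_of_mem_top hA]
  have hol : MDiff (fun z : ℍ => A z - 1) := hA.1.sub mdifferentiable_const
  have hz : IsZeroAtImInfty (fun z : ℍ => A z - 1) := by
    have := h1.sub_const 1
    simpa [IsZeroAtImInfty, ZeroAtFilter] using this
  have := hz.exp_decay_atImInfty one_pos (AtInftyCore.periodic_comp_ofComplex_of_vadd hper) hol
    hz.isBoundedAtImInfty
  simpa [Dec] using this

variable {Γ : Subgroup SL(2, ℤ)} [Fintype (SL(2, ℤ) ⧸ Γ)] [DecidableEq (SL(2, ℤ) ⧸ Γ)]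
  {κ : SL(2, ℤ) ⧸ Γ → ℤ} {φ : SL(2, ℤ) ⧸ Γ → ℍ → ℂ}

lemma hol_fundMatrix (hb : IsHomBasis Γ κ φ) (x j : SL(2, ℤ) ⧸ Γ) :
    MDiff (fun z => fundMatrix Γ κ φ z x j) := mdiff_comp (hb.mem j).1 x

lemma bdd_fundMatrix (hb : IsHomBasis Γ κ φ) (x j : SL(2, ℤ) ⧸ Γ) :
    IsBoundedAtImInfty (fun z => fundMatrix Γ κ φ z x j) := isBoundedAtImInfty_comp (hb.mem j) x

/-- Translation by `1` permutes the rows of the fundamental matrix by `T⁻¹`. -/
lemma fundMatrix_vadd_one (hb : IsHomBasis Γ κ φ) (z : ℍ) (x j : SL(2, ℤ) ⧸ Γ) :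
    fundMatrix Γ κ φ ((1:ℝ) +ᵥ z) x j
      = fundMatrix Γ κ φ z (MulAction.toPerm (ModularGroup.T⁻¹ : SL(2, ℤ)) x) j := by
  have h := congrFun (comp_slash (hb.mem j).2.1 ModularGroup.T x) z
  rw [SL_slash_apply, modular_T_smul, denom_T] at h
  simpa [fundMatrix] using h

/-- The action of `-1` on the rows of the fundamental matrix. -/
lemma fundMatrix_neg_one (hb : IsHomBasis Γ κ φ) (z : ℍ) (x j : SL(2, ℤ) ⧸ Γ) :
    fundMatrix Γ κ φ z ((-1 : SL(2, ℤ))⁻¹ • x) j = (-1 : ℂ) ^ (κ j) * fundMatrix Γ κ φ z x j := by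
  have h := congrFun (comp_slash (hb.mem j).2.1 (-1) x) z
  rw [SL_slash_apply] at h
  have hsm : ((-1 : SL(2, ℤ)) • z) = z := by
    ext
    simp
  have hden : denom ((-1 : SL(2, ℤ)) : GL (Fin 2) ℝ) z = -1 := by
    simp [denom]
  rw [hsm, hden] at h
  simp only [fundMatrix, Matrix.of_apply]
  rw [← h, mul_comm]
  congr 1
  rw [zpow_neg, ← inv_zpow, inv_neg_one]

/-- All rows of `Φ z *ᵥ lam` decay exponentially at `i∞`. -/
def RowDec (Γ : Subgroup SL(2, ℤ)) [Fintype (SL(2, ℤ) ⧸ Γ)] (κ : SL(2, ℤ) ⧸ Γ → ℤ)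
    (φ : SL(2, ℤ) ⧸ Γ → ℍ → ℂ) (lam : SL(2, ℤ) ⧸ Γ → ℂ) : Prop :=
  ∀ x, Dec (fun z => ∑ j, fundMatrix Γ κ φ z x j * lam j)

lemma rowDec_of_ker (hb : IsHomBasis Γ κ φ) {σ : Equiv.Perm (SL(2, ℤ) ⧸ Γ)}
    (tw : ∀ z x j, fundMatrix Γ κ φ ((1:ℝ) +ᵥ z) x j = fundMatrix Γ κ φ z (σ x) j)
    {lam : SL(2, ℤ) ⧸ Γ → ℂ}
    (h0 : (AtInftyCore.leadCoeff σ (fundMatrix Γ κ φ)).mulVec lam = 0) : RowDec Γ κ φ lam := by
  intro x
  exact AtInftyCore.isBigO_of_leadCoeff_mulVec_eq_zero (hol_fundMatrix hb) (bdd_fundMatrix hb) tw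
    (c := fun j _ => lam j) (lam := lam) (fun j => mdifferentiable_const) (fun j z => rfl)
    (fun j => tendsto_const_nhds) h0 x

lemma RowDec.sign (hb : IsHomBasis Γ κ φ) {lam : SL(2, ℤ) ⧸ Γ → ℂ} (h : RowDec Γ κ φ lam) :
    RowDec Γ κ φ (fun j => (-1 : ℂ) ^ (κ j) * lam j) := by
  intro x
  have := h ((-1 : SL(2, ℤ))⁻¹ • x)
  have e : (fun z => ∑ j, fundMatrix Γ κ φ z x j * ((-1 : ℂ) ^ (κ j) * lam j))
      = fun z => ∑ j, fundMatrix Γ κ φ z ((-1 : SL(2, ℤ))⁻¹ • x) j * lam j := by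
    funext z
    refine Finset.sum_congr rfl fun j _ => ?_
    rw [fundMatrix_neg_one hb]
    ring
  rw [e]
  exact this

lemma RowDec.even (hb : IsHomBasis Γ κ φ) {lam : SL(2, ℤ) ⧸ Γ → ℂ} (h : RowDec Γ κ φ lam) :
    RowDec Γ κ φ (fun j => if Even (κ j) then lam j else 0) := by
  intro x
  have e : (fun z => ∑ j, fundMatrix Γ κ φ z x j * (if Even (κ j) then lam j else 0))
      = fun z => (1 / 2 : ℂ) * ((∑ j, fundMatrix Γ κ φ z x j * lam j)
          + ∑ j, fundMatrix Γ κ φ z x j * ((-1 : ℂ) ^ (κ j) * lam j)) := by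
    funext z
    rw [← Finset.sum_add_distrib, Finset.mul_sum]
    refine Finset.sum_congr rfl fun j _ => ?_
    by_cases hj : Even (κ j)
    · rw [if_pos hj, hj.neg_one_zpow]
      ring
    · rw [if_neg hj, (Int.not_even_iff_odd.mp hj).neg_one_zpow]
      ring
  rw [e]
  exact ((h x).add (h.sign hb x)).const_mul _

lemma RowDec.odd (hb : IsHomBasis Γ κ φ) {lam : SL(2, ℤ) ⧸ Γ → ℂ} (h : RowDec Γ κ φ lam) :
    RowDec Γ κ φ (fun j => if Even (κ j) then 0 else lam j) := by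
  intro x
  have e : (fun z => ∑ j, fundMatrix Γ κ φ z x j * (if Even (κ j) then 0 else lam j))
      = fun z => (1 / 2 : ℂ) * ((∑ j, fundMatrix Γ κ φ z x j * lam j)
          + (-1 : ℂ) * ∑ j, fundMatrix Γ κ φ z x j * ((-1 : ℂ) ^ (κ j) * lam j)) := by
    funext z
    rw [Finset.mul_sum, ← Finset.sum_add_distrib, Finset.mul_sum]
    refine Finset.sum_congr rfl fun j _ => ?_
    by_cases hj : Even (κ j)
    · rw [if_pos hj, hj.neg_one_zpow]
      ring
    · rw [if_neg hj, (Int.not_even_iff_odd.mp hj).neg_one_zpow]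
      ring
  rw [e]
  exact ((h x).add ((h.sign hb x).const_mul _)).const_mul _

/-- **Division by `Δ`.** A form all of whose components decay like `exp (-2 π Im z)` is
divisible by `Δ`. -/
theorem exists_eq_discriminant_mul_of_dec {k : ℤ} {G : ℍ → ℂ} (hG : G ∈ MFun Γ k)
    (hdec : ∀ x, Dec (comp Γ k G x)) : ∃ g ∈ MFun Γ (k - 12), G = Δ * g := by
  set g : ℍ → ℂ := fun z => G z * (Δ z)⁻¹ with hg
  have hΔne : ∀ z : ℍ, Δ z ≠ 0 := discriminant_ne_zero
  have hGeq : G = Δ * g := by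
    funext z
    simp only [Pi.mul_apply, hg]
    field_simp [hΔne z]
  have hΔslash : ∀ γ : SL(2, ℤ), (Δ : ℍ → ℂ) ∣[(12 : ℤ)] γ = Δ := fun γ =>
    discriminant_mem.2.1 γ (Subgroup.mem_top γ)
  have hslash : ∀ γ : SL(2, ℤ), (g ∣[k - 12] γ) = fun z => (G ∣[k] γ) z * (Δ z)⁻¹ := by
    intro γ
    have h1 : (Δ * g) ∣[(12 : ℤ) + (k - 12)] γ = (Δ ∣[(12 : ℤ)] γ) * (g ∣[k - 12] γ) :=
      mul_slash_SL2 12 (k - 12) γ Δ g
    have h2 : (12 : ℤ) + (k - 12) = k := by ring
    rw [h2, ← hGeq, hΔslash γ] at h1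
    funext z
    have h3 := congrFun h1 z
    simp only [Pi.mul_apply] at h3
    rw [h3]
    field_simp [hΔne z]
  have hgdiff : MDiff g := by
    rw [UpperHalfPlane.mdifferentiable_iff]
    have hG' := UpperHalfPlane.mdifferentiable_iff.mp hG.1
    have hΔ' := UpperHalfPlane.mdifferentiable_iff.mp (discriminant_mem.1)
    have e : (g ∘ ofComplex) = fun w => (G ∘ ofComplex) w * ((Δ ∘ ofComplex) w)⁻¹ := by
      funext w
      simp [hg]
    rw [e]
    exact DifferentiableOn.mul hG' (DifferentiableOn.inv hΔ' fun w _ => hΔne _)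
  refine ⟨g, ⟨hgdiff, fun γ hγ => ?_, fun γ => ?_⟩, hGeq⟩
  · rw [hslash γ, hG.2.1 γ hγ]
  · rw [hslash γ]
    have h1 := hdec ((γ⁻¹ : SL(2, ℤ)) : SL(2, ℤ) ⧸ Γ)
    rw [comp_mk hG.2.1, inv_inv] at h1
    have h2 : (G ∣[k] γ) =O[atImInfty] (Δ : ℍ → ℂ) := h1.trans exp_isBigO_discriminant
    obtain ⟨C, hC⟩ := h2.bound
    rw [IsBoundedAtImInfty, BoundedAtFilter]
    refine IsBigO.of_bound C ?_
    filter_upwards [hC] with z hz
    rw [norm_mul, norm_inv, Pi.one_apply, norm_one, mul_one]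
    exact (mul_inv_le_iff₀ (norm_pos_iff.mpr (hΔne z))).mpr hz

/-- **Key lemma.** A vector `mu` all of whose nonzero entries sit at weights of one parity and
such that all rows of `Φ z *ᵥ mu` decay must vanish. -/
theorem eq_zero_of_rowDec (hb : IsHomBasis Γ κ φ) {mu : SL(2, ℤ) ⧸ Γ → ℂ} (e : ℤ)
    (hpar : ∀ j, mu j ≠ 0 → Even (e - κ j)) (hmu : RowDec Γ κ φ mu) : mu = 0 := by
  classical
  set N : ℤ := 2 + |e| + ∑ i, |κ i| with hN
  set k : ℤ := e + 2 * N with hk
  have hk4 : ∀ j, 4 ≤ k - κ j := by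
    intro j
    have h1 : |κ j| ≤ ∑ i, |κ i| :=
      Finset.single_le_sum (fun i _ => abs_nonneg (κ i)) (Finset.mem_univ j)
    have h2 := le_abs_self (κ j)
    have h3 := neg_abs_le e
    have h4 := abs_nonneg e
    have h5 := abs_nonneg (κ j)
    simp only [hk, hN]
    linarith
  have hkeven : ∀ j, mu j ≠ 0 → Even (k - κ j) := by
    intro j hj
    have h2 : k - κ j = (e - κ j) + 2 * N := by ring
    rw [h2]
    exact (hpar j hj).add (even_two_mul N)
  have hA : ∀ j, ∃ A : ℍ → ℂ, A ∈ MFun ⊤ (k - κ j) ∧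
      (mu j ≠ 0 → Tendsto A atImInfty (𝓝 1)) := by
    intro j
    by_cases hj : mu j = 0
    · exact ⟨0, Submodule.zero_mem _, fun h => absurd hj h⟩
    · obtain ⟨A, hA, hA1⟩ := exists_mem_MFun_top_tendsto_one (hkeven j hj) (Or.inr (hk4 j))
      exact ⟨A, hA, fun _ => hA1⟩
  choose A hAmem hAlim using hA
  set a : SL(2, ℤ) ⧸ Γ → ℍ → ℂ := fun j => mu j • A j with ha
  have hamem : ∀ j, a j ∈ MFun ⊤ (k - κ j) := fun j => Submodule.smul_mem _ _ (hAmem j)
  set G : ℍ → ℂ := ∑ j, a j * φ j with hG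
  have hGmem : G ∈ MFun Γ k :=
    Submodule.sum_mem _ fun j _ => mul_mem_MFun' (hamem j) (hb.mem j) (by ring)
  have hcomp : ∀ x, comp Γ k G x = fun z => ∑ j, a j z * fundMatrix Γ κ φ z x j := by
    intro x
    rw [hG, comp_sum]
    funext z
    rw [Finset.sum_apply]
    refine Finset.sum_congr rfl fun j _ => ?_
    rw [comp_mul_of_top (hamem j) (φ j) (by ring : (k - κ j) + κ j = k) x]
    rfl
  have hdec : ∀ x, Dec (comp Γ k G x) := by
    intro x
    rw [hcomp x]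
    have h1 : (fun z => ∑ j, a j z * fundMatrix Γ κ φ z x j)
        = fun z => (∑ j, fundMatrix Γ κ φ z x j * mu j)
          + ∑ j, mu j * ((A j z - 1) * fundMatrix Γ κ φ z x j) := by
      funext z
      rw [← Finset.sum_add_distrib]
      refine Finset.sum_congr rfl fun j _ => ?_
      simp only [ha, Pi.smul_apply, smul_eq_mul]
      ring
    rw [h1]
    refine (hmu x).add (dec_sum _ fun j _ => ?_)
    by_cases hj : mu j = 0
    · simp only [hj, zero_mul]
      exact dec_zero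
    · exact ((dec_sub_one (hAmem j) (hAlim j hj)).mul_bdd (bdd_fundMatrix hb x j)).const_mul (mu j)
  obtain ⟨g, hgmem, hGg⟩ := exists_eq_discriminant_mul_of_dec hGmem hdec
  obtain ⟨b, hbmem, hgb⟩ := hb.span (k - 12) g hgmem
  have hΔ : (Δ : ℍ → ℂ) ∈ MFun ⊤ 12 := SFun_le_MFun discriminant_mem
  have hcmem : ∀ j, a j - Δ * b j ∈ MFun ⊤ (k - κ j) := fun j =>
    Submodule.sub_mem _ (hamem j) (mul_mem_MFun' hΔ (hbmem j) (by ring))
  have hsum : ∑ j, (a j - Δ * b j) * φ j = 0 := by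
    have e1 : ∑ j, (a j - Δ * b j) * φ j = G - Δ * g := by
      rw [hgb, Finset.mul_sum, hG, ← Finset.sum_sub_distrib]
      refine Finset.sum_congr rfl fun j _ => ?_
      ring
    rw [e1, ← hGg, sub_self]
  have hzero := hb.indep k (fun j => a j - Δ * b j) hcmem hsum
  funext j
  by_contra hj
  have hj' : mu j ≠ 0 := hj
  have h1 : Tendsto (a j) atImInfty (𝓝 (mu j)) := by
    have e2 : a j = fun z => mu j * A j z := by
      funext z
      simp [ha]
    rw [e2]
    simpa using (hAlim j hj').const_mul (mu j)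
  have h2 : Tendsto (Δ * b j) atImInfty (𝓝 0) := by
    have hbb : IsBoundedAtImInfty (b j) := (mem_MFun_top_iff.mp (hbmem j)).2.2
    exact discriminant_isZeroAtImInfty.mul_boundedAtFilter hbb
  have h3 : a j = Δ * b j := sub_eq_zero.mp (hzero j)
  rw [h3] at h1
  exact hj' (tendsto_nhds_unique h1 h2)

/-- The kernel of the leading coefficient matrix is trivial. -/
theorem eq_zero_of_leadCoeff_mulVec_eq_zero (hb : IsHomBasis Γ κ φ)
    {σ : Equiv.Perm (SL(2, ℤ) ⧸ Γ)}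
    (tw : ∀ z x j, fundMatrix Γ κ φ ((1:ℝ) +ᵥ z) x j = fundMatrix Γ κ φ z (σ x) j)
    {lam : SL(2, ℤ) ⧸ Γ → ℂ}
    (h0 : (AtInftyCore.leadCoeff σ (fundMatrix Γ κ φ)).mulVec lam = 0) : lam = 0 := by
  have hrow := rowDec_of_ker hb tw h0
  have heven := eq_zero_of_rowDec hb 0 (mu := fun j => if Even (κ j) then lam j else 0)
    (fun j hj => by
      by_cases h : Even (κ j)
      · simpa using h
      · simp [h] at hj) (hrow.even hb)
  have hodd := eq_zero_of_rowDec hb 1 (mu := fun j => if Even (κ j) then 0 else lam j)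
    (fun j hj => by
      by_cases h : Even (κ j)
      · simp [h] at hj
      · have ho : Odd (κ j) := Int.not_even_iff_odd.mp h
        exact Odd.sub_odd odd_one ho) (hrow.odd hb)
  funext j
  by_cases h : Even (κ j)
  · have := congrFun heven j
    simpa [h] using this
  · have := congrFun hodd j
    simpa [h] using this

/-- **Invertibility of the leading coefficient matrix at `i∞`.** -/
theorem leadCoeff_det_ne_zero (hb : IsHomBasis Γ κ φ) {σ : Equiv.Perm (SL(2, ℤ) ⧸ Γ)}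
    (tw : ∀ z x j, fundMatrix Γ κ φ ((1:ℝ) +ᵥ z) x j = fundMatrix Γ κ φ z (σ x) j) :
    (AtInftyCore.leadCoeff σ (fundMatrix Γ κ φ)).det ≠ 0 := by
  intro hdet
  obtain ⟨v, hv, hv0⟩ := Matrix.exists_mulVec_eq_zero_iff.mpr hdet
  exact hv (eq_zero_of_leadCoeff_mulVec_eq_zero hb tw hv0)

end Fermat.Agent.S20.AtInftyKer
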