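import Fermat.Agent.S20.Wronskian
import Fermat.Agent.S20.AtInftyCore2
import Fermat.Agent.S20.AtInftyKer

/-! S20 package P5: behaviour at infinity (glue of `AtInftyCore2` and `AtInftyKer`). -/

set_option autoImplicit false

open UpperHalfPlane ModularForm CongruenceSubgroup
open scoped MatrixGroups Manifold ModularForm

namespace Fermat.Agent.S20

local notation "Δ" => ModularForm.discriminant

variable {Γ : Subgroup SL(2, ℤ)} [Γ.FiniteIndex] [Fintype (SL(2, ℤ) ⧸ Γ)]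
  [DecidableEq (SL(2, ℤ) ⧸ Γ)] {κ : SL(2, ℤ) ⧸ Γ → ℤ} {φ : SL(2, ℤ) ⧸ Γ → ℍ → ℂ}

theorem sum_weights (hb : IsHomBasis Γ κ φ) (hd : DetFormula Γ κ φ) :
    ∑ j, κ j = 6 * ((Fintype.card (SL(2, ℤ) ⧸ Γ) : ℤ) - numCusps Γ) :=
  AtInftyCore2.sum_weights_of_lead hb hd
    (AtInftyKer.leadCoeff_det_ne_zero hb (AtInftyCore2.fundMatrix_vadd hb))

theorem isZeroAtImInfty_discriminant_mul_inv (hb : IsHomBasis Γ κ φ) (hd : DetFormula Γ κ φ)
    (j x : SL(2, ℤ) ⧸ Γ) :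
    IsZeroAtImInfty (fun z : ℍ => Δ z * (fundMatrix Γ κ φ z)⁻¹ j x) :=
  AtInftyCore2.isZeroAtImInfty_discriminant_mul_inv_of_lead hb
    (AtInftyKer.leadCoeff_det_ne_zero hb (AtInftyCore2.fundMatrix_vadd hb)) j x

end Fermat.Agent.S20

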