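import Fermat.Agent.S20.Defs
import Fermat.Prelude.Thm_ModularForm_sturm_bound_Gamma0
import Fermat.Prelude.Thm_CongruenceSubgroup_one_mem_strictPeriods_Gamma0

/-! S20 package P1b: bridge between Mathlib's `ModularForm`/`CuspForm` and the
function-space model, for finite-index `Γ ≤ SL(2,ℤ)`. -/

set_option autoImplicit false

open UpperHalfPlane ModularForm CongruenceSubgroup
open scoped MatrixGroups Manifold ModularForm

namespace Fermat.Agent.S20

local notation "Δ" => ModularForm.discriminant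

variable {Γ : Subgroup SL(2, ℤ)}

/-! ### From the function-space model to Mathlib's bundled forms -/

/-- An element of `MFun Γ k` as a Mathlib modular form. -/
noncomputable def bridgeToModularForm (Γ : Subgroup SL(2, ℤ)) [Γ.FiniteIndex] (k : ℤ)
    (f : MFun Γ k) : ModularForm (Γ : Subgroup (GL (Fin 2) ℝ)) k where
  toFun := f.1
  slash_action_eq' := by
    rintro _ ⟨γ, hγ, rfl⟩
    exact f.2.2.1 γ hγ
  holo' := f.2.1
  bdd_at_cusps' := by
    intro c hc
    rw [Subgroup.IsArithmetic.isCusp_iff_isCusp_SL2Z] at hc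
    rw [OnePoint.isBoundedAt_iff_forall_SL2Z hc]
    exact fun γ _ => f.2.2.2 γ

/-- An element of `SFun Γ k` as a Mathlib cusp form. -/
noncomputable def bridgeToCuspForm (Γ : Subgroup SL(2, ℤ)) [Γ.FiniteIndex] (k : ℤ)
    (f : SFun Γ k) : CuspForm (Γ : Subgroup (GL (Fin 2) ℝ)) k where
  toFun := f.1
  slash_action_eq' := by
    rintro _ ⟨γ, hγ, rfl⟩
    exact f.2.2.1 γ hγ
  holo' := f.2.1
  zero_at_cusps' := by
    intro c hc
    rw [Subgroup.IsArithmetic.isCusp_iff_isCusp_SL2Z] at hc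
    rw [OnePoint.isZeroAt_iff_forall_SL2Z hc]
    exact fun γ _ => f.2.2.2 γ

@[simp] lemma coe_bridgeToModularForm [Γ.FiniteIndex] (k : ℤ) (f : MFun Γ k) :
    (⇑(bridgeToModularForm Γ k f) : ℍ → ℂ) = f.1 := rfl

@[simp] lemma coe_bridgeToCuspForm [Γ.FiniteIndex] (k : ℤ) (f : SFun Γ k) :
    (⇑(bridgeToCuspForm Γ k f) : ℍ → ℂ) = f.1 := rfl

/-- A Mathlib modular form lies in the function-space model. -/
lemma coe_modularForm_mem_MFun [Γ.FiniteIndex] {k : ℤ}
    (f : ModularForm (Γ : Subgroup (GL (Fin 2) ℝ)) k) : (⇑f : ℍ → ℂ) ∈ MFun Γ k := by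
  refine ⟨f.holo', fun γ hγ => ?_, fun γ => ?_⟩
  · exact f.slash_action_eq' _ ⟨γ, hγ, rfl⟩
  · have hc : IsCusp (Matrix.SpecialLinearGroup.mapGL ℝ γ • OnePoint.infty) 𝒮ℒ :=
      isCusp_SL2Z_iff'.mpr ⟨γ, rfl⟩
    have hc' : IsCusp (Matrix.SpecialLinearGroup.mapGL ℝ γ • OnePoint.infty)
        (Γ : Subgroup (GL (Fin 2) ℝ)) :=
      (Subgroup.IsArithmetic.isCusp_iff_isCusp_SL2Z _).mpr hc
    exact (OnePoint.isBoundedAt_iff_forall_SL2Z hc).mp (f.bdd_at_cusps' hc') γ rfl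

/-- A Mathlib cusp form lies in the function-space model. -/
lemma coe_cuspForm_mem_SFun [Γ.FiniteIndex] {k : ℤ}
    (f : CuspForm (Γ : Subgroup (GL (Fin 2) ℝ)) k) : (⇑f : ℍ → ℂ) ∈ SFun Γ k := by
  refine ⟨f.holo', fun γ hγ => ?_, fun γ => ?_⟩
  · exact f.slash_action_eq' _ ⟨γ, hγ, rfl⟩
  · have hc : IsCusp (Matrix.SpecialLinearGroup.mapGL ℝ γ • OnePoint.infty) 𝒮ℒ :=
      isCusp_SL2Z_iff'.mpr ⟨γ, rfl⟩
    have hc' : IsCusp (Matrix.SpecialLinearGroup.mapGL ℝ γ • OnePoint.infty)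
        (Γ : Subgroup (GL (Fin 2) ℝ)) :=
      (Subgroup.IsArithmetic.isCusp_iff_isCusp_SL2Z _).mpr hc
    exact (OnePoint.isZeroAt_iff_forall_SL2Z hc).mp (f.zero_at_cusps' hc') γ rfl

/-- The linear equivalence `MFun Γ k ≃ ModularForm Γ k`. -/
noncomputable def bridgeModularFormEquiv (Γ : Subgroup SL(2, ℤ)) [Γ.FiniteIndex] (k : ℤ) :
    MFun Γ k ≃ₗ[ℂ] ModularForm (Γ : Subgroup (GL (Fin 2) ℝ)) k where
  toFun := bridgeToModularForm Γ k
  map_add' f g := by ext z; rfl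
  map_smul' c f := by ext z; rfl
  invFun f := ⟨⇑f, coe_modularForm_mem_MFun f⟩
  left_inv f := by ext z; rfl
  right_inv f := by ext z; rfl

/-- The linear equivalence `SFun Γ k ≃ CuspForm Γ k`. -/
noncomputable def bridgeCuspFormEquiv (Γ : Subgroup SL(2, ℤ)) [Γ.FiniteIndex] (k : ℤ) :
    SFun Γ k ≃ₗ[ℂ] CuspForm (Γ : Subgroup (GL (Fin 2) ℝ)) k where
  toFun := bridgeToCuspForm Γ k
  map_add' f g := by ext z; rfl
  map_smul' c f := by ext z; rfl
  invFun f := ⟨⇑f, coe_cuspForm_mem_SFun f⟩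
  left_inv f := by ext z; rfl
  right_inv f := by ext z; rfl

@[simp] lemma bridgeModularFormEquiv_apply [Γ.FiniteIndex] (k : ℤ) (f : MFun Γ k) (z : ℍ) :
    bridgeModularFormEquiv Γ k f z = f.1 z := rfl

@[simp] lemma bridgeCuspFormEquiv_apply [Γ.FiniteIndex] (k : ℤ) (f : SFun Γ k) (z : ℍ) :
    bridgeCuspFormEquiv Γ k f z = f.1 z := rfl

/-! ### The frozen statements -/

theorem finrank_cuspForm_eq_finrank_SFun (Γ : Subgroup SL(2, ℤ)) [Γ.FiniteIndex] (k : ℤ) :
    Module.finrank ℂ (CuspForm (Γ : Subgroup (GL (Fin 2) ℝ)) k) = Module.finrank ℂ (SFun Γ k) :=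
  (bridgeCuspFormEquiv Γ k).finrank_eq.symm

theorem MFun_eq_bot_of_neg [Γ.FiniteIndex] {k : ℤ} (hk : k < 0) : MFun Γ k = ⊥ := by
  rw [eq_bot_iff]
  intro f hf
  have h := ModularForm.isZero_of_neg_weight hk (bridgeToModularForm Γ k ⟨f, hf⟩)
  rw [Submodule.mem_bot]
  have h2 : (⇑(bridgeToModularForm Γ k ⟨f, hf⟩) : ℍ → ℂ) = 0 := by rw [h]; rfl
  exact h2

theorem MFun_eq_bot_of_odd (hΓ : -1 ∈ Γ) {k : ℤ} (hk : Odd k) : MFun Γ k = ⊥ := by
  rw [eq_bot_iff]
  intro f hf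
  rw [Submodule.mem_bot]
  have h := hf.2.1 (-1) hΓ
  funext z
  have hz := congrFun h z
  rw [ModularForm.SL_slash_apply] at hz
  have hsm : ((-1 : SL(2, ℤ)) • z) = z := by
    ext
    simp
  have hden : denom ((-1 : SL(2, ℤ)) : GL (Fin 2) ℝ) z = -1 := by
    simp [denom]
  rw [hsm, hden, zpow_neg, hk.neg_one_zpow] at hz
  have h2 : (2 : ℂ) * f z = 0 := by linear_combination -hz
  exact (mul_eq_zero.mp h2).resolve_left (by norm_num)

theorem exists_const_of_mem_MFun_zero [Γ.FiniteIndex] {f : ℍ → ℂ} (hf : f ∈ MFun Γ 0) :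
    ∃ c : ℂ, f = fun _ => c := by
  obtain ⟨c, hc⟩ := ModularForm.eq_const_of_weight_zero (bridgeToModularForm Γ 0 ⟨f, hf⟩)
  exact ⟨c, hc⟩

theorem SFun_eq_bot_of_nonpos [Γ.FiniteIndex] {k : ℤ} (hk : k ≤ 0) : SFun Γ k = ⊥ := by
  rw [eq_bot_iff]
  intro f hf
  rw [Submodule.mem_bot]
  rcases hk.lt_or_eq with hk | rfl
  · have := SFun_le_MFun hf
    rw [MFun_eq_bot_of_neg hk] at this
    exact this
  · obtain ⟨c, rfl⟩ := exists_const_of_mem_MFun_zero (SFun_le_MFun hf)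
    have h0 : IsZeroAtImInfty ((fun _ => c : ℍ → ℂ) ∣[(0 : ℤ)] (1 : SL(2, ℤ))) := hf.2.2 1
    rw [SlashAction.slash_one] at h0
    have hc : c = 0 := by
      have h1 : Filter.Tendsto (fun _ : ℍ => c) atImInfty (nhds c) := tendsto_const_nhds
      exact tendsto_nhds_unique h1 h0
    subst hc
    rfl

/-- Sturm bound (from the Prelude) as a dimension bound -/
theorem finrank_MFun_Gamma0_le (N : ℕ) [NeZero N] (k : ℤ) :
    FiniteDimensional ℂ (MFun (Gamma0 N) k) ∧
    Module.finrank ℂ (MFun (Gamma0 N) k) ≤ (k * (Gamma0 N).index).toNat / 12 + 1 := by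
  set B : ℕ := (k * (Gamma0 N).index).toNat / 12 with hB
  have hper := CongruenceSubgroup.one_mem_strictPeriods_Gamma0 N
  let L : MFun (Gamma0 N) k →ₗ[ℂ] (Fin (B + 1) → ℂ) :=
    { toFun := fun f n => (qExpansion 1 (bridgeToModularForm (Gamma0 N) k f)).coeff n
      map_add' := by
        intro f g
        funext n
        have : (⇑(bridgeToModularForm (Gamma0 N) k (f + g)) : ℍ → ℂ)
            = ⇑(bridgeToModularForm (Gamma0 N) k f) + ⇑(bridgeToModularForm (Gamma0 N) k g) := rfl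
        simp only [Pi.add_apply]
        rw [this, ModularForm.qExpansion_add one_pos hper, map_add]
      map_smul' := by
        intro c f
        funext n
        have : (⇑(bridgeToModularForm (Gamma0 N) k (c • f)) : ℍ → ℂ)
            = c • ⇑(bridgeToModularForm (Gamma0 N) k f) := rfl
        simp only [Pi.smul_apply, RingHom.id_apply]
        rw [this, ModularForm.qExpansion_smul one_pos hper, PowerSeries.coeff_smul] }
  have hL : Function.Injective L := by
    rw [← LinearMap.ker_eq_bot, eq_bot_iff]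
    intro f hf
    rw [LinearMap.mem_ker] at hf
    have h0 : bridgeToModularForm (Gamma0 N) k f = 0 := by
      apply ModularForm.sturm_bound_Gamma0 N
      intro n hn
      have := congrFun hf ⟨n, Nat.lt_succ_of_le hn⟩
      exact this
    rw [Submodule.mem_bot]
    apply Subtype.ext
    have : (⇑(bridgeToModularForm (Gamma0 N) k f) : ℍ → ℂ) = 0 := by rw [h0]; rfl
    exact this
  have hfin : FiniteDimensional ℂ (MFun (Gamma0 N) k) := FiniteDimensional.of_injective L hL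
  refine ⟨hfin, ?_⟩
  have := LinearMap.finrank_le_finrank_of_injective hL
  simpa using this

end Fermat.Agent.S20
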