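import Fermat.Agent.S20.LevelOne
import Fermat.Agent.S20.Bridge

/-! S20 package P4: the Wronskian argument.  The Serre derivative maps
`MFun Γ k` to `MFun Γ (k+2)`; its matrix in a homogeneous basis has diagonal entries in
`MFun ⊤ 2 = 0`; hence `θ det Φ = (K/12) E₂ det Φ` and `(det Φ)^12 = c Δ^K`. -/

set_option autoImplicit false

open UpperHalfPlane ModularForm CongruenceSubgroup Derivative
open scoped MatrixGroups Manifold ModularForm

namespace Fermat.Agent.S20

local notation "Δ" => ModularForm.discriminant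

namespace Wronskian

/-- Jacobi-type formula: derivative of the determinant of a matrix of differentiable functions. -/
theorem hasDerivAt_det {n : Type*} [Fintype n] [DecidableEq n] {M : ℂ → Matrix n n ℂ}
    {M' : Matrix n n ℂ} {z : ℂ} (h : ∀ i j, HasDerivAt (fun w => M w i j) (M' i j) z) :
    HasDerivAt (fun w => (M w).det)
      (∑ l, ((M z).updateCol l (fun i => M' i l)).det) z := by
  have h1 : ∀ σ : Equiv.Perm n, HasDerivAt (fun w => ∏ i, M w (σ i) i)
      (∑ l, (∏ j ∈ Finset.univ.erase l, M z (σ j) j) • M' (σ l) l) z := by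
    intro σ
    exact HasDerivAt.fun_finsetProd (u := Finset.univ) (f := fun i w => M w (σ i) i)
      (f' := fun i => M' (σ i) i) (x := z) (fun i _ => h (σ i) i)
  have h2 : HasDerivAt (fun w => ∑ σ : Equiv.Perm n, (Equiv.Perm.sign σ : ℂ) * ∏ i, M w (σ i) i)
      (∑ σ : Equiv.Perm n, (Equiv.Perm.sign σ : ℂ) *
        ∑ l, (∏ j ∈ Finset.univ.erase l, M z (σ j) j) • M' (σ l) l) z := by
    apply HasDerivAt.fun_sum
    intro σ _
    exact (h1 σ).const_mul _
  have e1 : (fun w => (M w).det) =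
      fun w => ∑ σ : Equiv.Perm n, (Equiv.Perm.sign σ : ℂ) * ∏ i, M w (σ i) i := by
    ext w
    rw [Matrix.det_apply']
  rw [e1]
  convert h2 using 1
  simp_rw [Matrix.det_apply', Finset.mul_sum]
  rw [Finset.sum_comm]
  refine Finset.sum_congr rfl fun σ _ => Finset.sum_congr rfl fun l _ => ?_
  congr 1
  rw [← Finset.mul_prod_erase Finset.univ _ (Finset.mem_univ l)]
  simp only [Matrix.updateCol_self, smul_eq_mul]
  rw [mul_comm]
  congr 1
  refine Finset.prod_congr rfl fun j hj => ?_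
  rw [Matrix.updateCol_ne (Finset.ne_of_mem_erase hj)]

/-- Cauchy estimate: the normalised derivative of a holomorphic function bounded at `i∞`
is bounded at `i∞`. -/
theorem isBoundedAtImInfty_normalizedDeriv {f : ℍ → ℂ} (hf : MDiff f)
    (hb : IsBoundedAtImInfty f) : IsBoundedAtImInfty (D f) := by
  rw [isBoundedAtImInfty_iff] at hb ⊢
  obtain ⟨M, A, hMA⟩ := hb
  refine ⟨‖(2 * (Real.pi : ℂ) * Complex.I)⁻¹‖ * (M / 1), max A 0 + 2, fun z hz => ?_⟩
  have hdiff : DifferentiableOn ℂ (f ∘ ofComplex) upperHalfPlaneSet :=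
    UpperHalfPlane.mdifferentiable_iff.mp hf
  have hsub : Metric.closedBall (z : ℂ) 1 ⊆ upperHalfPlaneSet := by
    intro w hw
    have h1 : |w.im - (z : ℂ).im| ≤ 1 := by
      have := Complex.abs_im_le_norm (w - z)
      rw [Complex.sub_im] at this
      exact this.trans (by simpa [dist_eq_norm] using hw)
    have h2 : (z : ℂ).im = z.im := rfl
    have h3 : max A 0 + 2 ≤ z.im := hz
    have h4 : 0 ≤ max A 0 := le_max_right _ _
    show 0 < w.im
    have := abs_le.mp h1
    linarith [this.1]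
  have hd : DiffContOnCl ℂ (f ∘ ofComplex) (Metric.ball (z : ℂ) 1) := by
    apply DifferentiableOn.diffContOnCl
    rw [closure_ball _ one_ne_zero]
    exact hdiff.mono hsub
  have hC : ∀ w ∈ Metric.sphere (z : ℂ) 1, ‖(f ∘ ofComplex) w‖ ≤ M := by
    intro w hw
    have hw' : w ∈ Metric.closedBall (z : ℂ) 1 := Metric.sphere_subset_closedBall hw
    have hwpos : 0 < w.im := hsub hw'
    have h1 : |w.im - (z : ℂ).im| ≤ 1 := by
      have := Complex.abs_im_le_norm (w - z)
      rw [Complex.sub_im] at this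
      exact this.trans (by simpa [dist_eq_norm] using hw')
    have h3 : max A 0 + 2 ≤ z.im := hz
    have h2 : (z : ℂ).im = z.im := rfl
    have h5 : A ≤ max A 0 := le_max_left _ _
    have hA : A ≤ (ofComplex w).im := by
      rw [ofComplex_apply_of_im_pos hwpos]
      show A ≤ w.im
      have := abs_le.mp h1
      linarith [this.1]
    exact hMA _ hA
  have := Complex.norm_deriv_le_of_forall_mem_sphere_norm_le one_pos hd hC
  show ‖(2 * (Real.pi : ℂ) * Complex.I)⁻¹ * deriv (f ∘ ofComplex) z‖ ≤ _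
  rw [norm_mul]
  exact mul_le_mul_of_nonneg_left this (norm_nonneg _)

/-- The Serre derivative preserves the function-space model of modular forms. -/
theorem serreDerivative_mem_MFun {Γ : Subgroup SL(2, ℤ)} {k : ℤ} {f : ℍ → ℂ}
    (hf : f ∈ MFun Γ k) : serreDerivative (k : ℂ) f ∈ MFun Γ (k + 2) := by
  obtain ⟨h1, h2, h3⟩ := hf
  refine ⟨serreDerivative_mdifferentiable _ h1, fun γ hγ => ?_, fun γ => ?_⟩
  · exact serreDerivative_slash_invariant h1 (h2 γ hγ)
  · rw [serreDerivative_slash_equivariant h1]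
    have hm : MDiff (f ∣[k] γ) := h1.slash k _
    have hD := isBoundedAtImInfty_normalizedDeriv hm (h3 γ)
    have hE : IsBoundedAtImInfty (fun z : ℍ => (k : ℂ) * 12⁻¹ * EisensteinSeries.E2 z * (f ∣[k] γ) z) := by
      have h4 : IsBoundedAtImInfty (fun z : ℍ => EisensteinSeries.E2 z * (f ∣[k] γ) z) :=
        EisensteinSeries.isBoundedAtImInfty_E2.mul (h3 γ)
      have h5 := h4.const_smul_left ((k : ℂ) * 12⁻¹)
      have h6 : (fun z : ℍ => (k : ℂ) * 12⁻¹ * EisensteinSeries.E2 z * (f ∣[k] γ) z) =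
          ((k : ℂ) * 12⁻¹) • (fun z : ℍ => EisensteinSeries.E2 z * (f ∣[k] γ) z) := by
        ext z
        simp [mul_assoc]
      rw [h6]
      exact h5
    rw [serreDerivative_eq]
    exact hD.sub hE

theorem hasDerivAt_eta_pow (n : ℕ) (z : ℍ) :
    HasDerivAt (fun w : ℂ => ModularForm.eta w ^ n)
      ((n : ℂ) * ((Real.pi : ℂ) * Complex.I / 12 * EisensteinSeries.E2 z) * ModularForm.eta z ^ n)
      (z : ℂ) := by
  have hd : DifferentiableAt ℂ ModularForm.eta (z : ℂ) :=
    ModularForm.differentiableAt_eta_of_mem_upperHalfPlaneSet z.2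
  have hne : ModularForm.eta (z : ℂ) ≠ 0 := ModularForm.eta_ne_zero z.2
  have hl := ModularForm.logDeriv_eta_eq_E2 z
  rw [logDeriv_apply, div_eq_iff hne] at hl
  have h1 : HasDerivAt (fun w : ℂ => ModularForm.eta w ^ n)
      ((n : ℂ) * ModularForm.eta (z : ℂ) ^ (n - 1) * deriv ModularForm.eta (z : ℂ)) (z : ℂ) :=
    hd.hasDerivAt.fun_pow n
  rw [hl] at h1
  have h2 : (n : ℂ) * ModularForm.eta (z : ℂ) ^ (n - 1) *
      ((Real.pi : ℂ) * Complex.I / 12 * EisensteinSeries.E2 z * ModularForm.eta (z : ℂ)) =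
      (n : ℂ) * ((Real.pi : ℂ) * Complex.I / 12 * EisensteinSeries.E2 z) *
        ModularForm.eta z ^ n := by
    rcases Nat.eq_zero_or_pos n with rfl | hn
    · simp
    · have : ModularForm.eta (z : ℂ) ^ n =
          ModularForm.eta (z : ℂ) ^ (n - 1) * ModularForm.eta z := by
        rw [← pow_succ, Nat.sub_add_cancel hn]
      rw [this]
      ring
  rw [h2] at h1
  exact h1

section basis

variable {Γ : Subgroup SL(2, ℤ)} [Fintype (SL(2, ℤ) ⧸ Γ)] [DecidableEq (SL(2, ℤ) ⧸ Γ)]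
  {κ : SL(2, ℤ) ⧸ Γ → ℤ} {φ : SL(2, ℤ) ⧸ Γ → ℍ → ℂ}

/-- The connection matrix of the Serre derivative in a homogeneous basis; its diagonal vanishes
because there are no level-one forms of weight two. -/
theorem exists_connection (hb : IsHomBasis Γ κ φ) (htwo : MFun (⊤ : Subgroup SL(2, ℤ)) 2 = ⊥) :
    ∃ a : (SL(2, ℤ) ⧸ Γ) → (SL(2, ℤ) ⧸ Γ) → ℍ → ℂ, (∀ j, a j j = 0) ∧
      ∀ (x j : SL(2, ℤ) ⧸ Γ) (z : ℍ),
        D (comp Γ (κ j) (φ j) x) z =
          ∑ i, a j i z * comp Γ (κ i) (φ i) x z +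
            (κ j : ℂ) * 12⁻¹ * EisensteinSeries.E2 z * comp Γ (κ j) (φ j) x z := by
  choose a ha1 ha2 using fun j =>
    hb.span (κ j + 2) (serreDerivative (κ j : ℂ) (φ j)) (serreDerivative_mem_MFun (hb.mem j))
  refine ⟨a, fun j => ?_, fun x j z => ?_⟩
  · have h := ha1 j j
    have e : κ j + 2 - κ j = 2 := by ring
    rw [e, htwo] at h
    exact (Submodule.mem_bot ℂ).mp h
  · have h1 : comp Γ (κ j + 2) (serreDerivative (κ j : ℂ) (φ j)) x =
        serreDerivative (κ j : ℂ) (comp Γ (κ j) (φ j) x) := by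
      unfold comp
      exact serreDerivative_slash_equivariant (hb.mem j).1
    have h2 : comp Γ (κ j + 2) (serreDerivative (κ j : ℂ) (φ j)) x =
        ∑ i, a j i * comp Γ (κ i) (φ i) x := by
      conv_lhs => rw [ha2 j]
      rw [comp_sum]
      refine Finset.sum_congr rfl fun i _ => ?_
      exact comp_mul_of_top (ha1 j i) (φ i) (by ring) x
    have h3 := congrFun (h1.symm.trans h2) z
    rw [serreDerivative_apply, Finset.sum_apply] at h3
    simp only [Pi.mul_apply] at h3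
    linear_combination h3

/-- The determinant of the fundamental matrix satisfies `D det = (K/12) E₂ det`. -/
theorem hasDerivAt_fundMatrix_det (hb : IsHomBasis Γ κ φ)
    (htwo : MFun (⊤ : Subgroup SL(2, ℤ)) 2 = ⊥) (z : ℍ) :
    HasDerivAt (fun w : ℂ => (fundMatrix Γ κ φ (ofComplex w)).det)
      (2 * (Real.pi : ℂ) * Complex.I * ((∑ j, (κ j : ℂ)) * 12⁻¹ * EisensteinSeries.E2 z) *
        (fundMatrix Γ κ φ z).det) (z : ℂ) := by
  obtain ⟨a, ha0, ha⟩ := exists_connection hb htwo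
  have hpi : (2 * (Real.pi : ℂ) * Complex.I) ≠ 0 := Complex.two_pi_I_ne_zero
  have hent : ∀ x j, HasDerivAt (fun w : ℂ => fundMatrix Γ κ φ (ofComplex w) x j)
      (2 * (Real.pi : ℂ) * Complex.I * D (comp Γ (κ j) (φ j) x) z) (z : ℂ) := by
    intro x j
    have hd : DifferentiableAt ℂ (comp Γ (κ j) (φ j) x ∘ ofComplex) (z : ℂ) :=
      UpperHalfPlane.mdifferentiableAt_iff.mp ((mdiff_comp (hb.mem j).1 x) z)
    have h1 := hd.hasDerivAt
    have h2 : deriv (comp Γ (κ j) (φ j) x ∘ ofComplex) (z : ℂ) =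
        2 * (Real.pi : ℂ) * Complex.I * D (comp Γ (κ j) (φ j) x) z := by
      unfold normalizedDerivOfComplex
      field_simp
    rw [h2] at h1
    exact h1
  have h := hasDerivAt_det (M := fun w : ℂ => fundMatrix Γ κ φ (ofComplex w))
    (M' := Matrix.of fun x j => 2 * (Real.pi : ℂ) * Complex.I * D (comp Γ (κ j) (φ j) x) z)
    (z := (z : ℂ)) (fun x j => by simpa using hent x j)
  convert h using 1
  simp only [ofComplex_apply]
  have hcol : ∀ l, ((fundMatrix Γ κ φ z).updateCol l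
      (fun x => (Matrix.of fun x j => 2 * (Real.pi : ℂ) * Complex.I *
        D (comp Γ (κ j) (φ j) x) z) x l)).det =
      (2 * (Real.pi : ℂ) * Complex.I * ((κ l : ℂ) * 12⁻¹ * EisensteinSeries.E2 z)) *
        (fundMatrix Γ κ φ z).det := by
    intro l
    have hc := Matrix.det_updateCol_sum (fundMatrix Γ κ φ z) l
      (fun i => 2 * (Real.pi : ℂ) * Complex.I *
        (a l i z + if i = l then (κ l : ℂ) * 12⁻¹ * EisensteinSeries.E2 z else 0))
    simp only [ha0 l, Pi.zero_apply, zero_add, if_true, smul_eq_mul] at hc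
    rw [← hc]
    congr 2
    ext x
    simp only [Matrix.of_apply, ha x l z, fundMatrix, mul_add, Finset.mul_sum, add_mul,
      Finset.sum_add_distrib, mul_ite, ite_mul, mul_zero, zero_mul, Finset.sum_ite_eq',
      Finset.mem_univ, if_true]
    congr 1
    · refine Finset.sum_congr rfl fun i _ => ?_
      ring
    · ring
  rw [Finset.sum_congr rfl fun l _ => hcol l, ← Finset.sum_mul]
  congr 1
  rw [Finset.sum_mul, Finset.sum_mul, Finset.mul_sum]

/-- `det(fundamental matrix)^12 = c * Δ^K`, `K` the sum of the weights. -/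
theorem fundMatrix_det_pow_aux (hb : IsHomBasis Γ κ φ)
    (htwo : MFun (⊤ : Subgroup SL(2, ℤ)) 2 = ⊥) (hK : 0 ≤ ∑ j, κ j) :
    ∃ c : ℂ, ∀ z : ℍ, (fundMatrix Γ κ φ z).det ^ 12 = c * Δ z ^ (∑ j, κ j).toNat := by
  set K : ℕ := (∑ j, κ j).toNat with hKdef
  have hKc : (K : ℂ) = ∑ j, (κ j : ℂ) := by
    have h1 : ((K : ℤ) : ℂ) = ((∑ j, κ j : ℤ) : ℂ) := by
      rw [hKdef, Int.toNat_of_nonneg hK]
    rw [Int.cast_natCast] at h1
    rw [h1]
    push_cast
    rfl
  set g : ℂ → ℂ := fun w => (fundMatrix Γ κ φ (ofComplex w)).det ^ 12 /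
    ModularForm.eta w ^ (24 * K) with hg
  have hderiv : ∀ w ∈ upperHalfPlaneSet, HasDerivAt g 0 w := by
    intro w hw
    set z : ℍ := ⟨w, hw⟩ with hz
    have hzw : (z : ℂ) = w := rfl
    have hF := hasDerivAt_fundMatrix_det hb htwo z
    have hE := hasDerivAt_eta_pow (24 * K) z
    have hne : ModularForm.eta (z : ℂ) ^ (24 * K) ≠ 0 := pow_ne_zero _ (ModularForm.eta_ne_zero z.2)
    have hF12 := hF.fun_pow 12
    have hq := hF12.fun_div hE hne
    rw [hzw] at hq
    refine hq.congr_deriv ?_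
    rw [div_eq_zero_iff]
    left
    have hoc : ofComplex w = z := by
      rw [← hzw, ofComplex_apply]
    rw [hoc, ← hKc]
    push_cast
    ring
  have hdiff : DifferentiableOn ℂ g upperHalfPlaneSet := fun w hw =>
    (hderiv w hw).differentiableAt.differentiableWithinAt
  have hd0 : upperHalfPlaneSet.EqOn (deriv g) 0 := fun w hw => (hderiv w hw).deriv
  obtain ⟨c, hc⟩ := isOpen_upperHalfPlaneSet.exists_is_const_of_deriv_eq_zero
    (convex_halfSpace_im_gt 0).isPreconnected hdiff hd0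
  refine ⟨c, fun z => ?_⟩
  have h1 := hc (z : ℂ) z.2
  have hne : ModularForm.eta (z : ℂ) ^ (24 * K) ≠ 0 := pow_ne_zero _ (ModularForm.eta_ne_zero z.2)
  simp only [hg, ofComplex_apply] at h1
  rw [div_eq_iff hne] at h1
  rw [h1, ModularForm.discriminant, ← pow_mul]

end basis

end Wronskian

variable {Γ : Subgroup SL(2, ℤ)}

/-- The Serre derivative preserves modular forms. -/
theorem serreDerivative_mem [Γ.FiniteIndex] {k : ℤ} {f : ℍ → ℂ} (hf : f ∈ MFun Γ k) :
    Derivative.serreDerivative k f ∈ MFun Γ (k + 2) :=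
  Wronskian.serreDerivative_mem_MFun hf

section basis

variable [Γ.FiniteIndex] [Fintype (SL(2, ℤ) ⧸ Γ)] [DecidableEq (SL(2, ℤ) ⧸ Γ)]
  {κ : SL(2, ℤ) ⧸ Γ → ℤ} {φ : SL(2, ℤ) ⧸ Γ → ℍ → ℂ}

theorem basis_ne_zero (hb : IsHomBasis Γ κ φ) (j : SL(2, ℤ) ⧸ Γ) : φ j ≠ 0 := by
  intro h0
  have hmem : ∀ i, (if i = j then (1 : ℍ → ℂ) else 0) ∈ MFun ⊤ (κ j - κ i) := by
    intro i
    split_ifs with h
    · subst h
      rw [sub_self]
      exact one_mem_MFun_zero ⊤
    · exact Submodule.zero_mem _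
  have hsum : ∑ i, (if i = j then (1 : ℍ → ℂ) else 0) * φ i = 0 := by
    simp [h0]
  have h1 := hb.indep (κ j) (fun i => if i = j then (1 : ℍ → ℂ) else 0) hmem hsum j
  simp only [if_true] at h1
  have h2 := congrFun h1 UpperHalfPlane.I
  simp at h2

theorem weight_nonneg (hb : IsHomBasis Γ κ φ) (j : SL(2, ℤ) ⧸ Γ) : 0 ≤ κ j := by
  by_contra hneg
  have hlt : κ j < 0 := not_le.mp hneg
  have hm := hb.mem j
  rw [MFun_eq_bot_of_neg hlt] at hm
  exact basis_ne_zero hb j ((Submodule.mem_bot ℂ).mp hm)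

theorem weight_even (hΓ : -1 ∈ Γ) (hb : IsHomBasis Γ κ φ) (j : SL(2, ℤ) ⧸ Γ) : Even (κ j) := by
  by_contra hodd
  have ho : Odd (κ j) := Int.not_even_iff_odd.mp hodd
  have hm := hb.mem j
  rw [MFun_eq_bot_of_odd hΓ ho] at hm
  exact basis_ne_zero hb j ((Submodule.mem_bot ℂ).mp hm)

theorem detFormula_of_homBasis (hb : IsHomBasis Γ κ φ)
    (hne : ∃ z : ℍ, (fundMatrix Γ κ φ z).det ≠ 0) : DetFormula Γ κ φ := by
  obtain ⟨c, hc⟩ := Wronskian.fundMatrix_det_pow_aux hb MFun_top_two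
    (Finset.sum_nonneg fun j _ => weight_nonneg hb j)
  refine ⟨c, ?_, hc⟩
  rintro rfl
  obtain ⟨z, hz⟩ := hne
  have h := hc z
  rw [zero_mul] at h
  exact hz (pow_eq_zero_iff (by norm_num) |>.mp h)

end basis

end Fermat.Agent.S20
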