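import Fermat.Agent.S20.AtInftyCore
import Fermat.Agent.S20.LevelOne
import Fermat.Agent.S20.Bridge
import Fermat.Agent.S20.Wronskian

/-! S20 package P5, application part: the analysis at `i∞` of the fundamental matrix of a
homogeneous basis, on top of the abstract core `AtInftyCore`. -/

set_option autoImplicit false

open UpperHalfPlane ModularForm CongruenceSubgroup Filter Asymptotics
open scoped MatrixGroups Manifold ModularForm Topology Real

namespace Fermat.Agent.S20.AtInftyWire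

open Fermat.Agent.S20.CycleDFT Fermat.Agent.S20.AtInftyCore

local notation "Δ" => ModularForm.discriminant

/-- Slashing with `T` is translation by one. -/
lemma slash_T_apply (k : ℤ) (f : ℍ → ℂ) (z : ℍ) :
    (f ∣[k] ModularGroup.T) z = f ((1 : ℝ) +ᵥ z) := by
  rw [SL_slash_apply, modular_T_smul]
  have h : denom (ModularGroup.T : SL(2, ℤ)) z = 1 := by
    simp [denom, ModularGroup.T]
  rw [h, one_zpow, mul_one]

variable {Γ : Subgroup SL(2, ℤ)} [Fintype (SL(2, ℤ) ⧸ Γ)] [DecidableEq (SL(2, ℤ) ⧸ Γ)]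
  {κ : SL(2, ℤ) ⧸ Γ → ℤ} {φ : SL(2, ℤ) ⧸ Γ → ℍ → ℂ}

/-- The permutation of the cosets induced by `T⁻¹`. -/
noncomputable def sig (Γ : Subgroup SL(2, ℤ)) : Equiv.Perm (SL(2, ℤ) ⧸ Γ) :=
  MulAction.toPerm (ModularGroup.T⁻¹ : SL(2, ℤ))

lemma fund_hol (hb : IsHomBasis Γ κ φ) (x j : SL(2, ℤ) ⧸ Γ) :
    MDiff (fun z => fundMatrix Γ κ φ z x j) :=
  mdiff_comp (hb.mem j).1 x

lemma fund_bdd (hb : IsHomBasis Γ κ φ) (x j : SL(2, ℤ) ⧸ Γ) :
    IsBoundedAtImInfty (fun z => fundMatrix Γ κ φ z x j) :=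
  isBoundedAtImInfty_comp (hb.mem j) x

lemma fund_tw (hb : IsHomBasis Γ κ φ) (z : ℍ) (x j : SL(2, ℤ) ⧸ Γ) :
    fundMatrix Γ κ φ ((1 : ℝ) +ᵥ z) x j = fundMatrix Γ κ φ z (sig Γ x) j := by
  have h := comp_slash (hb.mem j).2.1 ModularGroup.T x
  have h2 := congrFun h z
  rw [slash_T_apply] at h2
  exact h2

/-- `Δ z * exp (-2πi z) → 1` at `i∞`. -/
lemma tendsto_discriminant_mul_cexp :
    Tendsto (fun z : ℍ => Δ z * Complex.exp (-(2 * π * Complex.I * (z : ℂ)))) atImInfty (𝓝 1) := by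
  have h := ModularForm.tendsto_atImInfty_tprod_one_sub_eta_q_pow
  refine h.congr fun z => ?_
  rw [ModularForm.discriminant_eq_q_prod]
  have h1 : Function.Periodic.qParam 1 (z : ℂ) * Complex.exp (-(2 * π * Complex.I * (z : ℂ))) = 1 := by
    rw [Function.Periodic.qParam, ← Complex.exp_add]
    simp
  rw [mul_right_comm, h1, one_mul]

/-- `Δ = O(exp (-2π Im z))` at `i∞`. -/
lemma discriminant_isBigO :
    (Δ : ℍ → ℂ) =O[atImInfty] fun z : ℍ => Real.exp (-2 * π * z.im) := by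
  have h := CuspFormClass.exp_decay_atImInfty (h := 1) CuspForm.discriminant one_pos
    one_mem_strictPeriods_SL
  simpa using h

lemma numCycles_sig (Γ : Subgroup SL(2, ℤ)) [Fintype (SL(2, ℤ) ⧸ Γ)]
    [DecidableEq (SL(2, ℤ) ⧸ Γ)] : numCycles (sig Γ) = numCusps Γ := by
  unfold sig numCusps
  exact numCycles_toPerm_inv (ModularGroup.T : SL(2, ℤ))

/-- The sum of the weights, assuming the leading coefficient matrix is invertible. -/
theorem sum_weights_of_leadCoeff [Γ.FiniteIndex] (hb : IsHomBasis Γ κ φ) (hd : DetFormula Γ κ φ)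
    (hlead : (leadCoeff (sig Γ) (fundMatrix Γ κ φ)).det ≠ 0) :
    ∑ j, κ j = 6 * ((Fintype.card (SL(2, ℤ) ⧸ Γ) : ℤ) - numCusps Γ) := by
  obtain ⟨c, hc, hz⟩ := hd
  set K : ℕ := (∑ j, κ j).toNat with hK
  set B : ℝ := ∑ x, expo (sig Γ) x with hB
  have hKnn : 0 ≤ ∑ j, κ j := Finset.sum_nonneg fun j _ => weight_nonneg hb j
  have hKint : ((K : ℤ)) = ∑ j, κ j := Int.toNat_of_nonneg hKnn
  have hdet : Tendsto (fun z : ℍ => (fundMatrix Γ κ φ z).det *
      Complex.exp (-(2 * π * Complex.I * ((B : ℝ) : ℂ) * (z : ℂ)))) atImInfty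
      (𝓝 ((dft (sig Γ)).det⁻¹ * (leadCoeff (sig Γ) (fundMatrix Γ κ φ)).det)) :=
    tendsto_det_mul_cexp (fund_hol hb) (fund_bdd hb) (fund_tw hb)
  set L : ℂ := (dft (sig Γ)).det⁻¹ * (leadCoeff (sig Γ) (fundMatrix Γ κ φ)).det with hL
  have hLne : L ≠ 0 := mul_ne_zero (inv_ne_zero (det_dft_ne_zero _)) hlead
  have hu1 : Tendsto (fun z : ℍ => Δ z * Complex.exp (-(2 * π * Complex.I * (z : ℂ))))
      atImInfty (𝓝 1) := tendsto_discriminant_mul_cexp
  have hune : ∀ z : ℍ, Δ z * Complex.exp (-(2 * π * Complex.I * (z : ℂ))) ≠ 0 := fun z =>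
    mul_ne_zero (ModularForm.discriminant_ne_zero z) (Complex.exp_ne_zero _)
  have key : ∀ z : ℍ, Complex.exp (2 * π * Complex.I * (((K : ℝ) - 12 * B : ℝ) : ℂ) * (z : ℂ)) =
      ((fundMatrix Γ κ φ z).det * Complex.exp (-(2 * π * Complex.I * ((B : ℝ) : ℂ) * (z : ℂ)))) ^ 12
        / (c * (Δ z * Complex.exp (-(2 * π * Complex.I * (z : ℂ)))) ^ K) := by
    intro z
    have hu' : (Δ z * Complex.exp (-(2 * π * Complex.I * (z : ℂ)))) ^ K =
        Δ z ^ K * Complex.exp ((K : ℂ) * -(2 * π * Complex.I * (z : ℂ))) := by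
      rw [mul_pow, ← Complex.exp_nat_mul]
    have hd' : ((fundMatrix Γ κ φ z).det *
        Complex.exp (-(2 * π * Complex.I * ((B : ℝ) : ℂ) * (z : ℂ)))) ^ 12 =
        c * Δ z ^ K *
          Complex.exp (((12 : ℕ) : ℂ) * -(2 * π * Complex.I * ((B : ℝ) : ℂ) * (z : ℂ))) := by
      rw [mul_pow, hz z, ← Complex.exp_nat_mul]
    have h1 : Complex.exp (2 * π * Complex.I * (((K : ℝ) - 12 * B : ℝ) : ℂ) * (z : ℂ)) *
        Complex.exp ((K : ℂ) * -(2 * π * Complex.I * (z : ℂ))) =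
        Complex.exp (((12 : ℕ) : ℂ) * -(2 * π * Complex.I * ((B : ℝ) : ℂ) * (z : ℂ))) := by
      rw [← Complex.exp_add]
      congr 1
      push_cast
      ring
    rw [eq_div_iff (mul_ne_zero hc (pow_ne_zero _ (hune z))), hu', hd', ← h1]
    ring
  have hlim : Tendsto (fun z : ℍ =>
      Complex.exp (2 * π * Complex.I * (((K : ℝ) - 12 * B : ℝ) : ℂ) * (z : ℂ))) atImInfty
      (𝓝 (L ^ 12 / (c * 1 ^ K))) := by
    have h1 := (hdet.pow 12).div ((hu1.pow K).const_mul c) (by simp [hc])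
    refine h1.congr fun z => ?_
    rw [key z]
    rfl
  have hzero := eq_zero_of_tendsto_cexp (div_ne_zero (pow_ne_zero _ hLne) (by simp [hc])) hlim
  have hBval : B = ((Fintype.card (SL(2, ℤ) ⧸ Γ) : ℝ) - (numCusps Γ : ℝ)) / 2 := by
    rw [hB, sum_expo, numCycles_sig]
  have hreal : ((∑ j, κ j : ℤ) : ℝ) =
      6 * ((Fintype.card (SL(2, ℤ) ⧸ Γ) : ℝ) - (numCusps Γ : ℝ)) := by
    rw [← hKint]
    push_cast
    rw [hBval] at hzero
    linarith
  exact_mod_cast hreal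

/-- Cuspidality of `Δ · Φ⁻¹`, assuming the leading coefficient matrix is invertible. -/
theorem isZeroAtImInfty_of_leadCoeff (hb : IsHomBasis Γ κ φ)
    (hlead : (leadCoeff (sig Γ) (fundMatrix Γ κ φ)).det ≠ 0) (j x : SL(2, ℤ) ⧸ Γ) :
    IsZeroAtImInfty (fun z : ℍ => Δ z * (fundMatrix Γ κ φ z)⁻¹ j x) :=
  isZeroAtImInfty_mul_inv (fund_hol hb) (fund_bdd hb) (fund_tw hb) hlead discriminant_isBigO j x

end Fermat.Agent.S20.AtInftyWire
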