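import Fermat.Agent.S20.LevelOne

/-! S20 package P3a: a separating form forces rank `≥ μ` and generic
invertibility of the fundamental matrix (Vandermonde argument). -/

set_option autoImplicit false

open UpperHalfPlane ModularForm CongruenceSubgroup
open scoped MatrixGroups Manifold ModularForm

namespace Fermat.Agent.S20

local notation "Δ" => ModularForm.discriminant

variable {Γ : Subgroup SL(2, ℤ)}

/-- A finite product of holomorphic functions on `ℍ` is holomorphic. -/
private lemma mdiff_finset_prod {ι : Type*} (s : Finset ι) (F : ι → ℍ → ℂ)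
    (hF : ∀ i ∈ s, MDiff (F i)) : MDiff (∏ i ∈ s, F i) := by
  classical
  induction s using Finset.induction_on with
  | empty =>
    simp only [Finset.prod_empty]
    exact (mdifferentiable_const : MDiff (fun _ : ℍ => (1 : ℂ)))
  | insert i s hi ih =>
    rw [Finset.prod_insert hi]
    exact (hF i (Finset.mem_insert_self i s)).mul
      (ih fun j hj => hF j (Finset.mem_insert_of_mem hj))

/-- A finite product of nonzero holomorphic functions on `ℍ` is nonzero. -/
private lemma finset_prod_ne_zero_of_mdiff {ι : Type*} (s : Finset ι) (F : ι → ℍ → ℂ)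
    (hF : ∀ i ∈ s, MDiff (F i)) (hne : ∀ i ∈ s, F i ≠ 0) : ∏ i ∈ s, F i ≠ 0 := by
  classical
  induction s using Finset.induction_on with
  | empty =>
    simp only [Finset.prod_empty]
    intro h
    have := congrFun h UpperHalfPlane.I
    simp at this
  | insert i s hi ih =>
    rw [Finset.prod_insert hi]
    intro h
    rcases eq_zero_or_eq_zero_of_mul_eq_zero (hF i (Finset.mem_insert_self i s))
      (mdiff_finset_prod s F fun j hj => hF j (Finset.mem_insert_of_mem hj)) h with h1 | h1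
    · exact hne i (Finset.mem_insert_self i s) h1
    · exact ih (fun j hj => hF j (Finset.mem_insert_of_mem hj))
        (fun j hj => hne j (Finset.mem_insert_of_mem hj)) h1

/-- If `g` has stabiliser exactly `Γ`, its conjugates take pairwise distinct values at some point. -/
theorem exists_injective_comp [Γ.FiniteIndex] {k : ℤ} {g : ℍ → ℂ} (hg : g ∈ MFun Γ k)
    (hsep : ∀ σ : SL(2, ℤ), g ∣[k] σ = g → σ ∈ Γ) :
    ∃ z : ℍ, Function.Injective (fun x : SL(2, ℤ) ⧸ Γ => comp Γ k g x z) := by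
  classical
  have : Finite (SL(2, ℤ) ⧸ Γ) := Subgroup.finite_quotient_of_finiteIndex
  let _ : Fintype (SL(2, ℤ) ⧸ Γ) := Fintype.ofFinite _
  -- the conjugates are pairwise distinct as functions
  have hne : ∀ x y : SL(2, ℤ) ⧸ Γ, x ≠ y → comp Γ k g x - comp Γ k g y ≠ 0 := by
    intro x y hxy h
    apply hxy
    induction x using QuotientGroup.induction_on with
    | H σ =>
      induction y using QuotientGroup.induction_on with
      | H τ =>
        rw [comp_mk hg.2.1, comp_mk hg.2.1, sub_eq_zero] at h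
        have h2 : g ∣[k] (σ⁻¹ * τ) = g := by
          rw [SlashAction.slash_mul, h, ← SlashAction.slash_mul]
          simp
        exact QuotientGroup.eq.mpr (hsep _ h2)
  set s : Finset ((SL(2, ℤ) ⧸ Γ) × (SL(2, ℤ) ⧸ Γ)) :=
    (Finset.univ : Finset ((SL(2, ℤ) ⧸ Γ) × (SL(2, ℤ) ⧸ Γ))).filter (fun p => p.1 ≠ p.2) with hs
  have hP : ∏ p ∈ s, (comp Γ k g p.1 - comp Γ k g p.2) ≠ 0 :=
    finset_prod_ne_zero_of_mdiff s _
      (fun p _ => (mdiff_comp hg.1 p.1).sub (mdiff_comp hg.1 p.2))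
      (fun p hp => hne p.1 p.2 (by simpa [hs] using hp))
  obtain ⟨z, hz⟩ : ∃ z : ℍ, (∏ p ∈ s, (comp Γ k g p.1 - comp Γ k g p.2)) z ≠ 0 := by
    by_contra hcon
    exact hP (funext fun z => not_not.mp fun hz => hcon ⟨z, hz⟩)
  refine ⟨z, fun x y hxy => ?_⟩
  by_contra hne'
  apply hz
  rw [Finset.prod_apply]
  refine Finset.prod_eq_zero (i := (x, y)) (by simp [hs, hne']) ?_
  simpa [sub_eq_zero] using hxy

/-- Powers of a form. -/
private lemma pow_mem_MFun {k : ℤ} {g : ℍ → ℂ} (hg : g ∈ MFun Γ k) (n : ℕ) :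
    g ^ n ∈ MFun Γ (n * k) := by
  induction n with
  | zero => simpa using one_mem_MFun_zero Γ
  | succ n ih =>
    have := mul_mem_MFun ih hg
    rw [pow_succ]
    convert this using 2
    push_cast
    ring

/-- Components of powers. -/
private lemma comp_pow {k : ℤ} (g : ℍ → ℂ) (n : ℕ) (x : SL(2, ℤ) ⧸ Γ) :
    comp Γ (n * k) (g ^ n) x = comp Γ k g x ^ n := by
  induction n with
  | zero =>
    simp only [Nat.cast_zero, zero_mul, pow_zero]
    exact comp_of_top (one_mem_MFun_zero ⊤) x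
  | succ n ih =>
    have h : ((n + 1 : ℕ) : ℤ) * k = (n : ℤ) * k + k := by push_cast; ring
    rw [h, pow_succ, comp_mul, ih, pow_succ]

/-- The Vandermonde matrix of the conjugates of a form factors through the fundamental matrix. -/
private lemma exists_vandermonde_factor {J : Type} [Fintype J] {κ : J → ℤ} {φ : J → ℍ → ℂ}
    (hb : IsHomBasis Γ κ φ) {k : ℤ} {g : ℍ → ℂ} (hg : g ∈ MFun Γ k) (z : ℍ) (μ : ℕ) :
    ∃ A : Matrix J (Fin μ) ℂ, ∀ (x : SL(2, ℤ) ⧸ Γ) (n : Fin μ),
      comp Γ k g x z ^ (n : ℕ) = ∑ j, fundMatrix Γ κ φ z x j * A j n := by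
  have hspan : ∀ n : ℕ, ∃ a : J → ℍ → ℂ, (∀ j, a j ∈ MFun ⊤ ((n : ℤ) * k - κ j)) ∧
      g ^ n = ∑ j, a j * φ j := fun n => hb.span _ _ (pow_mem_MFun hg n)
  choose a ha1 ha2 using hspan
  refine ⟨Matrix.of fun j n => a n j z, fun x n => ?_⟩
  have h1 : comp Γ ((n : ℕ) * k) (g ^ (n : ℕ)) x = ∑ j, a n j * comp Γ (κ j) (φ j) x := by
    conv_lhs => rw [ha2 n]
    rw [comp_sum]
    refine Finset.sum_congr rfl fun j _ => ?_
    exact comp_mul_of_top (ha1 n j) (φ j) (by ring) x
  rw [comp_pow] at h1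
  have h2 := congrFun h1 z
  simp only [Pi.pow_apply, Finset.sum_apply, Pi.mul_apply] at h2
  rw [h2]
  refine Finset.sum_congr rfl fun j _ => ?_
  simp [fundMatrix, mul_comm]

/-- A homogeneous basis has at least `[SL(2,ℤ) : Γ]` elements. -/
theorem card_le_of_homBasis [Γ.FiniteIndex] [Fintype (SL(2, ℤ) ⧸ Γ)] {J : Type} [Fintype J]
    {κ : J → ℤ} {φ : J → ℍ → ℂ} (hb : IsHomBasis Γ κ φ) (hsep : HasSeparating Γ) :
    Fintype.card (SL(2, ℤ) ⧸ Γ) ≤ Fintype.card J := by
  classical
  obtain ⟨k, g, hg, hstab⟩ := hsep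
  obtain ⟨z, hz⟩ := exists_injective_comp hg hstab
  set μ := Fintype.card (SL(2, ℤ) ⧸ Γ) with hμ
  let e : (SL(2, ℤ) ⧸ Γ) ≃ Fin μ := Fintype.equivFin _
  obtain ⟨A, hA⟩ := exists_vandermonde_factor hb hg z μ
  set v : Fin μ → ℂ := fun i => comp Γ k g (e.symm i) z with hv
  have hvinj : Function.Injective v := fun i j hij => e.symm.injective (hz hij)
  have hdet : (Matrix.vandermonde v).det ≠ 0 := Matrix.det_vandermonde_ne_zero_iff.mpr hvinj
  have hfac : Matrix.vandermonde v = ((fundMatrix Γ κ φ z).submatrix e.symm id) * A := by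
    ext i n
    simp only [Matrix.vandermonde_apply, Matrix.mul_apply, Matrix.submatrix_apply, id_eq, hv]
    exact hA (e.symm i) n
  have hrank : (Matrix.vandermonde v).rank = μ := by
    rw [Matrix.rank_of_isUnit _ ((Matrix.isUnit_iff_isUnit_det _).mpr (Ne.isUnit hdet))]
    simp
  calc μ = (Matrix.vandermonde v).rank := hrank.symm
    _ = (((fundMatrix Γ κ φ z).submatrix e.symm id) * A).rank := by rw [hfac]
    _ ≤ ((fundMatrix Γ κ φ z).submatrix e.symm id).rank := Matrix.rank_mul_le_left _ _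
    _ ≤ Fintype.card J := Matrix.rank_le_card_width _

/-- For a homogeneous basis indexed by the cosets the fundamental matrix is invertible at some
point. -/
theorem exists_det_ne_zero [Γ.FiniteIndex] [Fintype (SL(2, ℤ) ⧸ Γ)] [DecidableEq (SL(2, ℤ) ⧸ Γ)]
    {κ : SL(2, ℤ) ⧸ Γ → ℤ} {φ : SL(2, ℤ) ⧸ Γ → ℍ → ℂ} (hb : IsHomBasis Γ κ φ)
    (hsep : HasSeparating Γ) : ∃ z : ℍ, (fundMatrix Γ κ φ z).det ≠ 0 := by
  obtain ⟨k, g, hg, hstab⟩ := hsep
  obtain ⟨z, hz⟩ := exists_injective_comp hg hstab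
  refine ⟨z, ?_⟩
  set μ := Fintype.card (SL(2, ℤ) ⧸ Γ) with hμ
  let e : (SL(2, ℤ) ⧸ Γ) ≃ Fin μ := Fintype.equivFin _
  obtain ⟨A, hA⟩ := exists_vandermonde_factor hb hg z μ
  set v : Fin μ → ℂ := fun i => comp Γ k g (e.symm i) z with hv
  have hvinj : Function.Injective v := fun i j hij => e.symm.injective (hz hij)
  have hdet : (Matrix.vandermonde v).det ≠ 0 := Matrix.det_vandermonde_ne_zero_iff.mpr hvinj
  have hfac : Matrix.vandermonde v =
      ((fundMatrix Γ κ φ z).submatrix e.symm e.symm) * (A.submatrix e.symm id) := by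
    ext i n
    rw [Matrix.submatrix_mul_equiv]
    simp only [Matrix.vandermonde_apply, Matrix.mul_apply, Matrix.submatrix_apply, id_eq, hv]
    exact hA (e.symm i) n
  intro h0
  apply hdet
  rw [hfac, Matrix.det_mul, Matrix.det_submatrix_equiv_self, h0, zero_mul]

end Fermat.Agent.S20
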