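import Fermat.Agent.S20.Koszul
import Fermat.Agent.S20.Bridge
import Fermat.Agent.S20.Generic

/-! S20 package P2b: existence of a free homogeneous basis indexed by the cosets. -/

set_option autoImplicit false

open UpperHalfPlane ModularForm CongruenceSubgroup
open scoped MatrixGroups Manifold ModularForm

namespace Fermat.Agent.S20

local notation "Δ" => ModularForm.discriminant
set_option quotPrecheck false in
local notation "e4" => (⇑ModularForm.E₄ : ℍ → ℂ)
set_option quotPrecheck false in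
local notation "e6" => (⇑ModularForm.E₆ : ℍ → ℂ)

variable {Γ : Subgroup SL(2, ℤ)}

/-- The decomposable part of weight `k`: `E₄ · M_(k-4) + E₆ · M_(k-6)`. -/
noncomputable def decomposable (Γ : Subgroup SL(2, ℤ)) (k : ℤ) : Submodule ℂ (ℍ → ℂ) :=
  (MFun Γ (k - 4)).map (LinearMap.mulLeft ℂ e4) ⊔ (MFun Γ (k - 6)).map (LinearMap.mulLeft ℂ e6)

lemma mem_decomposable_iff {k : ℤ} {f : ℍ → ℂ} : f ∈ decomposable Γ k ↔
    ∃ u ∈ MFun Γ (k - 4), ∃ v ∈ MFun Γ (k - 6), f = e4 * u + e6 * v := by
  unfold decomposable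
  rw [Submodule.mem_sup]
  constructor
  · rintro ⟨y, ⟨u, hu, rfl⟩, z, ⟨v, hv, rfl⟩, rfl⟩
    exact ⟨u, hu, v, hv, rfl⟩
  · rintro ⟨u, hu, v, hv, rfl⟩
    exact ⟨_, ⟨u, hu, rfl⟩, _, ⟨v, hv, rfl⟩, rfl⟩

lemma decomposable_le (k : ℤ) : decomposable Γ k ≤ MFun Γ k := by
  intro f hf
  obtain ⟨u, hu, v, hv, rfl⟩ := mem_decomposable_iff.mp hf
  exact add_mem (mul_mem_MFun' E4_mem hu (by ring)) (mul_mem_MFun' E6_mem hv (by ring))

/-- Generators of `⨁ MFun Γ k` modulo the decomposable part, weight by weight. -/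
structure GenData (Γ : Subgroup SL(2, ℤ)) where
  d : ℤ → ℕ
  b : (k : ℤ) → Fin (d k) → ℍ → ℂ
  mem : ∀ k i, b k i ∈ MFun Γ k
  indep : ∀ k (c : Fin (d k) → ℂ), ∑ i, c i • b k i ∈ decomposable Γ k → c = 0
  span : ∀ k, ∀ f ∈ MFun Γ k, ∃ c : Fin (d k) → ℂ, f - ∑ i, c i • b k i ∈ decomposable Γ k

theorem exists_genData (hfin : ∀ k : ℤ, FiniteDimensional ℂ (MFun Γ k)) :
    Nonempty (GenData Γ) := by
  classical
  have key : ∀ k : ℤ, ∃ (d : ℕ) (b : Fin d → ℍ → ℂ), (∀ i, b i ∈ MFun Γ k) ∧
      (∀ c : Fin d → ℂ, ∑ i, c i • b i ∈ decomposable Γ k → c = 0) ∧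
      (∀ f ∈ MFun Γ k, ∃ c : Fin d → ℂ, f - ∑ i, c i • b i ∈ decomposable Γ k) := by
    intro k
    have := hfin k
    let P : Submodule ℂ (MFun Γ k) := (decomposable Γ k).comap (MFun Γ k).subtype
    have hPmem : ∀ x : MFun Γ k, x ∈ P ↔ (x : ℍ → ℂ) ∈ decomposable Γ k := fun x => Iff.rfl
    let B := Module.finBasis ℂ ((MFun Γ k) ⧸ P)
    have hsurj := Submodule.mkQ_surjective P
    choose lift hlift using fun i => hsurj (B i)
    refine ⟨_, fun i => (lift i : ℍ → ℂ), fun i => (lift i).2, ?_, ?_⟩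
    · intro c hc
      have h1 : P.mkQ (∑ i, c i • lift i) = 0 := by
        rw [Submodule.mkQ_apply, Submodule.Quotient.mk_eq_zero, hPmem]
        simpa using hc
      have h2 : ∑ i, c i • B i = 0 := by
        simpa [map_sum, hlift] using h1
      have h3 := Fintype.linearIndependent_iff.mp B.linearIndependent c h2
      funext i; exact h3 i
    · intro f hf
      refine ⟨fun i => B.repr (P.mkQ ⟨f, hf⟩) i, ?_⟩
      have h1 : P.mkQ (⟨f, hf⟩ - ∑ i, B.repr (P.mkQ ⟨f, hf⟩) i • lift i) = 0 := by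
        rw [map_sub, map_sum]
        simp only [map_smul, hlift, B.sum_repr, sub_self]
      rw [Submodule.mkQ_apply, Submodule.Quotient.mk_eq_zero, hPmem] at h1
      simpa using h1
  choose d b h1 h2 h3 using key
  exact ⟨⟨d, b, h1, h2, h3⟩⟩

/-- Induction on `ℤ` for predicates that hold trivially in negative degrees. -/
theorem int_induction_of_neg {P : ℤ → Prop} (h0 : ∀ k < 0, P k)
    (h : ∀ k, 0 ≤ k → (∀ k' < k, P k') → P k) : ∀ k, P k := by
  have key : ∀ n : ℕ, ∀ k : ℤ, k < n → P k := by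
    intro n
    induction n with
    | zero => intro k hk; exact h0 k (by simpa using hk)
    | succ n ih =>
      intro k hk
      rcases lt_or_ge k 0 with hk0 | hk0
      · exact h0 k hk0
      · exact h k hk0 (fun k' hk' => ih k' (by push_cast at hk; omega))
  intro k
  exact key (k.toNat + 1) k (by push_cast; omega)

lemma E6_pow_mem (n : ℕ) : e6 ^ n ∈ MFun ⊤ (6 * (n : ℤ)) := by
  induction n with
  | zero => simpa using one_mem_MFun_zero ⊤
  | succ n ih =>
    rw [pow_succ]
    exact mul_mem_MFun' ih E6_mem (by push_cast; ring)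

namespace GenData

variable (D : GenData Γ)

/-- Index type of the generators. -/
abbrev J : Type := Σ k : ℤ, Fin (D.d k)

/-- Weight of a generator. -/
def κ (j : D.J) : ℤ := j.1

/-- The generators. -/
def φ (j : D.J) : ℍ → ℂ := D.b j.1 j.2

lemma φ_mem (j : D.J) : D.φ j ∈ MFun Γ (D.κ j) := D.mem _ _

/-- The combination map `a ↦ ∑ j, a j * φ j`. -/
noncomputable def L : (D.J →₀ (ℍ → ℂ)) →ₗ[ℂ] (ℍ → ℂ) :=
  Finsupp.lsum ℂ (fun j => LinearMap.mulRight ℂ (D.φ j))

lemma L_apply (a : D.J →₀ (ℍ → ℂ)) : D.L a = a.sum (fun j aj => aj * D.φ j) := by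
  unfold L
  rw [Finsupp.lsum_apply]
  rfl

lemma L_single (j : D.J) (x : ℍ → ℂ) : D.L (Finsupp.single j x) = x * D.φ j := by
  simp [L_apply]

lemma L_mapRange (h : ℍ → ℂ) (a : D.J →₀ (ℍ → ℂ)) :
    D.L (Finsupp.mapRange.linearMap (LinearMap.mulLeft ℂ h) a) = h * D.L a := by
  have : D.L ∘ₗ (Finsupp.mapRange.linearMap (LinearMap.mulLeft ℂ h)) =
      (LinearMap.mulLeft ℂ h) ∘ₗ D.L := by
    apply Finsupp.lhom_ext
    intro j x
    rw [LinearMap.comp_apply, LinearMap.comp_apply, Finsupp.mapRange.linearMap_apply,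
      Finsupp.mapRange_single, L_single, L_single, LinearMap.mulLeft_apply,
      LinearMap.mulLeft_apply, mul_assoc]
  exact congrArg (fun F => F a) this

lemma L_mem {k : ℤ} (a : D.J →₀ (ℍ → ℂ)) (ha : ∀ j, a j ∈ MFun ⊤ (k - D.κ j)) :
    D.L a ∈ MFun Γ k := by
  rw [L_apply]
  exact Submodule.sum_mem _ fun j _ => mul_mem_MFun' (ha j) (D.φ_mem j) (by ring)

/-- Generation. -/
theorem gen [Γ.FiniteIndex] : ∀ k : ℤ, ∀ f ∈ MFun Γ k,
    ∃ a : D.J →₀ (ℍ → ℂ), (∀ j, a j ∈ MFun ⊤ (k - D.κ j)) ∧ D.L a = f := by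
  classical
  apply int_induction_of_neg
  · intro k hk f hf
    rw [MFun_eq_bot_of_neg hk, Submodule.mem_bot] at hf
    exact ⟨0, fun j => by simp, by simp [hf]⟩
  · intro k _ ih f hf
    obtain ⟨c, hc⟩ := D.span k f hf
    obtain ⟨u, hu, v, hv, huv⟩ := mem_decomposable_iff.mp hc
    obtain ⟨au, hau1, hau2⟩ := ih (k - 4) (by omega) u hu
    obtain ⟨av, hav1, hav2⟩ := ih (k - 6) (by omega) v hv
    refine ⟨∑ i, Finsupp.single (⟨k, i⟩ : D.J) (c i • (1 : ℍ → ℂ)) +
      Finsupp.mapRange.linearMap (LinearMap.mulLeft ℂ e4) au +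
      Finsupp.mapRange.linearMap (LinearMap.mulLeft ℂ e6) av, ?_, ?_⟩
    · intro j
      simp only [Finsupp.coe_add, Pi.add_apply, Finsupp.coe_finsetSum, Finset.sum_apply,
        Finsupp.mapRange.linearMap_apply, Finsupp.mapRange_apply, LinearMap.mulLeft_apply]
      refine add_mem (add_mem (Submodule.sum_mem _ fun i _ => ?_) ?_) ?_
      · rw [Finsupp.single_apply]
        split_ifs with h
        · subst h
          have : k - D.κ ⟨k, i⟩ = 0 := by simp [κ]
          rw [this]
          exact Submodule.smul_mem _ _ (one_mem_MFun_zero ⊤)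
        · exact zero_mem _
      · exact mul_mem_MFun' E4_mem (hau1 j) (by ring)
      · exact mul_mem_MFun' E6_mem (hav1 j) (by ring)
    · rw [map_add, map_add, map_sum, L_mapRange, L_mapRange, hau2, hav2]
      simp only [L_single, smul_mul_assoc, one_mul]
      have : f = ∑ i, c i • D.b k i + (e4 * u + e6 * v) := by rw [← huv]; ring
      rw [this, add_assoc]
      rfl

/-- Relations with coefficients in `ℂ[E₆]` modulo `E₄`. -/
theorem rel (hnn : ∀ j : D.J, 0 ≤ D.κ j) : ∀ k : ℤ, ∀ (c : D.J →₀ ℂ) (n : D.J → ℕ),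
    (∀ j ∈ c.support, D.κ j + 6 * (n j : ℤ) = k) →
    (∃ m ∈ MFun Γ (k - 4), c.sum (fun j cj => cj • (e6 ^ n j * D.φ j)) = e4 * m) → c = 0 := by
  classical
  apply int_induction_of_neg
  · intro k hk c n hc _
    ext j
    by_contra hj
    have h1 := hc j (Finsupp.mem_support_iff.mpr hj)
    have h2 := hnn j
    omega
  · intro k _ ih c n hc hm
    obtain ⟨m, hm, hsum⟩ := hm
    set c0 := c.filter (fun j => n j = 0) with hc0
    set c1 := c.filter (fun j => ¬ n j = 0) with hc1
    have hsplit : c0 + c1 = c := Finsupp.filter_add_filter_not c _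
    have hc0supp : ∀ j ∈ c0.support, j ∈ c.support ∧ n j = 0 := by
      intro j hj
      rw [hc0, Finsupp.support_filter, Finset.mem_filter] at hj
      exact hj
    have hc1supp : ∀ j ∈ c1.support, j ∈ c.support ∧ n j ≠ 0 := by
      intro j hj
      rw [hc1, Finsupp.support_filter, Finset.mem_filter] at hj
      exact hj
    set g1 : ℍ → ℂ := c1.sum (fun j cj => cj • (e6 ^ (n j - 1) * D.φ j)) with hg1
    have hg1mem : g1 ∈ MFun Γ (k - 6) := by
      refine Submodule.sum_mem _ fun j hj => Submodule.smul_mem _ _ ?_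
      obtain ⟨hj1, hj2⟩ := hc1supp j hj
      have h3 := hc j hj1
      refine mul_mem_MFun' (E6_pow_mem _) (D.φ_mem j) ?_
      have : ((n j - 1 : ℕ) : ℤ) = (n j : ℤ) - 1 := by omega
      rw [this]; omega
    have h1 : c1.sum (fun j cj => cj • (e6 ^ n j * D.φ j)) = e6 * g1 := by
      rw [hg1, Finsupp.sum, Finsupp.sum, Finset.mul_sum]
      refine Finset.sum_congr rfl fun j hj => ?_
      obtain ⟨_, hj2⟩ := hc1supp j hj
      obtain ⟨p, hp⟩ := Nat.exists_eq_succ_of_ne_zero hj2
      rw [hp, Nat.succ_sub_one, pow_succ', mul_smul_comm, mul_assoc]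
    have h0 : c0.sum (fun j cj => cj • (e6 ^ n j * D.φ j)) = ∑ i, c0 ⟨k, i⟩ • D.b k i := by
      have hs : c0.support ⊆ Finset.univ.map
          ⟨fun i : Fin (D.d k) => (⟨k, i⟩ : D.J), fun i i' h => by simpa using h⟩ := by
        intro j hj
        obtain ⟨hj1, hj2⟩ := hc0supp j hj
        have h3 := hc j hj1
        rw [hj2] at h3
        obtain ⟨k', i'⟩ := j
        have h4 : k' = k := by simpa [κ] using h3
        subst h4
        rw [Finset.mem_map]
        exact ⟨i', Finset.mem_univ _, rfl⟩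
      rw [Finsupp.sum_of_support_subset c0 hs _ (fun i _ => by simp), Finset.sum_map]
      refine Finset.sum_congr rfl fun i _ => ?_
      show c0 ⟨k, i⟩ • (e6 ^ n ⟨k, i⟩ * D.φ ⟨k, i⟩) = c0 ⟨k, i⟩ • D.b k i
      by_cases hi : c0 ⟨k, i⟩ = 0
      · simp [hi]
      · obtain ⟨_, hi2⟩ := hc0supp _ (Finsupp.mem_support_iff.mpr hi)
        rw [hi2, pow_zero, one_mul]
        rfl
    have hsum' : ∑ i, c0 ⟨k, i⟩ • D.b k i + e6 * g1 = e4 * m := by
      rw [← h0, ← h1, ← hsum, ← hsplit]
      rw [Finsupp.sum_add_index' (by intro j; simp) (by intro j x y; simp [add_smul])]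
    have hzero : (fun i => c0 ⟨k, i⟩) = 0 := by
      apply D.indep k
      rw [mem_decomposable_iff]
      refine ⟨m, hm, -g1, neg_mem hg1mem, ?_⟩
      rw [← hsum']; ring
    have hc0z : c0 = 0 := by
      ext j
      by_contra hj
      obtain ⟨hj1, hj2⟩ := hc0supp j (Finsupp.mem_support_iff.mpr hj)
      have h3 := hc j hj1
      rw [hj2] at h3
      obtain ⟨k', i'⟩ := j
      have h4 : k' = k := by simpa [κ] using h3
      subst h4
      exact hj (congrFun hzero i')
    have hkos : e6 * g1 = e4 * m := by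
      rw [← hsum', hc0z]; simp
    obtain ⟨u, hu, hgu⟩ := koszul hg1mem (by rwa [show k - 6 + 2 = k - 4 by ring]) hkos
    have hc1z : c1 = 0 := by
      refine ih (k - 6) (by omega) c1 (fun j => n j - 1) ?_ ⟨u, hu, hgu⟩
      intro j hj
      obtain ⟨hj1, hj2⟩ := hc1supp j hj
      have h3 := hc j hj1
      have : ((n j - 1 : ℕ) : ℤ) = (n j : ℤ) - 1 := by omega
      rw [this]; omega
    rw [← hsplit, hc0z, hc1z, add_zero]

/-- Independence. -/
theorem ind (hnn : ∀ j : D.J, 0 ≤ D.κ j) : ∀ k : ℤ, ∀ a : D.J →₀ (ℍ → ℂ),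
    (∀ j, a j ∈ MFun ⊤ (k - D.κ j)) → D.L a = 0 → a = 0 := by
  classical
  apply int_induction_of_neg
  · intro k hk a ha _
    ext1 j
    have h1 := ha j
    rw [MFun_top_eq_bot_of_neg (by have := hnn j; omega), Submodule.mem_bot] at h1
    simpa using h1
  · intro k _ ih a ha hL
    choose c n a' h1 h2 h3 using fun j => exists_decomp_level_one (ha j)
    let cF : D.J →₀ ℂ := Finsupp.onFinset a.support (fun j => if j ∈ a.support then c j else 0)
      (by intro j hj; by_contra h; simp [h] at hj)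
    let aF : D.J →₀ (ℍ → ℂ) := Finsupp.onFinset a.support
      (fun j => if j ∈ a.support then a' j else 0)
      (by intro j hj; by_contra h; simp [h] at hj)
    have hcF : ∀ j, cF j = if j ∈ a.support then c j else 0 := fun j => rfl
    have haF : ∀ j, aF j = if j ∈ a.support then a' j else 0 := fun j => rfl
    have hdec : ∀ j, a j = cF j • e6 ^ n j + e4 * aF j := by
      intro j
      rw [hcF, haF]
      split_ifs with hj
      · exact h3 j
      · simp [Finsupp.notMem_support_iff.mp hj]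
    have haFmem : ∀ j, aF j ∈ MFun ⊤ (k - 4 - D.κ j) := by
      intro j
      rw [haF]
      split_ifs
      · have h := h1 j
        rwa [show k - D.κ j - 4 = k - 4 - D.κ j by ring] at h
      · exact zero_mem _
    have hcFsupp : ∀ j ∈ cF.support, D.κ j + 6 * (n j : ℤ) = k := by
      intro j hj
      have hne : cF j ≠ 0 := Finsupp.mem_support_iff.mp hj
      rw [hcF] at hne
      split_ifs at hne with hj'
      · have h := h2 j hne
        omega
      · exact absurd rfl hne
    have hkey : cF.sum (fun j cj => cj • (e6 ^ n j * D.φ j)) = e4 * (-(D.L aF)) := by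
      have e1 : D.L a = cF.sum (fun j cj => cj • (e6 ^ n j * D.φ j)) + e4 * D.L aF := by
        rw [L_apply, L_apply, Finsupp.sum,
          Finsupp.sum_of_support_subset cF (s := a.support) Finsupp.support_onFinset_subset _
            (by simp),
          Finsupp.sum_of_support_subset aF (s := a.support) Finsupp.support_onFinset_subset _
            (by simp),
          Finset.mul_sum, ← Finset.sum_add_distrib]
        refine Finset.sum_congr rfl fun j _ => ?_
        rw [hdec j]
        simp only [add_mul, smul_mul_assoc, mul_assoc]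
      rw [hL] at e1
      rw [mul_neg]
      exact eq_neg_of_add_eq_zero_left e1.symm
    have hcz : cF = 0 :=
      D.rel hnn k cF n hcFsupp ⟨-(D.L aF), neg_mem (D.L_mem aF haFmem), hkey⟩
    have hLa : e4 * D.L aF = 0 := by
      have h := hkey
      rw [hcz] at h
      simpa using h.symm
    have hLz : D.L aF = 0 := E4_mul_eq_zero (D.L_mem aF haFmem).1 hLa
    have haFz : aF = 0 := ih (k - 4) (by omega) aF haFmem hLz
    ext1 j
    rw [hdec j, hcz, haFz]
    simp

/-- Any finite set of generators has at most `[SL(2,ℤ) : Γ]` elements (Sturm-type count). -/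
theorem card_le (hnn : ∀ j : D.J, 0 ≤ D.κ j) (hev : ∀ j : D.J, Even (D.κ j))
    (hfin : ∀ k : ℤ, FiniteDimensional ℂ (MFun Γ k) ∧
      Module.finrank ℂ (MFun Γ k) ≤ (k * Γ.index).toNat / 12 + 1)
    (s : Finset D.J) : s.card ≤ Γ.index := by
  classical
  by_contra hlt
  rw [not_le] at hlt
  set S : ℕ := ∑ j ∈ s, (D.κ j).toNat with hS
  set t : ℕ := 2 + S with ht
  set k : ℤ := 12 * (t : ℤ) with hk
  let Ψ : (Π j : s, MFun ⊤ (k - D.κ j)) →ₗ[ℂ] MFun Γ k :=
    { toFun := fun x => ⟨∑ j : s, (x j : ℍ → ℂ) * D.φ j,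
        Submodule.sum_mem _ fun j _ => mul_mem_MFun' (x j).2 (D.φ_mem j) (by ring)⟩
      map_add' := by
        intro x y
        ext1
        simp [add_mul, Finset.sum_add_distrib]
      map_smul' := by
        intro c x
        ext1
        simp [Finset.smul_sum] }
  have hΨ : ∀ x, ((Ψ x : MFun Γ k) : ℍ → ℂ) = ∑ j : s, (x j : ℍ → ℂ) * D.φ j := fun x => rfl
  have hinj : Function.Injective Ψ := by
    rw [← LinearMap.ker_eq_bot, LinearMap.ker_eq_bot']
    intro x hx
    let a : D.J →₀ (ℍ → ℂ) := Finsupp.onFinset s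
      (fun j => if h : j ∈ s then (x ⟨j, h⟩ : ℍ → ℂ) else 0)
      (by intro j hj; by_contra h; simp [h] at hj)
    have haj : ∀ j, a j = if h : j ∈ s then (x ⟨j, h⟩ : ℍ → ℂ) else 0 := fun j => rfl
    have ha : ∀ j, a j ∈ MFun ⊤ (k - D.κ j) := by
      intro j
      rw [haj]
      split_ifs with h
      · exact (x ⟨j, h⟩).2
      · exact zero_mem _
    have hLa : D.L a = 0 := by
      rw [L_apply, Finsupp.sum_of_support_subset a (s := s) Finsupp.support_onFinset_subset _
        (by simp), ← Finset.sum_attach]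
      have h0 : ((Ψ x : MFun Γ k) : ℍ → ℂ) = 0 := by rw [hx]; rfl
      rw [hΨ] at h0
      rw [← h0]
      refine Finset.sum_congr rfl fun j _ => ?_
      rw [haj, dif_pos j.2]
    have haz := D.ind hnn k a ha hLa
    ext1 j
    apply Subtype.ext
    have h1 : a j.1 = 0 := by rw [haz]; rfl
    rw [haj, dif_pos j.2] at h1
    exact h1
  have hle : ∑ j : s, Module.finrank ℂ (MFun ⊤ (k - D.κ j)) ≤ (k * Γ.index).toNat / 12 + 1 := by
    have := (hfin k).1
    calc ∑ j : s, Module.finrank ℂ (MFun ⊤ (k - D.κ j))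
        = Module.finrank ℂ (Π j : s, MFun ⊤ (k - D.κ j)) := (Module.finrank_pi_fintype ℂ).symm
      _ ≤ Module.finrank ℂ (MFun Γ k) := LinearMap.finrank_le_finrank_of_injective hinj
      _ ≤ _ := (hfin k).2
  have hκle : ∀ j ∈ s, (D.κ j).toNat ≤ S := fun j hj =>
    Finset.single_le_sum (f := fun j => (D.κ j).toNat) (fun _ _ => Nat.zero_le _) hj
  have hterm : ∀ j ∈ s, t - (D.κ j).toNat ≤ Module.finrank ℂ (MFun ⊤ (k - D.κ j)) := by
    intro j hj
    have h1 : D.κ j = ((D.κ j).toNat : ℤ) := (Int.toNat_of_nonneg (hnn j)).symm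
    have h2 := hκle j hj
    have hcast : k - D.κ j = ((12 * t - (D.κ j).toNat : ℕ) : ℤ) := by
      rw [Nat.cast_sub (by omega)]
      push_cast
      omega
    have hev' : Even (12 * t - (D.κ j).toNat) := by
      have h3 : Even (D.κ j).toNat := by
        have := hev j
        rw [h1] at this
        exact (Int.even_coe_nat _).mp this
      rw [Nat.even_sub (by omega)]
      exact ⟨fun _ => h3, fun _ => ⟨6 * t, by ring⟩⟩
    rw [hcast, finrank_MFun_top _ hev']
    split_ifs <;> omega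
  have hsum1 : ∑ j ∈ s, (t - (D.κ j).toNat) ≤ (k * Γ.index).toNat / 12 + 1 := by
    refine le_trans ?_ hle
    rw [← Finset.sum_attach]
    exact Finset.sum_le_sum fun j _ => hterm j.1 j.2
  have hsum2 : ∑ j ∈ s, (t - (D.κ j).toNat) + S = s.card * t := by
    rw [hS, ← Finset.sum_add_distrib, Finset.card_eq_sum_ones, Finset.sum_mul]
    refine Finset.sum_congr rfl fun j hj => ?_
    have := hκle j hj
    omega
  have hidx : (k * Γ.index).toNat / 12 = t * Γ.index := by
    have : k * (Γ.index : ℤ) = ((12 * (t * Γ.index) : ℕ) : ℤ) := by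
      rw [hk]; push_cast; ring
    rw [this, Int.toNat_natCast, Nat.mul_div_cancel_left _ (by norm_num)]
  rw [hidx] at hsum1
  have h3 : (Γ.index + 1) * t ≤ s.card * t := Nat.mul_le_mul_right t hlt
  have h4 : (Γ.index + 1) * t = t * Γ.index + t := by ring
  omega

end GenData

lemma IsHomBasis.reindex {J J' : Type} [Fintype J] [Fintype J'] {κ : J → ℤ} {φ : J → ℍ → ℂ}
    (hb : IsHomBasis Γ κ φ) (e : J' ≃ J) : IsHomBasis Γ (κ ∘ e) (φ ∘ e) where
  mem j := hb.mem (e j)
  span k f hf := by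
    obtain ⟨a, ha, rfl⟩ := hb.span k f hf
    exact ⟨a ∘ e, fun j => ha (e j), (Equiv.sum_comp e (fun j => a j * φ j)).symm⟩
  indep k a ha h := by
    have h1 : ∑ j, (a ∘ e.symm) j * φ j = 0 := by
      rw [← h, ← Equiv.sum_comp e]
      simp
    have h2 := hb.indep k (a ∘ e.symm) (fun j => by simpa using ha (e.symm j)) h1
    intro j
    simpa using h2 (e j)

/-- If `-1 ∈ Γ`, the graded pieces are finite-dimensional with the Sturm-type bound, and there is
a form whose stabiliser is exactly `Γ`, then a homogeneous basis indexed by the cosets exists. -/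
theorem exists_homBasis [Γ.FiniteIndex] [Fintype (SL(2, ℤ) ⧸ Γ)] (hΓ : -1 ∈ Γ)
    (hfin : ∀ k : ℤ, FiniteDimensional ℂ (MFun Γ k) ∧
      Module.finrank ℂ (MFun Γ k) ≤ (k * Γ.index).toNat / 12 + 1)
    (hsep : HasSeparating Γ) :
    ∃ (κ : SL(2, ℤ) ⧸ Γ → ℤ) (φ : SL(2, ℤ) ⧸ Γ → ℍ → ℂ), IsHomBasis Γ κ φ := by
  classical
  obtain ⟨D⟩ := exists_genData (fun k => (hfin k).1)
  -- generators live in weights where the space is nonzero
  have hne : ∀ j : D.J, MFun Γ (D.κ j) ≠ ⊥ := by
    rintro ⟨k, i⟩ hbot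
    have h1 : D.b k i = 0 := by
      have := D.mem k i
      rwa [show MFun Γ k = ⊥ from hbot, Submodule.mem_bot] at this
    have h2 := D.indep k (Pi.single i 1) (by
      have : ∑ i', (Pi.single i (1 : ℂ) : Fin (D.d k) → ℂ) i' • D.b k i' = D.b k i := by
        rw [Finset.sum_eq_single i]
        · simp
        · intro i' _ hi'; simp [Pi.single_eq_of_ne hi']
        · intro h; exact absurd (Finset.mem_univ i) h
      rw [this, h1]
      exact zero_mem _)
    have h3 := congrFun h2 i
    simp at h3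
  have hnn : ∀ j : D.J, 0 ≤ D.κ j := by
    intro j
    by_contra h
    exact hne j (MFun_eq_bot_of_neg (by omega))
  have hev : ∀ j : D.J, Even (D.κ j) := by
    intro j
    by_contra h
    exact hne j (MFun_eq_bot_of_odd hΓ (Int.not_even_iff_odd.mp h))
  have hcard := D.card_le hnn hev hfin
  have hfinite : Finite D.J := by
    by_contra hinf
    rw [not_finite_iff_infinite] at hinf
    obtain ⟨s, hs⟩ := Infinite.exists_subset_card_eq D.J (Γ.index + 1)
    have := hcard s
    omega
  let _ : Fintype D.J := Fintype.ofFinite _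
  have hb : IsHomBasis Γ D.κ D.φ :=
    { mem := D.φ_mem
      span := by
        intro k f hf
        obtain ⟨a, ha, rfl⟩ := D.gen k f hf
        refine ⟨a, ha, ?_⟩
        rw [GenData.L_apply, Finsupp.sum_fintype _ _ (by simp)]
      indep := by
        intro k a ha h
        have h1 := D.ind hnn k (Finsupp.equivFunOnFinite.symm a) (fun j => by simpa using ha j)
          (by rw [GenData.L_apply, Finsupp.sum_fintype _ _ (by simp)]; simpa using h)
        intro j
        have := congrArg (fun F : D.J →₀ (ℍ → ℂ) => F j) h1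
        simpa using this }
  have h1 : Fintype.card D.J ≤ Γ.index := by
    have := hcard Finset.univ
    rwa [Finset.card_univ] at this
  have h2 : Fintype.card (SL(2, ℤ) ⧸ Γ) ≤ Fintype.card D.J := card_le_of_homBasis hb hsep
  have h3 : Γ.index = Fintype.card (SL(2, ℤ) ⧸ Γ) := by
    rw [Subgroup.index, Nat.card_eq_fintype_card]
  have e : SL(2, ℤ) ⧸ Γ ≃ D.J := Fintype.equivOfCardEq (by omega)
  exact ⟨D.κ ∘ e, D.φ ∘ e, hb.reindex e⟩

end Fermat.Agent.S20
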