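import Fermat.Agent.S20.Defs

/-!
# The fundamental matrix of a homogeneous basis is generically invertible

For a homogeneous basis `φ` (weights `κ`) of `⨁ₖ MFun Γ k` over the level-one forms, indexed by
the cosets `SL(2,ℤ) ⧸ Γ`, the determinant of the fundamental matrix is not identically zero.
The proof uses only the basis property (no separating form): the Gram matrix
`G = Φᵀ Φ = (Tr(φ_i φ_j))` has level-one entries; if `det G ≡ 0`, a McCoy-type argument
produces a nonzero kernel vector whose entries are homogeneous minors of `G`, hence level-one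
forms of the right weights; the corresponding form `h = ∑ c_j φ_j` is trace-orthogonal to
everything, so all power sums of its components vanish, so `h = 0`, contradicting independence.
-/

set_option autoImplicit false

open UpperHalfPlane ModularForm
open scoped MatrixGroups Manifold ModularForm

namespace Fermat.Agent.S20.DetNeZero

variable {Γ : Subgroup SL(2, ℤ)}

/-! ### Generalities on `MFun` -/

lemma one_mem_MFun_zero : (1 : ℍ → ℂ) ∈ MFun Γ 0 := by
  refine ⟨mdifferentiable_const, fun γ _ => is_invariant_one γ, fun γ => ?_⟩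
  rw [is_invariant_one γ]
  exact Filter.const_boundedAtFilter _ (1 : ℂ)

lemma pow_mem_MFun {k : ℤ} {f : ℍ → ℂ} (hf : f ∈ MFun Γ k) (n : ℕ) :
    f ^ n ∈ MFun Γ (n * k) := by
  induction n with
  | zero => simpa using one_mem_MFun_zero (Γ := Γ)
  | succ n ih =>
    have h := mul_mem_MFun ih hf
    have e : (n : ℤ) * k + k = ((n + 1 : ℕ) : ℤ) * k := by push_cast; ring
    rw [e] at h
    rwa [pow_succ]

lemma comp_one_fun (x : SL(2, ℤ) ⧸ Γ) : comp Γ 0 (1 : ℍ → ℂ) x = 1 := by
  unfold comp
  exact is_invariant_one _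

lemma comp_pow {k : ℤ} (f : ℍ → ℂ) (n : ℕ) (x : SL(2, ℤ) ⧸ Γ) :
    comp Γ (n * k) (f ^ n) x = comp Γ k f x ^ n := by
  induction n with
  | zero => simpa using comp_one_fun (Γ := Γ) x
  | succ n ih =>
    have e : ((n + 1 : ℕ) : ℤ) * k = (n : ℤ) * k + k := by push_cast; ring
    rw [e, pow_succ, comp_mul, ih, pow_succ]

lemma prod_mem_MFun_top {ι : Type*} (s : Finset ι) (k : ι → ℤ) (f : ι → ℍ → ℂ)
    (hf : ∀ i ∈ s, f i ∈ MFun ⊤ (k i)) : ∏ i ∈ s, f i ∈ MFun ⊤ (∑ i ∈ s, k i) := by
  classical
  induction s using Finset.induction_on with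
  | empty => simpa using one_mem_MFun_zero (Γ := ⊤)
  | insert a s ha ih =>
    rw [Finset.prod_insert ha, Finset.sum_insert ha]
    exact mul_mem_MFun (hf a (Finset.mem_insert_self a s))
      (ih fun i hi => hf i (Finset.mem_insert_of_mem hi))

/-- The trace of a form on `Γ` is a level-one form. -/
lemma trace_mem_MFun [Fintype (SL(2, ℤ) ⧸ Γ)] {k : ℤ} {f : ℍ → ℂ} (hf : f ∈ MFun Γ k) :
    ∑ x, comp Γ k f x ∈ MFun ⊤ k := by
  rw [mem_MFun_top_iff]
  refine ⟨?_, fun σ => ?_, ?_⟩
  · have : ∀ s : Finset (SL(2, ℤ) ⧸ Γ), MDiff (∑ x ∈ s, comp Γ k f x) := by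
      classical
      intro s
      induction s using Finset.induction_on with
      | empty =>
        rw [Finset.sum_empty]
        exact (mdifferentiable_const : MDiff (fun _ : ℍ => (0 : ℂ)))
      | insert a s ha ih =>
        rw [Finset.sum_insert ha]
        exact (mdiff_comp hf.1 a).add ih
    exact this _
  · rw [SlashAction.sum_slash]
    simp_rw [comp_slash hf.2.1]
    exact Fintype.sum_equiv (MulAction.toPerm σ⁻¹) _ _ (fun x => rfl)
  · have : ∀ s : Finset (SL(2, ℤ) ⧸ Γ), IsBoundedAtImInfty (∑ x ∈ s, comp Γ k f x) := by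
      classical
      intro s
      induction s using Finset.induction_on with
      | empty =>
        rw [Finset.sum_empty]
        exact zero_form_isBoundedAtImInfty
      | insert a s ha ih =>
        rw [Finset.sum_insert ha]
        exact (isBoundedAtImInfty_comp hf a).add ih
    exact this _

/-- The trace of a cusp form on `Γ` is a level-one cusp form. -/
lemma trace_mem_SFun [Fintype (SL(2, ℤ) ⧸ Γ)] {k : ℤ} {f : ℍ → ℂ} (hf : f ∈ SFun Γ k) :
    ∑ x, comp Γ k f x ∈ SFun ⊤ k := by
  have h := trace_mem_MFun (SFun_le_MFun hf)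
  rw [mem_MFun_top_iff] at h
  rw [mem_SFun_top_iff]
  refine ⟨h.1, h.2.1, ?_⟩
  have : ∀ s : Finset (SL(2, ℤ) ⧸ Γ), IsZeroAtImInfty (∑ x ∈ s, comp Γ k f x) := by
    classical
    intro s
    induction s using Finset.induction_on with
    | empty =>
      rw [Finset.sum_empty]
      exact Filter.zero_zeroAtFilter atImInfty
    | insert a s ha ih =>
      rw [Finset.sum_insert ha]
      exact (isZeroAtImInfty_comp hf a).add ih
  exact this _

/-- The trace pairing of two forms on `Γ` is a level-one form. -/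
lemma trace_mul_mem_MFun [Fintype (SL(2, ℤ) ⧸ Γ)] {k l : ℤ} {f g : ℍ → ℂ} (hf : f ∈ MFun Γ k)
    (hg : g ∈ MFun Γ l) : ∑ x, comp Γ k f x * comp Γ l g x ∈ MFun ⊤ (k + l) := by
  have h := trace_mem_MFun (mul_mem_MFun hf hg)
  simpa only [comp_mul] using h

/-! ### Homogeneous determinants -/

/-- The determinant of a matrix whose `(i, j)` entry is a level-one form of weight `a i + b j`
is a level-one form of weight `∑ a + ∑ b`. -/
lemma det_mem_MFun_top {n : Type*} [Fintype n] [DecidableEq n] (a b : n → ℤ)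
    (M : Matrix n n (ℍ → ℂ)) (hM : ∀ i j, M i j ∈ MFun ⊤ (a i + b j)) :
    M.det ∈ MFun ⊤ (∑ i, a i + ∑ i, b i) := by
  rw [Matrix.det_apply]
  refine Submodule.sum_mem _ fun σ _ => ?_
  have h1 : ∏ i, M (σ i) i ∈ MFun ⊤ (∑ i, a i + ∑ i, b i) := by
    have h := prod_mem_MFun_top Finset.univ (fun i => a (σ i) + b i) (fun i => M (σ i) i)
      (fun i _ => hM (σ i) i)
    have e : ∑ i, (a (σ i) + b i) = ∑ i, a i + ∑ i, b i := by
      rw [Finset.sum_add_distrib, Equiv.sum_comp σ a]
    rwa [e] at h
  rcases Int.units_eq_one_or (Equiv.Perm.sign σ) with h | h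
  · rw [h, one_smul]; exact h1
  · rw [h, Units.neg_smul, one_smul]; exact Submodule.neg_mem _ h1

/-! ### Vanishing of power sums -/

/-- If all power sums `∑ aᵢ ^ (n + 1)` of a finite family of complex numbers vanish, the family
is zero. -/
lemma eq_zero_of_pow_sums {ι : Type*} [Fintype ι] (a : ι → ℂ)
    (h : ∀ n : ℕ, ∑ i, a i ^ (n + 1) = 0) : ∀ i, a i = 0 := by
  classical
  by_contra hne
  simp only [not_forall] at hne
  obtain ⟨i0, hi0⟩ := hne
  set q : Polynomial ℂ :=
    ∏ b ∈ (Finset.univ.image a).erase (a i0), (Polynomial.X - Polynomial.C b) with hq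
  have key : ∑ i, a i * q.eval (a i) = 0 := by
    have h1 : ∀ i, a i * q.eval (a i) =
        ∑ n ∈ Finset.range (q.natDegree + 1), q.coeff n * a i ^ (n + 1) := by
      intro i
      rw [Polynomial.eval_eq_sum_range, Finset.mul_sum]
      exact Finset.sum_congr rfl fun n _ => by ring
    simp_rw [h1]
    rw [Finset.sum_comm]
    refine Finset.sum_eq_zero fun n _ => ?_
    rw [← Finset.mul_sum, h n, mul_zero]
  have hval : ∀ i, a i * q.eval (a i) = if a i = a i0 then a i0 * q.eval (a i0) else 0 := by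
    intro i
    split_ifs with hi
    · rw [hi]
    · have h0 : q.eval (a i) = 0 := by
        rw [hq, Polynomial.eval_prod]
        refine Finset.prod_eq_zero (i := a i) ?_ ?_
        · exact Finset.mem_erase.mpr ⟨hi, Finset.mem_image_of_mem a (Finset.mem_univ i)⟩
        · rw [Polynomial.eval_sub, Polynomial.eval_X, Polynomial.eval_C, sub_self]
      rw [h0, mul_zero]
  rw [Finset.sum_congr rfl (fun i _ => hval i)] at key
  rw [Finset.sum_ite, Finset.sum_const_zero, add_zero, Finset.sum_const, nsmul_eq_mul] at key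
  have hcard : ((Finset.univ.filter fun i => a i = a i0).card : ℂ) ≠ 0 := by
    have : 0 < (Finset.univ.filter fun i => a i = a i0).card :=
      Finset.card_pos.mpr ⟨i0, by simp⟩
    exact_mod_cast this.ne'
  have hq0 : q.eval (a i0) ≠ 0 := by
    rw [hq, Polynomial.eval_prod]
    refine Finset.prod_ne_zero_iff.mpr fun b hb => ?_
    have hb' : b ≠ a i0 := (Finset.mem_erase.mp hb).1
    simp only [Polynomial.eval_sub, Polynomial.eval_X, Polynomial.eval_C]
    exact sub_ne_zero.mpr (Ne.symm hb')
  exact mul_ne_zero hcard (mul_ne_zero hi0 hq0) key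

/-! ### McCoy-type kernel vector -/

/-- McCoy-type lemma, in the form needed: if `det G = 0` for a square matrix over a nontrivial
commutative ring, there are a size `r`, maps `e f : Fin r → n`, an index `j₀` outside the range of
`f`, such that the minor `d = det (G.submatrix e f)` is nonzero and all larger generalized minors
through the rows `e` and columns `j₀, f` vanish. -/
lemma exists_minor_data {R : Type*} [CommRing R] [Nontrivial R] {n : Type*} [Fintype n]
    [DecidableEq n] (G : Matrix n n R) (hG : G.det = 0) :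
    ∃ (r : ℕ) (e f : Fin r → n) (j₀ : n), (∀ l, f l ≠ j₀) ∧ (G.submatrix e f).det ≠ 0 ∧
      ∀ i : n, (G.submatrix (Fin.cons i e : Fin (r + 1) → n) (Fin.cons j₀ f)).det = 0 := by
  classical
  -- `P m`: all generalized `m`-minors vanish
  let P : ℕ → Prop := fun m => ∀ e f : Fin m → n, (G.submatrix e f).det = 0
  have hPcard : P (Fintype.card n) := by
    intro e f
    by_cases hf : Function.Injective f
    · by_cases he : Function.Injective e
      · have hfb : Function.Bijective f :=
          (Fintype.bijective_iff_injective_and_card f).mpr ⟨hf, by simp⟩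
        have heb : Function.Bijective e :=
          (Fintype.bijective_iff_injective_and_card e).mpr ⟨he, by simp⟩
        let e' : Fin (Fintype.card n) ≃ n := Equiv.ofBijective e heb
        let f' : Fin (Fintype.card n) ≃ n := Equiv.ofBijective f hfb
        have h1 : G.submatrix e f = (G.submatrix e' e').submatrix id (f'.trans e'.symm) := by
          have hee : ∀ x, e (e'.symm x) = x :=
            fun x => Equiv.ofBijective_apply_symm_apply e heb x
          ext i j
          simp [e', f', hee]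
        rw [h1, Matrix.det_permute', Matrix.det_submatrix_equiv_self, hG, mul_zero]
      · obtain ⟨i, j, hij, hne⟩ := Function.not_injective_iff.mp he
        exact Matrix.det_zero_of_row_eq hne (by ext k; simp [hij])
    · obtain ⟨i, j, hij, hne⟩ := Function.not_injective_iff.mp hf
      exact Matrix.det_zero_of_column_eq hne (by intro k; simp [hij])
  have hP0 : ¬ P 0 := by
    intro h
    have := h Fin.elim0 Fin.elim0
    rw [Matrix.det_isEmpty] at this
    exact one_ne_zero this
  have hex : ∃ m, P m := ⟨_, hPcard⟩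
  have hm_pos : Nat.find hex ≠ 0 := fun h0 => hP0 (h0 ▸ Nat.find_spec hex)
  obtain ⟨r, hr⟩ := Nat.exists_eq_succ_of_ne_zero hm_pos
  have hPr1 : P (r + 1) := by
    have := Nat.find_spec hex
    rwa [hr] at this
  have hPr : ¬ P r := Nat.find_min hex (by omega)
  have hr_lt : r < Fintype.card n := by
    have : Nat.find hex ≤ Fintype.card n := Nat.find_min' hex hPcard
    omega
  simp only [P, not_forall] at hPr
  obtain ⟨e, f, hd⟩ := hPr
  have hns : ¬ Function.Surjective f := by
    intro hs
    have := Fintype.card_le_of_surjective f hs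
    simp at this
    omega
  simp only [Function.Surjective, not_forall, not_exists] at hns
  obtain ⟨j₀, hj₀⟩ := hns
  exact ⟨r, e, f, j₀, hj₀, hd, fun i => hPr1 _ _⟩

/-- From the minor data, a kernel vector with prescribed shape. -/
lemma exists_kernel_vector {R : Type*} [CommRing R] {n : Type*} [Fintype n] [DecidableEq n]
    (G : Matrix n n R) {r : ℕ} (e f : Fin r → n) (j₀ : n) (hj₀ : ∀ l, f l ≠ j₀)
    (hvan : ∀ i : n, (G.submatrix (Fin.cons i e : Fin (r + 1) → n) (Fin.cons j₀ f)).det = 0) :
    let f' : Fin (r + 1) → n := Fin.cons j₀ f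
    let c : n → R := fun j => ∑ l : Fin (r + 1),
      if f' l = j then (-1) ^ (l : ℕ) * (G.submatrix e (f' ∘ l.succAbove)).det else 0
    (∀ i, ∑ j, G i j * c j = 0) ∧ c j₀ = (G.submatrix e f).det := by
  classical
  intro f' c
  refine ⟨fun i => ?_, ?_⟩
  · have h := hvan i
    rw [Matrix.det_succ_row_zero] at h
    rw [← h]
    simp only [c, Finset.mul_sum]
    rw [Finset.sum_comm]
    refine Finset.sum_congr rfl fun l _ => ?_
    rw [Finset.sum_eq_single (f' l)]
    · simp only [if_true, Matrix.submatrix_apply, Fin.cons_zero, Matrix.submatrix_submatrix]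
      have : (Fin.cons i e : Fin (r + 1) → n) ∘ Fin.succ = e := by
        ext k; simp
      rw [this]
      ring
    · intro j _ hj
      rw [if_neg (Ne.symm hj), mul_zero]
    · intro h; exact absurd (Finset.mem_univ _) h
  · simp only [c]
    rw [Finset.sum_eq_single (0 : Fin (r + 1))]
    · have h0 : f' 0 = j₀ := by simp [f']
      have h1 : f' ∘ (0 : Fin (r + 1)).succAbove = f := by
        ext k; simp [f']
      rw [if_pos h0, h1]
      simp
    · intro l _ hl
      obtain ⟨l', rfl⟩ := Fin.exists_succ_eq.mpr hl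
      have : f' l'.succ ≠ j₀ := by simpa [f'] using hj₀ l'
      rw [if_neg this]
    · intro h; exact absurd (Finset.mem_univ _) h

/-! ### The main result -/

section main

variable [Fintype (SL(2, ℤ) ⧸ Γ)] [DecidableEq (SL(2, ℤ) ⧸ Γ)]
  {κ : SL(2, ℤ) ⧸ Γ → ℤ} {φ : SL(2, ℤ) ⧸ Γ → ℍ → ℂ}

/-- The Gram matrix of the trace form in a homogeneous basis, as a matrix of functions. -/
noncomputable def gramMatrix (Γ : Subgroup SL(2, ℤ)) [Fintype (SL(2, ℤ) ⧸ Γ)]
    (κ : SL(2, ℤ) ⧸ Γ → ℤ) (φ : SL(2, ℤ) ⧸ Γ → ℍ → ℂ) :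
    Matrix (SL(2, ℤ) ⧸ Γ) (SL(2, ℤ) ⧸ Γ) (ℍ → ℂ) :=
  Matrix.of fun i j => ∑ x, comp Γ (κ i) (φ i) x * comp Γ (κ j) (φ j) x

omit [DecidableEq (SL(2, ℤ) ⧸ Γ)] in
lemma gramMatrix_mem (hb : IsHomBasis Γ κ φ) (i j : SL(2, ℤ) ⧸ Γ) :
    gramMatrix Γ κ φ i j ∈ MFun ⊤ (κ i + κ j) :=
  trace_mul_mem_MFun (hb.mem i) (hb.mem j)

lemma gramMatrix_det_apply (z : ℍ) :
    (gramMatrix Γ κ φ).det z = (fundMatrix Γ κ φ z).det ^ 2 := by
  have h := RingHom.map_det (Pi.evalRingHom (fun _ : ℍ => ℂ) z) (gramMatrix Γ κ φ)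
  have h2 : (Pi.evalRingHom (fun _ : ℍ => ℂ) z).mapMatrix (gramMatrix Γ κ φ) =
      (fundMatrix Γ κ φ z).transpose * fundMatrix Γ κ φ z := by
    ext i j
    simp [gramMatrix, fundMatrix, Matrix.mul_apply]
  rw [h2, Matrix.det_mul, Matrix.det_transpose] at h
  rw [sq, ← h]
  rfl

/-- **The fundamental matrix of a homogeneous basis is invertible at some point.** -/
theorem exists_fundMatrix_det_ne_zero (hb : IsHomBasis Γ κ φ) :
    ∃ z : ℍ, (fundMatrix Γ κ φ z).det ≠ 0 := by
  classical
  by_contra hcon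
  simp only [not_exists, not_not] at hcon
  have hG : (gramMatrix Γ κ φ).det = 0 := by
    funext z
    rw [gramMatrix_det_apply, hcon z]
    simp
  obtain ⟨r, e, f, j₀, hj₀, hd, hvan⟩ := exists_minor_data (gramMatrix Γ κ φ) hG
  obtain ⟨hker, hcj₀⟩ := exists_kernel_vector (gramMatrix Γ κ φ) e f j₀ hj₀ hvan
  set f' : Fin (r + 1) → SL(2, ℤ) ⧸ Γ := Fin.cons j₀ f with hf'
  set c : SL(2, ℤ) ⧸ Γ → ℍ → ℂ := fun j => ∑ l : Fin (r + 1),
      if f' l = j then (-1) ^ (l : ℕ) * ((gramMatrix Γ κ φ).submatrix e (f' ∘ l.succAbove)).det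
      else 0 with hc
  -- the common weight
  set k₀ : ℤ := ∑ l, κ (e l) + ∑ l, κ (f' l) with hk₀
  have hc_mem : ∀ j, c j ∈ MFun ⊤ (k₀ - κ j) := by
    intro j
    refine Submodule.sum_mem _ fun l _ => ?_
    split_ifs with hl
    · have hdet := det_mem_MFun_top (fun l' => κ (e l')) (fun l' => κ (f' (l.succAbove l')))
        ((gramMatrix Γ κ φ).submatrix e (f' ∘ l.succAbove))
        (fun i' j' => gramMatrix_mem hb _ _)
      have hw : ∑ l', κ (e l') + ∑ l', κ (f' (l.succAbove l')) = k₀ - κ j := by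
        rw [hk₀, Fin.sum_univ_succAbove (fun l' => κ (f' l')) l, hl]
        ring
      rw [hw] at hdet
      have hs : ((-1 : ℍ → ℂ) ^ (l : ℕ)) *
          ((gramMatrix Γ κ φ).submatrix e (f' ∘ l.succAbove)).det =
          ((-1 : ℂ) ^ (l : ℕ)) • ((gramMatrix Γ κ φ).submatrix e (f' ∘ l.succAbove)).det := by
        funext z
        simp
      rw [hs]
      exact Submodule.smul_mem _ _ hdet
    · exact Submodule.zero_mem _
  -- the form `h`
  set h : ℍ → ℂ := ∑ j, c j * φ j with hh
  have hh_mem : h ∈ MFun Γ k₀ :=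
    Submodule.sum_mem _ fun j _ => mul_mem_MFun' (hc_mem j) (hb.mem j) (by ring)
  have hcomp : ∀ x, comp Γ k₀ h x = ∑ j, c j * comp Γ (κ j) (φ j) x := by
    intro x
    rw [hh, comp_sum]
    exact Finset.sum_congr rfl fun j _ => comp_mul_of_top (hc_mem j) (φ j) (by ring) x
  -- `h` is trace-orthogonal to the basis
  have horth : ∀ i, ∑ x, comp Γ (κ i) (φ i) x * comp Γ k₀ h x = 0 := by
    intro i
    have := hker i
    simp only [gramMatrix, Matrix.of_apply] at this
    rw [← this]
    simp_rw [hcomp, Finset.mul_sum, Finset.sum_mul]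
    rw [Finset.sum_comm]
    refine Finset.sum_congr rfl fun j _ => Finset.sum_congr rfl fun x _ => by ring
  -- hence to everything
  have horth' : ∀ (k : ℤ) (g : ℍ → ℂ), g ∈ MFun Γ k →
      ∑ x, comp Γ k g x * comp Γ k₀ h x = 0 := by
    intro k g hg
    obtain ⟨a, ha, rfl⟩ := hb.span k g hg
    have hcg : ∀ x, comp Γ k (∑ j, a j * φ j) x = ∑ j, a j * comp Γ (κ j) (φ j) x := by
      intro x
      rw [comp_sum]
      exact Finset.sum_congr rfl fun j _ => comp_mul_of_top (ha j) (φ j) (by ring) x
    simp_rw [hcg, Finset.sum_mul]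
    rw [Finset.sum_comm]
    refine Finset.sum_eq_zero fun j _ => ?_
    simp_rw [mul_assoc]
    rw [← Finset.mul_sum, horth j, mul_zero]
  -- all power sums of the components of `h` vanish
  have hpow : ∀ (z : ℍ) (m : ℕ), ∑ x, comp Γ k₀ h x z ^ (m + 1) = 0 := by
    intro z m
    have := horth' _ _ (pow_mem_MFun hh_mem m)
    simp_rw [comp_pow] at this
    have := congrFun this z
    simp only [Finset.sum_apply, Pi.mul_apply, Pi.pow_apply, Pi.zero_apply] at this
    rw [← this]
    exact Finset.sum_congr rfl fun x _ => by ring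
  have hzero : h = 0 := by
    rw [← comp_one_coset (Γ := Γ) (k := k₀) hh_mem.2.1]
    funext z
    exact eq_zero_of_pow_sums (fun x => comp Γ k₀ h x z) (hpow z) _
  have hc0 := hb.indep k₀ c hc_mem (hh ▸ hzero) j₀
  exact hd (hcj₀ ▸ hc0)

end main

end Fermat.Agent.S20.DetNeZero
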