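import Fermat.Agent.S20.Defs

set_option autoImplicit false
set_option linter.unusedSectionVars false

open UpperHalfPlane ModularForm
open scoped MatrixGroups Manifold ModularForm

namespace Fermat.Agent.S20.Duality

open Fermat.Agent.S20

local notation "Δ" => ModularForm.discriminant

variable {Γ : Subgroup SL(2, ℤ)} [Fintype (SL(2, ℤ) ⧸ Γ)] [DecidableEq (SL(2, ℤ) ⧸ Γ)]
  {κ : SL(2, ℤ) ⧸ Γ → ℤ} {φ : SL(2, ℤ) ⧸ Γ → ℍ → ℂ}

/-- Transformation law of the fundamental matrix under `SL(2,ℤ)`. -/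
lemma fundMatrix_smul (hb : IsHomBasis Γ κ φ) (σ : SL(2, ℤ)) (z : ℍ) (x j : SL(2, ℤ) ⧸ Γ) :
    fundMatrix Γ κ φ (σ • z) x j = denom σ z ^ (κ j) * fundMatrix Γ κ φ z (σ⁻¹ • x) j := by
  have h := congrFun (comp_slash (hb.mem j).2.1 σ x) z
  rw [SL_slash_apply] at h
  simp only [fundMatrix, Matrix.of_apply]
  rw [← h, mul_comm, mul_assoc, ← zpow_add₀ (denom_ne_zero σ z)]
  simp

lemma inv_mul_self (hdet : ∀ z, (fundMatrix Γ κ φ z).det ≠ 0) (z : ℍ) :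
    (fundMatrix Γ κ φ z)⁻¹ * fundMatrix Γ κ φ z = 1 :=
  Matrix.nonsing_inv_mul _ (IsUnit.mk0 _ (hdet z))

lemma mul_inv_self (hdet : ∀ z, (fundMatrix Γ κ φ z).det ≠ 0) (z : ℍ) :
    fundMatrix Γ κ φ z * (fundMatrix Γ κ φ z)⁻¹ = 1 :=
  Matrix.mul_nonsing_inv _ (IsUnit.mk0 _ (hdet z))

/-- Transformation law of the inverse of the fundamental matrix. -/
lemma fundMatrix_inv_smul (hb : IsHomBasis Γ κ φ)
    (hdet : ∀ z, (fundMatrix Γ κ φ z).det ≠ 0) (σ : SL(2, ℤ)) (z : ℍ)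
    (j x : SL(2, ℤ) ⧸ Γ) :
    (fundMatrix Γ κ φ (σ • z))⁻¹ j x =
      denom σ z ^ (-κ j) * (fundMatrix Γ κ φ z)⁻¹ j (σ⁻¹ • x) := by
  have hd : denom σ z ≠ 0 := denom_ne_zero σ z
  set B : Matrix (SL(2, ℤ) ⧸ Γ) (SL(2, ℤ) ⧸ Γ) ℂ :=
    Matrix.of fun j x => denom σ z ^ (κ j) * (fundMatrix Γ κ φ (σ • z))⁻¹ j (σ • x) with hB
  have hBΦ : B * fundMatrix Γ κ φ z = 1 := by
    ext j l
    rw [Matrix.mul_apply]
    have h1 : ∀ x, B j x * fundMatrix Γ κ φ z x l =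
        denom σ z ^ (κ j - κ l) * ((fundMatrix Γ κ φ (σ • z))⁻¹ j (σ • x) *
          fundMatrix Γ κ φ (σ • z) (σ • x) l) := by
      intro x
      rw [fundMatrix_smul hb σ z (σ • x) l, inv_smul_smul, hB, Matrix.of_apply,
        zpow_sub₀ hd]
      field_simp
    simp_rw [h1]
    rw [← Finset.mul_sum]
    have h2 : ∑ x, (fundMatrix Γ κ φ (σ • z))⁻¹ j (σ • x) * fundMatrix Γ κ φ (σ • z) (σ • x) l
        = ((fundMatrix Γ κ φ (σ • z))⁻¹ * fundMatrix Γ κ φ (σ • z)) j l := by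
      rw [Matrix.mul_apply]
      exact Equiv.sum_comp (MulAction.toPerm σ)
        (fun x => (fundMatrix Γ κ φ (σ • z))⁻¹ j x * fundMatrix Γ κ φ (σ • z) x l)
    rw [h2, inv_mul_self hdet]
    by_cases hjl : j = l
    · subst hjl; simp
    · simp [Matrix.one_apply_ne hjl]
  have hinv : (fundMatrix Γ κ φ z)⁻¹ = B := Matrix.inv_eq_left_inv hBΦ
  rw [hinv, hB, Matrix.of_apply, smul_inv_smul, ← mul_assoc, ← zpow_add₀ hd]
  simp


/-! ### Holomorphy of determinants and inverses -/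

lemma mdiff_det {n : Type} [Fintype n] [DecidableEq n] {M : ℍ → Matrix n n ℂ}
    (hM : ∀ a b, MDiff (fun z => M z a b)) : MDiff (fun z => (M z).det) := by
  have h : (fun z => (M z).det) =
      ∑ σ : Equiv.Perm n, ((Equiv.Perm.sign σ : ℤ) : ℂ) • ∏ i, fun z => M z (σ i) i := by
    funext z
    simp [Matrix.det_apply, Finset.sum_apply, Finset.prod_apply, Units.smul_def, zsmul_eq_mul]
  rw [h]
  exact MDifferentiable.sum fun σ _ => (MDifferentiable.prod fun i _ => hM (σ i) i).const_smul _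

lemma mdiff_inv {n : Type} [Fintype n] [DecidableEq n] {M : ℍ → Matrix n n ℂ}
    (hM : ∀ a b, MDiff (fun z => M z a b)) (hdet : ∀ z, (M z).det ≠ 0) (a b : n) :
    MDiff (fun z => (M z)⁻¹ a b) := by
  have h1 : (fun z => (M z)⁻¹ a b) =
      (fun z => (M z).det)⁻¹ * (fun z => ((M z).updateRow b (Pi.single a 1)).det) := by
    funext z
    simp [Matrix.inv_def, Matrix.adjugate_apply, Ring.inverse_eq_inv']
  rw [h1]
  refine ((mdiff_det hM).inv hdet).mul (mdiff_det fun c d => ?_)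
  by_cases hc : c = b
  · subst hc
    simp only [Matrix.updateRow_self]
    exact mdifferentiable_const
  · simp only [Matrix.updateRow_ne hc]
    exact hM c d

lemma mdiff_fundMatrix (hb : IsHomBasis Γ κ φ) (x j : SL(2, ℤ) ⧸ Γ) :
    MDiff (fun z => fundMatrix Γ κ φ z x j) :=
  mdiff_comp (hb.mem j).1 x

lemma mdiff_fundMatrix_inv (hb : IsHomBasis Γ κ φ)
    (hdet : ∀ z, (fundMatrix Γ κ φ z).det ≠ 0) (j x : SL(2, ℤ) ⧸ Γ) :
    MDiff (fun z => (fundMatrix Γ κ φ z)⁻¹ j x) :=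
  mdiff_inv (mdiff_fundMatrix hb) hdet j x


/-! ### The discriminant -/

lemma discriminant_slash (σ : SL(2, ℤ)) : (Δ : ℍ → ℂ) ∣[(12 : ℤ)] σ = Δ :=
  SlashInvariantForm.slash_action_generators_SL2Z discriminant_S_invariant
    discriminant_T_invariant σ

lemma discriminant_smul (σ : SL(2, ℤ)) (z : ℍ) : Δ (σ • z) = denom σ z ^ (12 : ℤ) * Δ z := by
  have h := congrFun (discriminant_slash σ) z
  rw [SL_slash_apply] at h
  rw [← h, mul_comm, mul_assoc, ← zpow_add₀ (denom_ne_zero σ z)]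
  simp

lemma mdiff_discriminant : MDiff (Δ : ℍ → ℂ) := CuspForm.discriminant.holo'

/-! ### The dual family -/

/-- The dual family: `Δ` times the `(j, x)` entry of the inverse fundamental matrix. -/
noncomputable def dual (Γ : Subgroup SL(2, ℤ)) [Fintype (SL(2, ℤ) ⧸ Γ)]
    [DecidableEq (SL(2, ℤ) ⧸ Γ)] (κ : SL(2, ℤ) ⧸ Γ → ℤ) (φ : SL(2, ℤ) ⧸ Γ → ℍ → ℂ)
    (j x : SL(2, ℤ) ⧸ Γ) : ℍ → ℂ :=
  fun z => Δ z * (fundMatrix Γ κ φ z)⁻¹ j x

lemma dual_apply (j x : SL(2, ℤ) ⧸ Γ) (z : ℍ) :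
    dual Γ κ φ j x z = Δ z * (fundMatrix Γ κ φ z)⁻¹ j x := rfl

lemma mdiff_dual (hb : IsHomBasis Γ κ φ) (hdet : ∀ z, (fundMatrix Γ κ φ z).det ≠ 0)
    (j x : SL(2, ℤ) ⧸ Γ) : MDiff (dual Γ κ φ j x) :=
  mdiff_discriminant.mul (mdiff_fundMatrix_inv hb hdet j x)

lemma dual_slash (hb : IsHomBasis Γ κ φ) (hdet : ∀ z, (fundMatrix Γ κ φ z).det ≠ 0)
    (σ : SL(2, ℤ)) (j x : SL(2, ℤ) ⧸ Γ) :
    (dual Γ κ φ j x) ∣[12 - κ j] σ = dual Γ κ φ j (σ⁻¹ • x) := by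
  funext z
  have hd : denom σ z ≠ 0 := denom_ne_zero σ z
  rw [SL_slash_apply, dual_apply, dual_apply, fundMatrix_inv_smul hb hdet, discriminant_smul,
    neg_sub, zpow_sub₀ hd, zpow_neg]
  field_simp

/-- the identity coset -/
abbrev x₀ (Γ : Subgroup SL(2, ℤ)) : SL(2, ℤ) ⧸ Γ := ((1 : SL(2, ℤ)) : SL(2, ℤ) ⧸ Γ)

lemma smul_x₀ (σ : SL(2, ℤ)) : σ • x₀ Γ = (σ : SL(2, ℤ) ⧸ Γ) := by
  show ((σ * 1 : SL(2, ℤ)) : SL(2, ℤ) ⧸ Γ) = _
  rw [mul_one]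

lemma smul_x₀_of_mem {γ : SL(2, ℤ)} (hγ : γ ∈ Γ) : γ • x₀ Γ = x₀ Γ := by
  rw [smul_x₀]
  exact (QuotientGroup.eq.mpr (by simpa using hγ)).symm

lemma exists_smul_x₀ (x : SL(2, ℤ) ⧸ Γ) : ∃ σ : SL(2, ℤ), σ⁻¹ • x₀ Γ = x := by
  induction x using QuotientGroup.induction_on with
  | H τ => exact ⟨τ⁻¹, by rw [inv_inv, smul_x₀]⟩

lemma dual_mem_SFun (hb : IsHomBasis Γ κ φ) (hdet : ∀ z, (fundMatrix Γ κ φ z).det ≠ 0)
    (hcusp : ∀ j x, IsZeroAtImInfty (fun z : ℍ => Δ z * (fundMatrix Γ κ φ z)⁻¹ j x))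
    (j : SL(2, ℤ) ⧸ Γ) : dual Γ κ φ j (x₀ Γ) ∈ SFun Γ (12 - κ j) := by
  refine ⟨mdiff_dual hb hdet j _, fun γ hγ => ?_, fun γ => ?_⟩
  · rw [dual_slash hb hdet, smul_x₀_of_mem (Γ.inv_mem hγ)]
  · rw [dual_slash hb hdet]
    exact hcusp j _


/-! ### Weight bound -/

theorem weight_lt_twelve_core (hb : IsHomBasis Γ κ φ)
    (hdet : ∀ z, (fundMatrix Γ κ φ z).det ≠ 0)
    (hcusp : ∀ j x, IsZeroAtImInfty (fun z : ℍ => Δ z * (fundMatrix Γ κ φ z)⁻¹ j x))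
    (hS0 : ∀ k : ℤ, k ≤ 0 → SFun Γ k = ⊥) (j : SL(2, ℤ) ⧸ Γ) : κ j < 12 := by
  by_contra hlt
  rw [not_lt] at hlt
  have hmem := dual_mem_SFun hb hdet hcusp j
  rw [hS0 _ (by omega)] at hmem
  have h0 : dual Γ κ φ j (x₀ Γ) = 0 := (Submodule.mem_bot ℂ).mp hmem
  have hrow : ∀ x z, (fundMatrix Γ κ φ z)⁻¹ j x = 0 := by
    intro x z
    obtain ⟨σ, rfl⟩ := exists_smul_x₀ x
    have h1 := dual_slash hb hdet σ j (x₀ Γ)
    rw [h0, SlashAction.zero_slash] at h1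
    have h2 := congrFun h1 z
    simp only [Pi.zero_apply, dual_apply] at h2
    exact (mul_eq_zero.mp h2.symm).resolve_left (discriminant_ne_zero z)
  have h3 := congrFun (congrFun (inv_mul_self hdet UpperHalfPlane.I) j) j
  rw [Matrix.mul_apply] at h3
  simp [hrow] at h3

theorem weight_le_ten_core (hb : IsHomBasis Γ κ φ)
    (hdet : ∀ z, (fundMatrix Γ κ φ z).det ≠ 0)
    (hcusp : ∀ j x, IsZeroAtImInfty (fun z : ℍ => Δ z * (fundMatrix Γ κ φ z)⁻¹ j x))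
    (hS0 : ∀ k : ℤ, k ≤ 0 → SFun Γ k = ⊥) (heven : ∀ j, Even (κ j))
    (j : SL(2, ℤ) ⧸ Γ) : κ j ≤ 10 := by
  have h := weight_lt_twelve_core hb hdet hcusp hS0 j
  obtain ⟨m, hm⟩ := heven j
  omega


/-! ### The trace pairing -/

/-- The trace to level one of `φ j * h`. -/
noncomputable def traceForm (Γ : Subgroup SL(2, ℤ)) [Fintype (SL(2, ℤ) ⧸ Γ)]
    (κ : SL(2, ℤ) ⧸ Γ → ℤ) (φ : SL(2, ℤ) ⧸ Γ → ℍ → ℂ) (l : ℤ) (h : ℍ → ℂ)
    (j : SL(2, ℤ) ⧸ Γ) : ℍ → ℂ :=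
  ∑ x, comp Γ (κ j) (φ j) x * comp Γ l h x

lemma traceForm_apply (l : ℤ) (h : ℍ → ℂ) (j : SL(2, ℤ) ⧸ Γ) (z : ℍ) :
    traceForm Γ κ φ l h j z = ∑ x, fundMatrix Γ κ φ z x j * comp Γ l h x z := by
  simp [traceForm, fundMatrix, Finset.sum_apply]

lemma traceForm_mem (hb : IsHomBasis Γ κ φ) {l : ℤ} {h : ℍ → ℂ} (hh : h ∈ SFun Γ l)
    (j : SL(2, ℤ) ⧸ Γ) : traceForm Γ κ φ l h j ∈ SFun ⊤ (κ j + l) := by
  rw [mem_SFun_top_iff]
  refine ⟨?_, fun σ => ?_, ?_⟩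
  · exact MDifferentiable.sum fun x _ => (mdiff_comp (hb.mem j).1 x).mul (mdiff_comp hh.1 x)
  · unfold traceForm
    rw [SlashAction.sum_slash]
    simp_rw [mul_slash_SL2, comp_slash (hb.mem j).2.1, comp_slash hh.2.1]
    exact Equiv.sum_comp (MulAction.toPerm σ⁻¹)
      (fun x => comp Γ (κ j) (φ j) x * comp Γ l h x)
  · unfold traceForm
    have hsum : ∀ s : Finset (SL(2, ℤ) ⧸ Γ),
        IsZeroAtImInfty (∑ x ∈ s, comp Γ (κ j) (φ j) x * comp Γ l h x) := by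
      intro s
      induction s using Finset.induction_on with
      | empty =>
        rw [Finset.sum_empty]
        exact Filter.zero_zeroAtFilter _
      | insert a s ha ih =>
        rw [Finset.sum_insert ha]
        exact Filter.ZeroAtFilter.add
          (Filter.BoundedAtFilter.mul_zeroAtFilter (isBoundedAtImInfty_comp (hb.mem j) a)
            (isZeroAtImInfty_comp hh a)) ih
    exact hsum _

/-- Reconstruction of the components of `h` from the trace forms. -/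
lemma comp_eq_sum_inv_traceForm (hdet : ∀ z, (fundMatrix Γ κ φ z).det ≠ 0) (l : ℤ)
    (h : ℍ → ℂ) (x : SL(2, ℤ) ⧸ Γ) (z : ℍ) :
    comp Γ l h x z = ∑ j, (fundMatrix Γ κ φ z)⁻¹ j x * traceForm Γ κ φ l h j z := by
  simp_rw [traceForm_apply, Finset.mul_sum]
  rw [Finset.sum_comm]
  have h1 : ∀ y, ∑ j, (fundMatrix Γ κ φ z)⁻¹ j x * (fundMatrix Γ κ φ z y j * comp Γ l h y z)
      = (fundMatrix Γ κ φ z * (fundMatrix Γ κ φ z)⁻¹) y x * comp Γ l h y z := by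
    intro y
    rw [Matrix.mul_apply, Finset.sum_mul]
    exact Finset.sum_congr rfl fun j _ => by ring
  simp_rw [h1, mul_inv_self hdet, Matrix.one_apply]
  simp


/-! ### Cusp forms of weight two -/

/-- The candidate basis of `SFun Γ 2`: the dual forms of the basis elements of weight `10`. -/
noncomputable def dualTwo (hb : IsHomBasis Γ κ φ) (hdet : ∀ z, (fundMatrix Γ κ φ z).det ≠ 0)
    (hcusp : ∀ j x, IsZeroAtImInfty (fun z : ℍ => Δ z * (fundMatrix Γ κ φ z)⁻¹ j x))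
    (j : {j : SL(2, ℤ) ⧸ Γ // κ j = 10}) : SFun Γ 2 :=
  ⟨dual Γ κ φ j.1 (x₀ Γ), by
    have h := dual_mem_SFun hb hdet hcusp j.1
    have h2 : (12 : ℤ) - κ j.1 = 2 := by rw [j.2]; norm_num
    rwa [h2] at h⟩

lemma dualTwo_coe (hb : IsHomBasis Γ κ φ) (hdet : ∀ z, (fundMatrix Γ κ φ z).det ≠ 0)
    (hcusp : ∀ j x, IsZeroAtImInfty (fun z : ℍ => Δ z * (fundMatrix Γ κ φ z)⁻¹ j x))
    (j : {j : SL(2, ℤ) ⧸ Γ // κ j = 10}) :
    (dualTwo hb hdet hcusp j : ℍ → ℂ) = dual Γ κ φ j.1 (x₀ Γ) := rfl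

lemma dualTwo_linearIndependent (hb : IsHomBasis Γ κ φ)
    (hdet : ∀ z, (fundMatrix Γ κ φ z).det ≠ 0)
    (hcusp : ∀ j x, IsZeroAtImInfty (fun z : ℍ => Δ z * (fundMatrix Γ κ φ z)⁻¹ j x)) :
    LinearIndependent ℂ (dualTwo hb hdet hcusp) := by
  rw [Fintype.linearIndependent_iff]
  intro c hc
  have hc' : ∑ i : {j : SL(2, ℤ) ⧸ Γ // κ j = 10}, c i • dual Γ κ φ i.1 (x₀ Γ) = 0 := by
    have h := congrArg (Subtype.val) hc
    simpa only [Submodule.coe_sum, Submodule.coe_smul, dualTwo_coe, Submodule.coe_zero] using h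
  have hx : ∀ x, ∑ i : {j : SL(2, ℤ) ⧸ Γ // κ j = 10}, c i • dual Γ κ φ i.1 x = 0 := by
    intro x
    obtain ⟨σ, rfl⟩ := exists_smul_x₀ x
    have key : ∀ i : {j : SL(2, ℤ) ⧸ Γ // κ j = 10},
        (dual Γ κ φ i.1 (x₀ Γ)) ∣[(2 : ℤ)] σ = dual Γ κ φ i.1 (σ⁻¹ • x₀ Γ) := by
      intro i
      have h := dual_slash hb hdet σ i.1 (x₀ Γ)
      have h2 : (12 : ℤ) - κ i.1 = 2 := by rw [i.2]; norm_num
      rwa [h2] at h
    calc ∑ i : {j : SL(2, ℤ) ⧸ Γ // κ j = 10}, c i • dual Γ κ φ i.1 (σ⁻¹ • x₀ Γ)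
        = ∑ i : {j : SL(2, ℤ) ⧸ Γ // κ j = 10}, (c i • dual Γ κ φ i.1 (x₀ Γ)) ∣[(2 : ℤ)] σ := by
          refine Finset.sum_congr rfl fun i _ => ?_
          rw [SL_smul_slash, key]
      _ = (∑ i : {j : SL(2, ℤ) ⧸ Γ // κ j = 10}, c i • dual Γ κ φ i.1 (x₀ Γ)) ∣[(2 : ℤ)] σ := by
          rw [SlashAction.sum_slash]
      _ = 0 := by rw [hc', SlashAction.zero_slash]
  have hΨ : ∀ z x, ∑ i : {j : SL(2, ℤ) ⧸ Γ // κ j = 10},
      c i * (fundMatrix Γ κ φ z)⁻¹ i.1 x = 0 := by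
    intro z x
    have h1 := congrFun (hx x) z
    simp only [Finset.sum_apply, Pi.smul_apply, dual_apply, smul_eq_mul, Pi.zero_apply] at h1
    have h2 : Δ z * ∑ i : {j : SL(2, ℤ) ⧸ Γ // κ j = 10},
        c i * (fundMatrix Γ κ φ z)⁻¹ i.1 x = 0 := by
      rw [Finset.mul_sum, ← h1]
      exact Finset.sum_congr rfl fun i _ => by ring
    exact (mul_eq_zero.mp h2).resolve_left (discriminant_ne_zero z)
  intro i₀
  have h3 : ∑ x, (∑ i : {j : SL(2, ℤ) ⧸ Γ // κ j = 10},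
      c i * (fundMatrix Γ κ φ UpperHalfPlane.I)⁻¹ i.1 x) *
        fundMatrix Γ κ φ UpperHalfPlane.I x i₀.1 = c i₀ := by
    simp_rw [Finset.sum_mul]
    rw [Finset.sum_comm]
    have h4 : ∀ i : {j : SL(2, ℤ) ⧸ Γ // κ j = 10},
        ∑ x, c i * (fundMatrix Γ κ φ UpperHalfPlane.I)⁻¹ i.1 x *
          fundMatrix Γ κ φ UpperHalfPlane.I x i₀.1 =
        c i * (1 : Matrix (SL(2, ℤ) ⧸ Γ) (SL(2, ℤ) ⧸ Γ) ℂ) i.1 i₀.1 := by
      intro i
      rw [← inv_mul_self hdet UpperHalfPlane.I, Matrix.mul_apply, Finset.mul_sum]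
      exact Finset.sum_congr rfl fun x _ => by ring
    simp_rw [h4, Matrix.one_apply, Subtype.coe_inj]
    simp
  rw [← h3]
  simp [hΨ]

lemma dualTwo_span (hb : IsHomBasis Γ κ φ)
    (hdet : ∀ z, (fundMatrix Γ κ φ z).det ≠ 0)
    (hcusp : ∀ j x, IsZeroAtImInfty (fun z : ℍ => Δ z * (fundMatrix Γ κ φ z)⁻¹ j x))
    (hle : ∀ j, κ j ≤ 10)
    (hΔdiv : ∀ (k : ℤ) (f : ℍ → ℂ), f ∈ SFun ⊤ k → ∃ a ∈ MFun ⊤ (k - 12), f = Δ * a)
    (hneg : ∀ k : ℤ, k < 0 → MFun ⊤ k = ⊥)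
    (hconst : ∀ f : ℍ → ℂ, f ∈ MFun ⊤ 0 → ∃ c : ℂ, f = fun _ => c) :
    ⊤ ≤ Submodule.span ℂ (Set.range (dualTwo hb hdet hcusp)) := by
  rintro ⟨h, hh⟩ -
  have ht : ∀ j, ∃ c : ℂ, (κ j ≠ 10 → c = 0) ∧ traceForm Γ κ φ 2 h j = c • (Δ : ℍ → ℂ) := by
    intro j
    obtain ⟨a, ha, hta⟩ := hΔdiv _ _ (traceForm_mem hb hh j)
    by_cases hj : κ j = 10
    · have ha0 : a ∈ MFun ⊤ 0 := by
        have h0 : κ j + 2 - 12 = 0 := by omega
        rwa [h0] at ha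
      obtain ⟨c, rfl⟩ := hconst a ha0
      refine ⟨c, fun h' => absurd hj h', ?_⟩
      rw [hta]
      funext z
      simp [mul_comm]
    · have hlt : κ j + 2 - 12 < 0 := by have := hle j; omega
      rw [hneg _ hlt] at ha
      have ha' : a = 0 := (Submodule.mem_bot ℂ).mp ha
      refine ⟨0, fun _ => rfl, ?_⟩
      rw [hta, ha']
      simp
  choose c hc0 hc using ht
  have hsum : h = ∑ i : {j : SL(2, ℤ) ⧸ Γ // κ j = 10}, c i.1 • dual Γ κ φ i.1 (x₀ Γ) := by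
    funext z
    have h1 := comp_eq_sum_inv_traceForm (κ := κ) (φ := φ) hdet 2 h (x₀ Γ) z
    rw [comp_one_coset hh.2.1] at h1
    rw [h1]
    simp only [Finset.sum_apply, Pi.smul_apply, smul_eq_mul, dual_apply]
    rw [← Finset.sum_subtype (Finset.univ.filter fun j => κ j = 10) (by simp)
      (fun j => c j * (Δ z * (fundMatrix Γ κ φ z)⁻¹ j (x₀ Γ)))]
    rw [Finset.sum_filter]
    refine Finset.sum_congr rfl fun j _ => ?_
    rw [hc j]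
    split_ifs with hj
    · simp only [Pi.smul_apply, smul_eq_mul]
      ring
    · rw [hc0 j hj]
      simp
  have hmem : (⟨h, hh⟩ : SFun Γ 2) =
      ∑ i : {j : SL(2, ℤ) ⧸ Γ // κ j = 10}, c i.1 • dualTwo hb hdet hcusp i := by
    apply Subtype.ext
    simp only [Submodule.coe_sum, Submodule.coe_smul, dualTwo_coe]
    exact hsum
  rw [hmem]
  exact Submodule.sum_mem _ fun i _ =>
    Submodule.smul_mem _ _ (Submodule.subset_span ⟨i, rfl⟩)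

/-- Hypothesis form of `finrank_SFun_two`: the dimension of the weight two cusp forms is the
number of basis elements of weight `10`. -/
theorem finrank_SFun_two_core (hb : IsHomBasis Γ κ φ)
    (hdet : ∀ z, (fundMatrix Γ κ φ z).det ≠ 0)
    (hcusp : ∀ j x, IsZeroAtImInfty (fun z : ℍ => Δ z * (fundMatrix Γ κ φ z)⁻¹ j x))
    (hle : ∀ j, κ j ≤ 10)
    (hΔdiv : ∀ (k : ℤ) (f : ℍ → ℂ), f ∈ SFun ⊤ k → ∃ a ∈ MFun ⊤ (k - 12), f = Δ * a)
    (hneg : ∀ k : ℤ, k < 0 → MFun ⊤ k = ⊥)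
    (hconst : ∀ f : ℍ → ℂ, f ∈ MFun ⊤ 0 → ∃ c : ℂ, f = fun _ => c) :
    Module.finrank ℂ (SFun Γ 2) = Fintype.card {j : SL(2, ℤ) ⧸ Γ // κ j = 10} :=
  Module.finrank_eq_card_basis
    (Module.Basis.mk (dualTwo_linearIndependent hb hdet hcusp)
      (dualTwo_span hb hdet hcusp hle hΔdiv hneg hconst))

end Fermat.Agent.S20.Duality
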