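import Fermat.Agent.S20.LevelOne

/-! S20 package P2a: `(E₄, E₆)` is a regular sequence (helper91). Sorry-free given LevelOne. -/

set_option autoImplicit false

open UpperHalfPlane ModularForm CongruenceSubgroup
open scoped MatrixGroups Manifold ModularForm

namespace Fermat.Agent.S20

local notation "Δ" => ModularForm.discriminant

variable {Γ : Subgroup SL(2, ℤ)}

namespace KoszulAux

/-- The pointwise quotient `f / E₄ = g / E₆`. -/
noncomputable def koszulQuot (f g : ℍ → ℂ) : ℍ → ℂ := fun z =>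
  if ModularForm.E₄ z ≠ 0 then f z / ModularForm.E₄ z else g z / ModularForm.E₆ z

lemma koszulQuot_E4 {f g : ℍ → ℂ}
    (h : (⇑ModularForm.E₆ : ℍ → ℂ) * f = (⇑ModularForm.E₄ : ℍ → ℂ) * g) (z : ℍ) :
    ModularForm.E₄ z * koszulQuot f g z = f z := by
  unfold koszulQuot
  split_ifs with h4
  · field_simp
  · have h4' : ModularForm.E₄ z = 0 := not_not.mp h4
    have h6 : ModularForm.E₆ z ≠ 0 := (E4_ne_zero_or_E6_ne_zero z).resolve_left h4
    have hz := congrFun h z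
    simp only [Pi.mul_apply] at hz
    rw [h4', zero_mul] at hz ⊢
    exact ((mul_eq_zero.mp hz).resolve_left h6).symm

lemma koszulQuot_E6 {f g : ℍ → ℂ}
    (h : (⇑ModularForm.E₆ : ℍ → ℂ) * f = (⇑ModularForm.E₄ : ℍ → ℂ) * g) (z : ℍ) :
    ModularForm.E₆ z * koszulQuot f g z = g z := by
  have hz := congrFun h z
  simp only [Pi.mul_apply] at hz
  unfold koszulQuot
  split_ifs with h4
  · rw [← mul_div_assoc, hz]
    field_simp
  · have h6 : ModularForm.E₆ z ≠ 0 := (E4_ne_zero_or_E6_ne_zero z).resolve_left h4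
    field_simp

lemma koszulQuot_mul_E4 {f g : ℍ → ℂ}
    (h : (⇑ModularForm.E₆ : ℍ → ℂ) * f = (⇑ModularForm.E₄ : ℍ → ℂ) * g) :
    (⇑ModularForm.E₄ : ℍ → ℂ) * koszulQuot f g = f :=
  funext fun z => koszulQuot_E4 h z

lemma koszulQuot_mul_E6 {f g : ℍ → ℂ}
    (h : (⇑ModularForm.E₆ : ℍ → ℂ) * f = (⇑ModularForm.E₄ : ℍ → ℂ) * g) :
    (⇑ModularForm.E₆ : ℍ → ℂ) * koszulQuot f g = g :=
  funext fun z => koszulQuot_E6 h z

/-- Local criterion: if `e * u = f` with `e, f` holomorphic and `e τ ≠ 0`, then `u` is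
holomorphic at `τ`. -/
lemma mdiffAt_of_mul_eq {e u f : ℍ → ℂ} (he : MDiff e) (hf : MDiff f)
    (h : ∀ z, e z * u z = f z) (τ : ℍ) (hτ : e τ ≠ 0) : MDiffAt u τ := by
  rw [UpperHalfPlane.mdifferentiableAt_iff]
  have he' : DifferentiableAt ℂ (e ∘ ofComplex) ↑τ := UpperHalfPlane.mdifferentiableAt_iff.mp (he τ)
  have hf' : DifferentiableAt ℂ (f ∘ ofComplex) ↑τ := UpperHalfPlane.mdifferentiableAt_iff.mp (hf τ)
  have hne : (e ∘ ofComplex) ↑τ ≠ 0 := by
    simpa [Function.comp, ofComplex_apply] using hτ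
  have hev : ∀ᶠ w in nhds (τ : ℂ), (e ∘ ofComplex) w ≠ 0 :=
    he'.continuousAt.eventually_ne hne
  refine (hf'.div he' hne).congr_of_eventuallyEq ?_
  filter_upwards [hev] with w hw
  have := h (ofComplex w)
  simp only [Function.comp, Pi.div_apply] at hw ⊢
  rw [← this, mul_div_cancel_left₀ _ hw]

end KoszulAux

open KoszulAux

/-- Koszul exactness: `(E₄, E₆)` is a regular sequence on `⨁ MFun Γ k`. -/
theorem koszul {k : ℤ} {f g : ℍ → ℂ} (hf : f ∈ MFun Γ k) (hg : g ∈ MFun Γ (k + 2))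
    (h : (⇑ModularForm.E₆ : ℍ → ℂ) * f = (⇑ModularForm.E₄ : ℍ → ℂ) * g) :
    ∃ u ∈ MFun Γ (k - 4), f = (⇑ModularForm.E₄ : ℍ → ℂ) * u := by
  have hE4 := E4_mem
  have hE6 := E6_mem
  refine ⟨koszulQuot f g, ⟨?_, ?_, ?_⟩, (koszulQuot_mul_E4 h).symm⟩
  · -- holomorphic
    intro τ
    rcases E4_ne_zero_or_E6_ne_zero τ with h4 | h6
    · exact mdiffAt_of_mul_eq hE4.1 hf.1 (koszulQuot_E4 h) τ h4
    · exact mdiffAt_of_mul_eq hE6.1 hg.1 (koszulQuot_E6 h) τ h6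
  · -- invariance
    intro γ hγ
    have h4 : (⇑ModularForm.E₄ : ℍ → ℂ) * (koszulQuot f g ∣[k - 4] γ) = f := by
      have := mul_slash_SL2 4 (k - 4) γ (⇑ModularForm.E₄ : ℍ → ℂ) (koszulQuot f g)
      rw [hE4.2.1 γ (Subgroup.mem_top γ), koszulQuot_mul_E4 h,
        show (4 : ℤ) + (k - 4) = k by ring, hf.2.1 γ hγ] at this
      exact this.symm
    have h6 : (⇑ModularForm.E₆ : ℍ → ℂ) * (koszulQuot f g ∣[k - 4] γ) = g := by
      have := mul_slash_SL2 6 (k - 4) γ (⇑ModularForm.E₆ : ℍ → ℂ) (koszulQuot f g)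
      rw [hE6.2.1 γ (Subgroup.mem_top γ), koszulQuot_mul_E6 h,
        show (6 : ℤ) + (k - 4) = k + 2 by ring, hg.2.1 γ hγ] at this
      exact this.symm
    funext z
    have h4z := congrFun h4 z
    have h6z := congrFun h6 z
    simp only [Pi.mul_apply] at h4z h6z
    rcases E4_ne_zero_or_E6_ne_zero z with hz | hz
    · exact mul_left_cancel₀ hz (h4z.trans (koszulQuot_E4 h z).symm)
    · exact mul_left_cancel₀ hz (h6z.trans (koszulQuot_E6 h z).symm)
  · -- bounded at infinity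
    intro γ
    have h4 : (⇑ModularForm.E₄ : ℍ → ℂ) * (koszulQuot f g ∣[k - 4] γ) = f ∣[k] γ := by
      have := mul_slash_SL2 4 (k - 4) γ (⇑ModularForm.E₄ : ℍ → ℂ) (koszulQuot f g)
      rw [hE4.2.1 γ (Subgroup.mem_top γ), koszulQuot_mul_E4 h,
        show (4 : ℤ) + (k - 4) = k by ring] at this
      exact this.symm
    have hb : IsBoundedAtImInfty (f ∣[k] γ) := hf.2.2 γ
    have hinv : Filter.Tendsto (fun z => (ModularForm.E₄ z)⁻¹) atImInfty (nhds 1) := by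
      simpa using tendsto_E4.inv₀ one_ne_zero
    have hbinv : IsBoundedAtImInfty (fun z => (ModularForm.E₄ z)⁻¹) := hinv.isBigO_one ℝ
    have hev : ∀ᶠ z in atImInfty, ModularForm.E₄ z ≠ 0 := tendsto_E4.eventually_ne one_ne_zero
    have hmul : IsBoundedAtImInfty ((f ∣[k] γ) * fun z => (ModularForm.E₄ z)⁻¹) := hb.mul hbinv
    refine Asymptotics.IsBigO.congr' hmul ?_ Filter.EventuallyEq.rfl
    filter_upwards [hev] with z hz
    have h4z := congrFun h4 z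
    simp only [Pi.mul_apply] at h4z ⊢
    rw [← h4z]
    field_simp

/-- `E₄` is not a zero divisor. -/
theorem E4_mul_eq_zero {f : ℍ → ℂ} (hf : MDiff f)
    (h : (⇑ModularForm.E₄ : ℍ → ℂ) * f = 0) : f = 0 := by
  rcases eq_zero_or_eq_zero_of_mul_eq_zero E4_mem.1 hf h with h4 | h4
  · exfalso
    have h1 := tendsto_E4
    rw [h4] at h1
    have h0 : Filter.Tendsto (0 : ℍ → ℂ) atImInfty (nhds 0) := tendsto_const_nhds
    exact zero_ne_one (tendsto_nhds_unique h0 h1)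
  · exact h4

namespace KoszulAux

lemma E6_pow_mem (n : ℕ) : ((⇑ModularForm.E₆ : ℍ → ℂ) ^ n) ∈ MFun ⊤ (6 * (n : ℤ)) := by
  induction n with
  | zero => simpa using one_mem_MFun_zero ⊤
  | succ n ih =>
    rw [pow_succ]
    have h := mul_mem_MFun ih E6_mem
    have e : (6 : ℤ) * ((n + 1 : ℕ) : ℤ) = 6 * (n : ℤ) + 6 := by push_cast; ring
    rw [e]
    exact h

lemma E6_pow_ne_E4_mul (n : ℕ) {b : ℍ → ℂ} (hb : b ∈ MFun ⊤ (6 * (n : ℤ) - 4)) :
    (⇑ModularForm.E₆ : ℍ → ℂ) ^ n ≠ (⇑ModularForm.E₄ : ℍ → ℂ) * b := by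
  induction n generalizing b with
  | zero =>
    intro h
    have hbot := MFun_top_eq_bot_of_neg (k := 6 * ((0 : ℕ) : ℤ) - 4) (by norm_num)
    rw [hbot, Submodule.mem_bot] at hb
    subst hb
    have := congrFun h UpperHalfPlane.I
    simp at this
  | succ n ih =>
    intro h
    have h' : (⇑ModularForm.E₆ : ℍ → ℂ) * (⇑ModularForm.E₆ : ℍ → ℂ) ^ n =
        (⇑ModularForm.E₄ : ℍ → ℂ) * b := by
      rw [← h, pow_succ, mul_comm]
    have e : (6 : ℤ) * ((n + 1 : ℕ) : ℤ) - 4 = 6 * (n : ℤ) + 2 := by push_cast; ring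
    rw [e] at hb
    obtain ⟨u, hu, hfu⟩ := koszul (E6_pow_mem n) hb h'
    exact ih hu hfu

/-- Multiplication by `E₄` as a linear map between level-one spaces. -/
noncomputable def mulE4 (w : ℤ) : MFun ⊤ (w - 4) →ₗ[ℂ] MFun ⊤ w where
  toFun b := ⟨(⇑ModularForm.E₄ : ℍ → ℂ) * b.1, mul_mem_MFun' E4_mem b.2 (by ring)⟩
  map_add' x y := by
    apply Subtype.ext
    simp [mul_add]
  map_smul' c x := by
    apply Subtype.ext
    simp

lemma mulE4_injective (w : ℤ) : Function.Injective (mulE4 w) := by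
  rw [← LinearMap.ker_eq_bot, LinearMap.ker_eq_bot']
  intro b hb
  have h0 : (⇑ModularForm.E₄ : ℍ → ℂ) * b.1 = 0 := congrArg Subtype.val hb
  exact Subtype.ext (E4_mul_eq_zero b.2.1 h0)

lemma decomp_arith (k : ℕ) (hk : Even k) :
    (if k % 12 = 2 then k / 12 else k / 12 + 1) =
      (if k < 4 then 0 else (if (k - 4) % 12 = 2 then (k - 4) / 12 else (k - 4) / 12 + 1)) +
        (if k % 6 = 0 then 1 else 0) := by
  obtain ⟨m, rfl⟩ := hk
  split_ifs <;> omega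

lemma finrank_MFun_top_sub_four (k : ℕ) (hk : Even k) :
    Module.finrank ℂ (MFun ⊤ ((k : ℤ) - 4)) =
      if k < 4 then 0 else (if (k - 4) % 12 = 2 then (k - 4) / 12 else (k - 4) / 12 + 1) := by
  by_cases h4 : k < 4
  · rw [if_pos h4]
    have hbot := MFun_top_eq_bot_of_neg (k := (k : ℤ) - 4) (by omega)
    rw [hbot]
    exact finrank_bot ℂ (ℍ → ℂ)
  · rw [if_neg h4]
    have e : ((k : ℤ) - 4) = ((k - 4 : ℕ) : ℤ) := by omega
    have hk' : Even (k - 4) := by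
      obtain ⟨m, rfl⟩ := hk
      exact ⟨m - 2, by omega⟩
    rw [e, finrank_MFun_top (k - 4) hk']

end KoszulAux

/-- Level one: `A_w = E₄ · A_(w-4) + ℂ · E₆^n`, the second term only if `w = 6 n`. -/
theorem exists_decomp_level_one {w : ℤ} {a : ℍ → ℂ} (ha : a ∈ MFun ⊤ w) :
    ∃ (c : ℂ) (n : ℕ) (a' : ℍ → ℂ), a' ∈ MFun ⊤ (w - 4) ∧ (c ≠ 0 → w = 6 * n) ∧
      a = c • (⇑ModularForm.E₆ : ℍ → ℂ) ^ n + (⇑ModularForm.E₄ : ℍ → ℂ) * a' := by
  have triv : a = 0 → ∃ (c : ℂ) (n : ℕ) (a' : ℍ → ℂ), a' ∈ MFun ⊤ (w - 4) ∧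
      (c ≠ 0 → w = 6 * n) ∧
      a = c • (⇑ModularForm.E₆ : ℍ → ℂ) ^ n + (⇑ModularForm.E₄ : ℍ → ℂ) * a' := by
    intro h0
    exact ⟨0, 0, 0, Submodule.zero_mem _, fun h => absurd rfl h, by simp [h0]⟩
  rcases lt_or_ge w 0 with hneg | hnonneg
  · apply triv
    have hbot := MFun_top_eq_bot_of_neg hneg
    rw [hbot, Submodule.mem_bot] at ha
    exact ha
  rcases Int.even_or_odd w with hev | hodd
  swap
  · apply triv
    have hbot := MFun_top_eq_bot_of_odd hodd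
    rw [hbot, Submodule.mem_bot] at ha
    exact ha
  obtain ⟨k, rfl⟩ := Int.eq_ofNat_of_zero_le hnonneg
  have hk : Even k := by exact_mod_cast hev
  -- the range of multiplication by E₄
  set W : Submodule ℂ (MFun ⊤ (k : ℤ)) := LinearMap.range (mulE4 (k : ℤ)) with hW
  have hWrank : Module.finrank ℂ W = Module.finrank ℂ (MFun ⊤ ((k : ℤ) - 4)) :=
    LinearMap.finrank_range_of_inj (mulE4_injective _)
  have hquot : Module.finrank ℂ (MFun ⊤ (k : ℤ) ⧸ W) = if k % 6 = 0 then 1 else 0 := by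
    have h1 := Submodule.finrank_quotient_add_finrank W
    rw [hWrank, finrank_MFun_top_sub_four k hk, finrank_MFun_top k hk, decomp_arith k hk] at h1
    omega
  by_cases h6 : k % 6 = 0
  · -- codimension one, spanned by E₆ ^ n
    rw [if_pos h6] at hquot
    set n := k / 6 with hn
    have hkn : (k : ℤ) = 6 * (n : ℤ) := by omega
    have hE6 : ((⇑ModularForm.E₆ : ℍ → ℂ) ^ n) ∈ MFun ⊤ (k : ℤ) := by
      rw [hkn]; exact E6_pow_mem n
    set v : MFun ⊤ (k : ℤ) ⧸ W := Submodule.Quotient.mk ⟨_, hE6⟩ with hv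
    have hv0 : v ≠ 0 := by
      rw [hv, Ne, Submodule.Quotient.mk_eq_zero]
      rintro ⟨b, hb⟩
      have hb1 : (⇑ModularForm.E₄ : ℍ → ℂ) * b.1 = (⇑ModularForm.E₆ : ℍ → ℂ) ^ n :=
        congrArg Subtype.val hb
      have hbm : b.1 ∈ MFun ⊤ (6 * (n : ℤ) - 4) := by rw [← hkn]; exact b.2
      exact E6_pow_ne_E4_mul n hbm hb1.symm
    obtain ⟨c, hc⟩ := (finrank_eq_one_iff_of_nonzero' v hv0).mp hquot
      (Submodule.Quotient.mk ⟨a, ha⟩)
    have hmem : (⟨a, ha⟩ : MFun ⊤ (k : ℤ)) - c • ⟨_, hE6⟩ ∈ W := by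
      rw [← Submodule.Quotient.mk_eq_zero, Submodule.Quotient.mk_sub,
        Submodule.Quotient.mk_smul, ← hv, hc, sub_self]
    obtain ⟨b, hb⟩ := hmem
    have hb1 : (⇑ModularForm.E₄ : ℍ → ℂ) * b.1 = a - c • (⇑ModularForm.E₆ : ℍ → ℂ) ^ n :=
      congrArg Subtype.val hb
    refine ⟨c, n, b.1, b.2, fun _ => hkn, ?_⟩
    rw [hb1]; ring
  · -- multiplication by E₄ is onto
    rw [if_neg h6] at hquot
    have hsub : Subsingleton (MFun ⊤ (k : ℤ) ⧸ W) := Module.finrank_zero_iff.mp hquot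
    have hmem : (⟨a, ha⟩ : MFun ⊤ (k : ℤ)) ∈ W := by
      rw [← Submodule.Quotient.mk_eq_zero]
      exact Subsingleton.elim _ _
    obtain ⟨b, hb⟩ := hmem
    have hb1 : (⇑ModularForm.E₄ : ℍ → ℂ) * b.1 = a := congrArg Subtype.val hb
    exact ⟨0, 0, b.1, b.2, fun h => absurd rfl h, by simp [hb1]⟩

end Fermat.Agent.S20
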