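import Mathlib

/-! Simultaneous discrete Fourier transform on the cycles of a permutation (S20, package P5). -/

set_option autoImplicit false
set_option linter.unusedSectionVars false

open Finset

namespace Fermat.Agent.S20.PermDFT

/-- The number of orbits (cycles, including fixed points) of a permutation. -/
noncomputable def numOrbits {X : Type*} (σ : Equiv.Perm X) : ℕ :=
  Nat.card (MulAction.orbitRel.Quotient (Subgroup.zpowers σ) X)

section Model

variable {Ω : Type} [Fintype Ω] [DecidableEq Ω] (n : Ω → ℕ) [∀ ω, NeZero (n ω)]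

/-- The block DFT matrix on the model `Σ ω, ZMod (n ω)`. -/
noncomputable def modelB (x y : Σ ω, ZMod (n ω)) : ℂ :=
  if h : x.1 = y.1 then ZMod.stdAddChar (-(x.2 * (h ▸ y.2 : ZMod (n x.1)))) else 0

/-- The exponents on the model. -/
noncomputable def modelθ (x : Σ ω, ZMod (n ω)) : ℝ := (x.2.val : ℝ) / (n x.1 : ℝ)

lemma modelθ_nonneg (x : Σ ω, ZMod (n ω)) : 0 ≤ modelθ n x := by
  unfold modelθ; positivity

lemma modelθ_lt_one (x : Σ ω, ZMod (n ω)) : modelθ n x < 1 := by
  unfold modelθ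
  have hn : (0 : ℝ) < (n x.1 : ℝ) := by exact_mod_cast Nat.pos_of_ne_zero (NeZero.ne (n x.1))
  rw [div_lt_one hn]
  exact_mod_cast ZMod.val_lt x.2

lemma sum_modelB_mul (x : Σ ω, ZMod (n ω)) (w : (Σ ω, ZMod (n ω)) → ℂ) :
    ∑ y, modelB n x y * w y
      = ∑ k : ZMod (n x.1), ZMod.stdAddChar (-(x.2 * k)) * w ⟨x.1, k⟩ := by
  rw [Fintype.sum_sigma, Finset.sum_eq_single x.1]
  · refine Finset.sum_congr rfl fun k _ => ?_
    simp [modelB]
  · intro ω _ hω
    refine Finset.sum_eq_zero fun k _ => ?_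
    simp [modelB, Ne.symm hω]
  · intro h; exact absurd (Finset.mem_univ _) h

lemma modelB_eigen (x : Σ ω, ZMod (n ω)) (v : (Σ ω, ZMod (n ω)) → ℂ) :
    ∑ y, modelB n x y * v ⟨y.1, y.2 + 1⟩
      = Complex.exp (2 * Real.pi * Complex.I * modelθ n x) * ∑ y, modelB n x y * v y := by
  rw [sum_modelB_mul n x (fun y => v ⟨y.1, y.2 + 1⟩), sum_modelB_mul n x v]
  have hexp : Complex.exp (2 * Real.pi * Complex.I * modelθ n x) = ZMod.stdAddChar x.2 := by
    rw [ZMod.stdAddChar_apply, ZMod.toCircle_apply]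
    congr 1
    unfold modelθ
    push_cast
    ring
  rw [hexp]
  have hchar : ∀ k : ZMod (n x.1), ZMod.stdAddChar (-(x.2 * k))
      = ZMod.stdAddChar x.2 * ZMod.stdAddChar (-(x.2 * (k + 1))) := by
    intro k
    rw [← AddChar.map_add_eq_mul]
    congr 1
    ring
  set F : ZMod (n x.1) → ℂ := fun k => ZMod.stdAddChar (-(x.2 * k)) * v ⟨x.1, k⟩ with hF
  have hre : ∑ k : ZMod (n x.1), F (k + 1) = ∑ k : ZMod (n x.1), F k :=
    Fintype.sum_equiv (Equiv.addRight (1 : ZMod (n x.1))) _ _ (fun k => rfl)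
  rw [← hre, Finset.mul_sum]
  refine Finset.sum_congr rfl fun k _ => ?_
  rw [hF]
  simp only
  rw [hchar k, mul_assoc]

lemma modelB_mulVec_injective :
    Function.Injective (Matrix.mulVec (Matrix.of (modelB n))) := by
  intro v w hvw
  funext ⟨ω, j⟩
  have key : ∀ u : (Σ ω, ZMod (n ω)) → ℂ, ∀ m : ZMod (n ω),
      Matrix.mulVec (Matrix.of (modelB n)) u ⟨ω, m⟩ = ZMod.dft (fun k => u ⟨ω, k⟩) m := by
    intro u m
    rw [ZMod.dft_apply]
    simp only [Matrix.mulVec, dotProduct, Matrix.of_apply]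
    rw [sum_modelB_mul n ⟨ω, m⟩ u]
    refine Finset.sum_congr rfl fun k _ => ?_
    rw [smul_eq_mul, mul_comm m k]
  have h2 : ZMod.dft (fun k => v ⟨ω, k⟩) = ZMod.dft (fun k => w ⟨ω, k⟩) := by
    funext m
    rw [← key v m, ← key w m, hvw]
  have h3 := (ZMod.dft (N := n ω) (E := ℂ)).injective h2
  exact congrFun h3 j

lemma modelB_det_ne_zero : (Matrix.of (modelB n)).det ≠ 0 := by
  have h := (Matrix.mulVec_injective_iff_isUnit (A := Matrix.of (modelB n))).mp
    (modelB_mulVec_injective n)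
  exact ((Matrix.isUnit_iff_isUnit_det _).mp h).ne_zero

lemma sum_val_zmod (N : ℕ) [NeZero N] : ∑ m : ZMod N, (m.val : ℝ) = (N : ℝ) * ((N : ℝ) - 1) / 2 := by
  rcases N with _ | N
  · exact absurd rfl (NeZero.ne 0)
  · change ∑ m : Fin (N + 1), ((m : ℕ) : ℝ) = _
    rw [Fin.sum_univ_eq_sum_range (fun i => (i : ℝ)) (N + 1)]
    have h2 : ((∑ i ∈ range (N + 1), i : ℕ) : ℝ) * 2 = ((N : ℝ) + 1) * (N : ℝ) := by
      have := Finset.sum_range_id_mul_two (N + 1)
      simp only [Nat.add_sub_cancel] at this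
      exact_mod_cast this
    push_cast at h2 ⊢
    linarith

lemma sum_modelθ :
    ∑ x, modelθ n x = ((Fintype.card (Σ ω, ZMod (n ω)) : ℝ) - Fintype.card Ω) / 2 := by
  rw [Fintype.sum_sigma, Fintype.card_sigma]
  have h1 : ∀ ω : Ω, ∑ m : ZMod (n ω), modelθ n ⟨ω, m⟩ = ((n ω : ℝ) - 1) / 2 := by
    intro ω
    have hn : (n ω : ℝ) ≠ 0 := by exact_mod_cast NeZero.ne (n ω)
    simp only [modelθ]
    rw [← Finset.sum_div, sum_val_zmod]
    field_simp
  rw [Finset.sum_congr rfl fun ω _ => h1 ω]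
  simp only [ZMod.card]
  rw [← Finset.sum_div]
  push_cast
  rw [Finset.sum_sub_distrib]
  simp

end Model

section Perm

variable {X : Type} [Fintype X] (σ : Equiv.Perm X)

lemma minimalPeriod_ne_zero (b : X) : Function.minimalPeriod (σ • ·) b ≠ 0 := by
  have hpt : Function.IsPeriodicPt (σ • ·) (orderOf σ) b := by
    rw [MulAction.isPeriodicPt_smul_iff, pow_orderOf_eq_one, one_smul]
  exact (Function.minimalPeriod_pos_of_mem_periodicPts
    (Function.mk_mem_periodicPts (orderOf_pos σ) hpt)).ne'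

/-- The decomposition of `X` into the cycles of `σ`. -/
noncomputable def cycleEquiv : X ≃ Σ ω : MulAction.orbitRel.Quotient (Subgroup.zpowers σ) X,
    ZMod (Function.minimalPeriod (σ • ·) ω.out) :=
  (MulAction.selfEquivSigmaOrbits (Subgroup.zpowers σ) X).trans
    (Equiv.sigmaCongrRight fun ω => MulAction.orbitZPowersEquiv σ ω.out)

lemma cycleEquiv_symm_apply (ω : MulAction.orbitRel.Quotient (Subgroup.zpowers σ) X)
    (k : ZMod (Function.minimalPeriod (σ • ·) ω.out)) :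
    (cycleEquiv σ).symm ⟨ω, k⟩ = ((MulAction.orbitZPowersEquiv σ ω.out).symm k : X) := rfl

lemma cycleEquiv_symm_add_one (ω : MulAction.orbitRel.Quotient (Subgroup.zpowers σ) X)
    (k : ZMod (Function.minimalPeriod (σ • ·) ω.out)) :
    (cycleEquiv σ).symm ⟨ω, k + 1⟩ = σ ((cycleEquiv σ).symm ⟨ω, k⟩) := by
  rw [cycleEquiv_symm_apply, cycleEquiv_symm_apply]
  obtain ⟨j, rfl⟩ := ZMod.intCast_surjective k
  have h1 : ((j : ZMod (Function.minimalPeriod (σ • ·) ω.out)) + 1)
      = ((j + 1 : ℤ) : ZMod (Function.minimalPeriod (σ • ·) ω.out)) := by push_cast; rfl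
  rw [h1, MulAction.orbitZPowersEquiv_symm_apply', MulAction.orbitZPowersEquiv_symm_apply']
  rw [add_comm, zpow_add, zpow_one, mul_smul]
  rfl

end Perm

theorem exists_dft {X : Type} [Fintype X] [DecidableEq X] (σ : Equiv.Perm X) :
    ∃ (θ : X → ℝ) (B : Matrix X X ℂ),
      (∀ x, 0 ≤ θ x ∧ θ x < 1) ∧ B.det ≠ 0 ∧
      (∀ (x : X) (v : X → ℂ), ∑ y, B x y * v (σ y) =
          Complex.exp (2 * Real.pi * Complex.I * θ x) * ∑ y, B x y * v y) ∧
      ∑ x, θ x = ((Fintype.card X : ℝ) - numOrbits σ) / 2 := by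
  classical
  let _ : Fintype (MulAction.orbitRel.Quotient (Subgroup.zpowers σ) X) := Fintype.ofFinite _
  set n : MulAction.orbitRel.Quotient (Subgroup.zpowers σ) X → ℕ :=
    fun ω => Function.minimalPeriod (σ • ·) ω.out with hn
  have : ∀ ω, NeZero (n ω) := fun ω => ⟨minimalPeriod_ne_zero σ ω.out⟩
  set E := cycleEquiv σ with hE
  refine ⟨fun x => modelθ n (E x), (Matrix.of (modelB n)).submatrix E E,
    fun x => ⟨modelθ_nonneg n _, modelθ_lt_one n _⟩, ?_, ?_, ?_⟩
  · rw [Matrix.det_submatrix_equiv_self]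
    exact modelB_det_ne_zero n
  · intro x v
    have h1 : ∀ w : X → ℂ, ∑ y, (Matrix.of (modelB n)).submatrix E E x y * w y
        = ∑ m, modelB n (E x) m * w (E.symm m) := by
      intro w
      refine Fintype.sum_equiv E _ _ fun y => ?_
      simp
    rw [h1 (fun y => v (σ y)), h1 v]
    have h2 := modelB_eigen n (E x) (fun m => v (E.symm m))
    rw [← h2]
    refine Finset.sum_congr rfl fun m _ => ?_
    obtain ⟨ω, k⟩ := m
    rw [hE, cycleEquiv_symm_add_one]
  · have h1 : ∑ x, modelθ n (E x) = ∑ m, modelθ n m := Equiv.sum_comp E (modelθ n)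
    rw [h1, sum_modelθ, Fintype.card_congr E.symm]
    unfold numOrbits
    rw [Nat.card_eq_fintype_card]

end Fermat.Agent.S20.PermDFT
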