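import Fermat.Agent.S20.Defs

/-! S20 package P7a, core: trace identities at the elliptic points `i` and `ρ`
(sorry-free; depends on `Defs` only). -/

set_option autoImplicit false

open UpperHalfPlane ModularForm CongruenceSubgroup
open scoped MatrixGroups Manifold ModularForm

namespace Fermat.Agent.S20.TraceCore

/-- Abstract trace identity: if an invertible square matrix `M` satisfies
`M (π x) j = d j * M x j` for a self-map `π` of the row index, then the number of fixed points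
of `π` is `∑ j, d j`. -/
theorem card_fixed_eq_sum_of_matrix {X : Type*} [Fintype X] [DecidableEq X]
    (M : Matrix X X ℂ) (hM : M.det ≠ 0) (π : X → X) (d : X → ℂ)
    (h : ∀ x j, M (π x) j = d j * M x j) :
    (Fintype.card {x : X // π x = x} : ℂ) = ∑ j, d j := by
  classical
  let P : Matrix X X ℂ := Matrix.of fun x y => if π x = y then (1 : ℂ) else 0
  have hPM : P * M = M * Matrix.diagonal d := by
    ext x j
    rw [Matrix.mul_apply, Matrix.mul_diagonal]
    simp only [P, Matrix.of_apply, ite_mul, one_mul, zero_mul, Finset.sum_ite_eq, Finset.mem_univ,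
      if_true]
    rw [h x j, mul_comm]
  have hunit : IsUnit M.det := isUnit_iff_ne_zero.mpr hM
  have hP : P = M * Matrix.diagonal d * M⁻¹ := by
    rw [← hPM, Matrix.mul_assoc, Matrix.mul_nonsing_inv _ hunit, Matrix.mul_one]
  have htr : P.trace = ∑ j, d j := by
    rw [hP, Matrix.trace_mul_cycle, Matrix.nonsing_inv_mul _ hunit, Matrix.one_mul,
      Matrix.trace_diagonal]
  rw [← htr, Matrix.trace]
  simp only [Matrix.diag_apply, P, Matrix.of_apply]
  rw [Finset.sum_boole, Fintype.card_subtype]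

theorem S_smul_I : ModularGroup.S • UpperHalfPlane.I = UpperHalfPlane.I := by
  rw [UpperHalfPlane.ext_iff, modular_S_smul, UpperHalfPlane.coe_mk]
  simp [UpperHalfPlane.I]

theorem denom_S_I : denom ModularGroup.S UpperHalfPlane.I = Complex.I := by
  rw [ModularGroup.denom_S]
  rfl

theorem ST_smul_ρ : (ModularGroup.S * ModularGroup.T) • ρ = ρ := by
  rw [mul_smul, ← ModularGroup.SL_neg_smul ModularGroup.S, ← ModularGroup.S_inv,
    inv_smul_eq_iff, eq_comm, UpperHalfPlane.ext_iff, modular_S_smul, modular_T_smul,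
    UpperHalfPlane.coe_mk, coe_vadd, ← mul_one (_ : ℂ)⁻¹,
    inv_mul_eq_iff_eq_mul₀ (neg_ne_zero.mpr ρ.ne_zero)]
  grind [ρ_sq, Complex.ofReal_one]

theorem denom_ST_ρ (g : SL(2, ℤ)) (hg : g = ModularGroup.S * ModularGroup.T) :
    denom g ρ = Complex.exp (Real.pi * Complex.I / 3) := by
  have h1 : denom g ρ = (ρ : ℂ) + 1 := by
    rw [ModularGroup.denom_apply, hg]
    simp [ModularGroup.S, ModularGroup.T]
  rw [h1]
  have h2 : Complex.exp (Real.pi * Complex.I / 3) =
      Complex.cos (Real.pi / 3) + Complex.sin (Real.pi / 3) * Complex.I := by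
    rw [← Complex.exp_mul_I]
    congr 1
    ring
  rw [h2]
  have h3 : Complex.cos (Real.pi / 3) = ((Real.cos (Real.pi / 3) : ℝ) : ℂ) := by
    push_cast; rfl
  have h4 : Complex.sin (Real.pi / 3) = ((Real.sin (Real.pi / 3) : ℝ) : ℂ) := by
    push_cast; rfl
  rw [h3, h4, Real.cos_pi_div_three, Real.sin_pi_div_three]
  apply Complex.ext <;> simp [ρ]
  · norm_num

/-- Rows of the fundamental matrix at a fixed point `z` of `σ` are permuted by `σ⁻¹` up to the
automorphy factor. -/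
theorem fundMatrix_inv_smul {Γ : Subgroup SL(2, ℤ)} {J : Type} {κ : J → ℤ} {φ : J → ℍ → ℂ}
    (hinv : ∀ j, ∀ γ ∈ Γ, φ j ∣[κ j] γ = φ j) (σ : SL(2, ℤ)) (z : ℍ)
    (hz : σ • z = z) (x : SL(2, ℤ) ⧸ Γ) (j : J) :
    fundMatrix Γ κ φ z (σ⁻¹ • x) j = denom σ z ^ (-κ j) * fundMatrix Γ κ φ z x j := by
  have h := congrFun (comp_slash (hinv j) σ x) z
  rw [SL_slash_apply, hz] at h
  simp only [fundMatrix, Matrix.of_apply]
  rw [← h, mul_comm]

variable {Γ : Subgroup SL(2, ℤ)} [Γ.FiniteIndex] [Fintype (SL(2, ℤ) ⧸ Γ)]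
  [DecidableEq (SL(2, ℤ) ⧸ Γ)] {κ : SL(2, ℤ) ⧸ Γ → ℤ} {φ : SL(2, ℤ) ⧸ Γ → ℍ → ℂ}

omit [Γ.FiniteIndex] in
/-- General trace formula at a fixed point. -/
theorem card_fixedBy_eq_sum_denom (hinv : ∀ j, ∀ γ ∈ Γ, φ j ∣[κ j] γ = φ j) (σ : SL(2, ℤ))
    (z : ℍ) (hz : σ • z = z) (hdet : (fundMatrix Γ κ φ z).det ≠ 0) :
    (Nat.card (MulAction.fixedBy (SL(2, ℤ) ⧸ Γ) σ) : ℂ) = ∑ j, denom σ z ^ (-κ j) := by
  have h := card_fixed_eq_sum_of_matrix (fundMatrix Γ κ φ z) hdet (fun x => σ⁻¹ • x)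
    (fun j => denom σ z ^ (-κ j)) (fun x j => fundMatrix_inv_smul hinv σ z hz x j)
  rw [← h, Nat.card_eq_fintype_card]
  congr 1
  apply Fintype.card_congr
  exact Equiv.subtypeEquivRight (fun x => by
    rw [MulAction.mem_fixedBy, inv_smul_eq_iff, eq_comm])

theorem trace_S (hb : IsHomBasis Γ κ φ) (hd : DetFormula Γ κ φ) :
    (numFixS Γ : ℂ) = ∑ j, Complex.I ^ (-κ j) := by
  have h := card_fixedBy_eq_sum_denom (fun j => (hb.mem j).2.1) ModularGroup.S UpperHalfPlane.I
    S_smul_I (hd.det_ne_zero _)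
  rw [denom_S_I] at h
  exact h

theorem trace_ST (hb : IsHomBasis Γ κ φ) (hd : DetFormula Γ κ φ) :
    (numFixST Γ : ℂ) = ∑ j, Complex.exp (Real.pi * Complex.I / 3) ^ (-κ j) := by
  have h := card_fixedBy_eq_sum_denom (fun j => (hb.mem j).2.1)
    (ModularGroup.S * ModularGroup.T) ρ ST_smul_ρ (hd.det_ne_zero _)
  rw [denom_ST_ρ _ rfl] at h
  exact h

end Fermat.Agent.S20.TraceCore
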